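/-
P-S16 (Mazur, Eisenstein ideal II.9.7: `T/I = ℤ/n`), shared definitions (helper16).
Blueprint: team note 534 (MOUNTAIN-PLAN v1).  Every work package proves exactly one of the
`Prop`s below; `S16/Main.lean` glues them.
-/
import Mathlib
import Fermat.Prelude.Def_CuspForm_HeckeLocal
import Fermat.Prelude.Def_CuspForm_HeckeEvalForms
import Fermat.Prelude.Def_HeckeGalois_EichlerShimura
import Fermat.Prelude.Def_ModularCurve_ModularUnit

set_option autoImplicit false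

namespace Fermat.Agent.S16

open ModularFormClass ModularCurve CuspForm

/-- A weight-2 modular form on `Γ₀(p)` is *nearly integral* if all its `q`-coefficients of
positive index are integers (no condition on the constant term). -/
def IsNI {p : ℕ} (H : ModularForm (CongruenceSubgroup.Gamma0 p) 2) : Prop :=
  ∀ k : ℕ, 1 ≤ k → ∃ m : ℤ, qCoeff H k = (m : ℂ)

/-- The sum of the divisors of `k` that are prime to `p`. -/
def sigmaP (p k : ℕ) : ℕ := ∑ d ∈ k.divisors with ¬ p ∣ d, d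

/-- The image `I` of the Eisenstein ideal in the integral Hecke algebra `T` of level `p`. -/
noncomputable abbrev eisIdeal (p : ℕ) [Fact p.Prime] : Ideal ↥(heckeLatticeAlgebra p ∅) :=
  Ideal.map ((latticeRestrictHom p ∅).toRingHom.comp (heckeEvalForms p 2)) (eisensteinIdeal p)

/-- WP-E (E1): the Eisenstein series `(p E₂(pz) - E₂(z))/24 = (p-1)/24 + ∑ σ'(k) q^k`. -/
def EisForm (p : ℕ) : Prop :=
  ∃ E : ModularForm (CongruenceSubgroup.Gamma0 p) 2,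
    qCoeff E 0 = ((p : ℂ) - 1) / 24 ∧ ∀ k : ℕ, 1 ≤ k → qCoeff E k = (sigmaP p k : ℂ)

/-- WP-E (E4): a weight-2 modular form on `Γ₀(p)` with vanishing constant term is a cusp form. -/
def CuspOfConstZero (p : ℕ) : Prop :=
  ∀ H : ModularForm (CongruenceSubgroup.Gamma0 p) 2, qCoeff H 0 = 0 →
    ∃ f : CuspForm (CongruenceSubgroup.Gamma0 p) 2, ∀ z, f z = H z

/-- WP-TR: `(p + 1) a₀(H) ∈ ℤ` for nearly integral `H`. -/
def UB_TR (p : ℕ) : Prop :=
  ∀ H : ModularForm (CongruenceSubgroup.Gamma0 p) 2, IsNI H →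
    ∃ z : ℤ, ((p : ℂ) + 1) * qCoeff H 0 = (z : ℂ)

/-- The constant term of a nearly integral form, if rational, has denominator prime to `d`
in the sense `¬ d ∣ den`.  (`d = ℓ` for WP-SD, `d = 8` for WP-U2, `d = 9` for WP-U3.) -/
def UB_den (p d : ℕ) : Prop :=
  ∀ H : ModularForm (CongruenceSubgroup.Gamma0 p) 2, IsNI H →
    ∀ r : ℚ, qCoeff H 0 = (r : ℂ) → ¬ d ∣ r.den

/-- There is no weight-2 form on `Γ₀(p)` with `ℓ`-integral rational `q`-expansion, constant term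
`1` and all higher coefficients divisible by `ℓ ^ e` ("no form `≡ 1 mod ℓ ^ e`"). -/
def NoUnitForm (p ℓ e : ℕ) : Prop :=
  ¬ ∃ G : ModularForm (CongruenceSubgroup.Gamma0 p) 2, ∃ r : ℕ → ℚ,
    (∀ k, qCoeff G k = (r k : ℂ)) ∧ (∀ k, ¬ ℓ ∣ (r k).den) ∧ r 0 = 1 ∧
      ∀ k, 1 ≤ k → ((ℓ : ℤ) ^ e) ∣ (r k).num

/-- The full upper bound: `a₀(H) ∈ (ν/24) ℤ`, `ν = gcd(p-1, 12)`. -/
def UB (p : ℕ) : Prop :=
  ∀ H : ModularForm (CongruenceSubgroup.Gamma0 p) 2, IsNI H →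
    ∃ z : ℤ, qCoeff H 0 = (z : ℂ) * ((Nat.gcd (p - 1) 12 : ℂ) / 24)

/-- `ph : ℤ[X_ℓ] → T`, `X_ℓ ↦ T_ℓ (ℓ ≠ p)`, `X_p ↦ U_p`. -/
noncomputable abbrev ph (p : ℕ) [Fact p.Prime] : HeckeAlg →+* ↥(heckeLatticeAlgebra p ∅) :=
  (latticeRestrictHom p ∅).toRingHom.comp (heckeEvalForms p 2)

/-- `ev : ℤ[X_ℓ] → ℤ`, `X_ℓ ↦ 1 + ℓ (ℓ ≠ p)`, `X_p ↦ 1`. -/
noncomputable abbrev ev (p : ℕ) : HeckeAlg →ₐ[ℤ] ℤ :=
  MvPolynomial.aeval (R := ℤ) (eisensteinSystem p)

/-- Block L: the lower bound, in the shape consumed by `Glue.s16_of_bounds`. -/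
def HLB (p : ℕ) [Fact p.Prime] : Prop :=
  ∀ P : HeckeAlg, ph p P = 0 → (eisensteinNumerator p : ℤ) ∣ ev p P

/-- Block A4: the upper bound, in the shape consumed by `Glue.s16_of_bounds`. -/
def HUB (p : ℕ) [Fact p.Prime] : Prop :=
  ∃ P : HeckeAlg, ph p P = 0 ∧ ev p P = eisensteinNumerator p

/-- Block A2 (corollary of the duality `S_ℤ ≃ Hom(T, ℤ)`): a ring homomorphism `ψ : T → ℤ/m`
with `ψ ∘ ph = ev mod m` produces a cusp form in the integral lattice congruent to the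
Eisenstein series modulo `m` (for `m = 0`: equal coefficients). -/
def DualityCor (p : ℕ) [Fact p.Prime] : Prop :=
  ∀ (m : ℕ) (ψ : ↥(heckeLatticeAlgebra p ∅) →+* ZMod m),
    (∀ P : HeckeAlg, ψ (ph p P) = ((ev p P : ℤ) : ZMod m)) →
      ∃ f : CuspForm (CongruenceSubgroup.Gamma0 p) 2, f ∈ intLattice p 2 ∧
        ∀ k : ℕ, 1 ≤ k → ∃ a : ℤ, qCoeff f k = (a : ℂ) ∧ (a : ZMod m) = (sigmaP p k : ZMod m)

end Fermat.Agent.S16
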