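import Mathlib

/-!
# S16, block Z: the algebraic glue

For surjective ring homomorphisms `ph : R →+* T` and `ev : R →+* ℤ`,
`T ⧸ ph(ker ev) ≃ R ⧸ (ker ev ⊔ ker ph) ≃ ℤ ⧸ ev(ker ph)`.  Hence the cardinality of
`T ⧸ ph(ker ev)` is `n` as soon as `ev (ker ph) = (n)`, which follows from a lower bound
(`n ∣ ev P` for all `P ∈ ker ph`) and an upper bound (some `P ∈ ker ph` has `ev P = n`).
-/

set_option autoImplicit false

namespace Fermat.Agent.S16.Glue

open Function

variable {R T : Type*} [CommRing R] [CommRing T]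

/-- `T ⧸ ph(I) ≃ R ⧸ (I ⊔ ker ph)` for surjective `ph`. -/
noncomputable def quotientMapEquiv (ph : R →+* T) (hph : Surjective ph) (I : Ideal R) :
    (R ⧸ (I ⊔ RingHom.ker ph)) ≃+* (T ⧸ Ideal.map ph I) :=
  let f : R →+* T ⧸ Ideal.map ph I := (Ideal.Quotient.mk _).comp ph
  have hf : Surjective f := Ideal.Quotient.mk_surjective.comp hph
  have hker : RingHom.ker f = I ⊔ RingHom.ker ph := by
    ext x
    rw [RingHom.mem_ker, RingHom.comp_apply, Ideal.Quotient.eq_zero_iff_mem,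
      ← Ideal.mem_comap, Ideal.comap_map_of_surjective ph hph, RingHom.ker_eq_comap_bot]
  (Ideal.quotEquivOfEq hker.symm).trans (RingHom.quotientKerEquivOfSurjective hf)

/-- The two quotients `T ⧸ ph(ker ev)` and `S ⧸ ev(ker ph)` are isomorphic. -/
noncomputable def quotientSwapEquiv {S : Type*} [CommRing S] (ph : R →+* T) (hph : Surjective ph)
    (ev : R →+* S) (hev : Surjective ev) :
    (T ⧸ Ideal.map ph (RingHom.ker ev)) ≃+* (S ⧸ Ideal.map ev (RingHom.ker ph)) :=
  (quotientMapEquiv ph hph (RingHom.ker ev)).symm.trans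
    ((Ideal.quotEquivOfEq (sup_comm _ _)).trans (quotientMapEquiv ev hev (RingHom.ker ph)))

/-- **Block Z**: if `n ∣ ev P` for every `P ∈ ker ph` and `ev P = n` for some `P ∈ ker ph`, then
`T ⧸ ph(ker ev)` has exactly `n` elements. -/
theorem card_quotient_map_ker (ph : R →+* T) (hph : Surjective ph) (ev : R →+* ℤ)
    (hev : Surjective ev) (n : ℕ) (hLB : ∀ P : R, ph P = 0 → (n : ℤ) ∣ ev P)
    (hUB : ∃ P : R, ph P = 0 ∧ ev P = n) :
    Nat.card (T ⧸ Ideal.map ph (RingHom.ker ev)) = n := by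
  have hspan : Ideal.map ev (RingHom.ker ph) = Ideal.span {(n : ℤ)} := by
    apply le_antisymm
    · intro z hz
      obtain ⟨P, hP, rfl⟩ := (Ideal.mem_map_iff_of_surjective ev hev).mp hz
      exact Ideal.mem_span_singleton.mpr (hLB P (RingHom.mem_ker.mp hP))
    · rw [Ideal.span_singleton_le_iff_mem]
      obtain ⟨P, hP, hPn⟩ := hUB
      rw [← hPn]
      exact Ideal.mem_map_of_mem ev (RingHom.mem_ker.mpr hP)
  have e1 := quotientSwapEquiv ph hph ev hev
  have e2 : (ℤ ⧸ Ideal.map ev (RingHom.ker ph)) ≃+* ZMod n :=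
    (Ideal.quotEquivOfEq hspan).trans (Int.quotientSpanNatEquivZMod n)
  rw [Nat.card_congr (e1.trans e2).toEquiv, Nat.card_zmod]

end Fermat.Agent.S16.Glue
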