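import Fermat.Prelude.Def_CuspForm_HeckeLocal
import Fermat.Prelude.Def_CuspForm_HeckeEvalForms
import Fermat.Prelude.Def_HeckeGalois_EichlerShimura
import Fermat.Prelude.Def_ModularCurve_ModularUnit
import Fermat.Agent.S16.Glue

/-!
# S16, block Z (second half): the statement S16 from the lower and the upper bound
-/

set_option autoImplicit false

open ModularCurve CuspForm Function

namespace Fermat.Agent.S16.Glue

variable (N : ℕ) [NeZero N] (k : ℤ)

/-- The generators of the full Hecke algebra are the values of `heckeFormsGen`. -/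
theorem image_range_heckeFormsGen :
    (Subtype.val '' Set.range (heckeFormsGen N k) :
      Set (Module.End ℂ (CuspForm (CongruenceSubgroup.Gamma0 N) k))) =
      heckeGenerators N k ∅ := by
  ext t
  constructor
  · rintro ⟨_, ⟨ℓ, rfl⟩, rfl⟩
    by_cases h : (ℓ : ℕ) ∣ N
    · rw [heckeFormsGen_of_dvd h]
      exact heckeULin_mem_heckeGenerators ℓ.2 h (Set.notMem_empty _)
    · rw [heckeFormsGen_of_not_dvd h]
      exact heckeTLin_mem_heckeGenerators ℓ.2 h (Set.notMem_empty _)
  · rintro (⟨ℓ, hℓ, hℓN, -, rfl⟩ | ⟨q, hqN, hq, -, rfl⟩)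
    · refine ⟨heckeFormsGen N k ⟨ℓ, hℓ⟩, ⟨⟨ℓ, hℓ⟩, rfl⟩, ?_⟩
      rw [heckeFormsGen_of_not_dvd (ℓ := ⟨ℓ, hℓ⟩) hℓN]
      rfl
    · refine ⟨heckeFormsGen N k ⟨q, hq⟩, ⟨⟨q, hq⟩, rfl⟩, ?_⟩
      rw [heckeFormsGen_of_dvd (q := ⟨q, hq⟩) hqN]
      rfl

/-- `heckeEvalForms` is surjective. -/
theorem heckeEvalForms_surjective : Surjective (heckeEvalForms N k) := by
  intro t
  have hrange : (MvPolynomial.aeval (R := ℤ) (heckeFormsGen N k)).range =
      Algebra.adjoin ℤ (Set.range (heckeFormsGen N k)) :=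
    (Algebra.adjoin_range_eq_range_aeval ℤ (heckeFormsGen N k)).symm
  have hmap : (Algebra.adjoin ℤ (Set.range (heckeFormsGen N k))).map (heckeAlgebra N k ∅).val =
      heckeAlgebra N k ∅ := by
    rw [AlgHom.map_adjoin, Subalgebra.coe_val, image_range_heckeFormsGen]
    rfl
  have ht : (t : Module.End ℂ (CuspForm (CongruenceSubgroup.Gamma0 N) k)) ∈
      (Algebra.adjoin ℤ (Set.range (heckeFormsGen N k))).map (heckeAlgebra N k ∅).val := by
    rw [hmap]
    exact t.2
  obtain ⟨s, hs, hst⟩ := ht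
  rw [← hrange] at hs
  obtain ⟨P, rfl⟩ := hs
  exact ⟨P, Subtype.ext hst⟩

variable (p : ℕ) [Fact p.Prime]

omit [Fact p.Prime] in
/-- The evaluation at the Eisenstein system is surjective. -/
theorem aeval_eisensteinSystem_surjective :
    Surjective (MvPolynomial.aeval (R := ℤ) (eisensteinSystem p) : HeckeAlg →ₐ[ℤ] ℤ) := by
  intro z
  exact ⟨MvPolynomial.C z, by simp⟩

/-- **S16 from the two bounds.**  With `ph := latticeRestrictHom ∘ heckeEvalForms` and
`ev := aeval (eisensteinSystem p)`: if `n ∣ ev P` for all `P ∈ ker ph` and `ev P = n` for some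
`P ∈ ker ph`, `n = eisensteinNumerator p`, then S16 holds for `p`. -/
theorem s16_of_bounds
    (hLB : ∀ P : HeckeAlg,
      ((latticeRestrictHom p ∅).toRingHom.comp (heckeEvalForms p 2)) P = 0 →
        (eisensteinNumerator p : ℤ) ∣ MvPolynomial.aeval (R := ℤ) (eisensteinSystem p) P)
    (hUB : ∃ P : HeckeAlg,
      ((latticeRestrictHom p ∅).toRingHom.comp (heckeEvalForms p 2)) P = 0 ∧
        MvPolynomial.aeval (R := ℤ) (eisensteinSystem p) P = eisensteinNumerator p) :
    Nat.card (↥(heckeLatticeAlgebra p ∅) ⧸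
        Ideal.map ((latticeRestrictHom p ∅).toRingHom.comp (heckeEvalForms p 2))
          (eisensteinIdeal p)) =
      eisensteinNumerator p := by
  have hph : Surjective ((latticeRestrictHom p ∅).toRingHom.comp (heckeEvalForms p 2)) :=
    (latticeRestrictHom_surjective p ∅).comp (heckeEvalForms_surjective p 2)
  exact card_quotient_map_ker _ hph
    ((MvPolynomial.aeval (R := ℤ) (eisensteinSystem p) : HeckeAlg →ₐ[ℤ] ℤ) : HeckeAlg →+* ℤ)
    (aeval_eisensteinSystem_surjective p) (eisensteinNumerator p) hLB hUB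

end Fermat.Agent.S16.Glue
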