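/-
P-S16, block A4 arithmetic (helper16): the full upper bound `UB p` from the four partial bounds
(`UB_TR`, `UB_den p ℓ` for `ℓ ≥ 5`, `UB_den p 8`, `UB_den p 9`).  Pure arithmetic.
-/
import Fermat.Agent.S16.Defs

set_option autoImplicit false

namespace Fermat.Agent.S16

namespace UpperArith

/-- A positive integer not divisible by `8`, `9` or any prime `≥ 5` divides `12`. -/
theorem dvd_twelve_of_not_dvd {d : ℕ} (hd : d ≠ 0) (h8 : ¬ 8 ∣ d) (h9 : ¬ 9 ∣ d)
    (h5 : ∀ ℓ : ℕ, ℓ.Prime → 5 ≤ ℓ → ¬ ℓ ∣ d) : d ∣ 12 := by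
  rw [← Nat.factorization_le_iff_dvd hd (by norm_num)]
  intro q
  by_cases hq : q.Prime
  · by_cases hq5 : 5 ≤ q
    · rw [Nat.factorization_eq_zero_of_not_dvd (h5 q hq hq5)]
      exact Nat.zero_le _
    · have hq23 : q = 2 ∨ q = 3 := by
        have h2 := hq.two_le
        interval_cases q
        · exact Or.inl rfl
        · exact Or.inr rfl
        · exact absurd hq (by norm_num)
      rcases hq23 with rfl | rfl
      · have h12 : (Nat.factorization 12) 2 = 2 := by
          rw [Nat.factorization_def _ Nat.prime_two]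
          have : (12 : ℕ) = 2 ^ 2 * 3 := by norm_num
          rw [this, padicValNat.mul (by norm_num) (by norm_num), padicValNat.prime_pow,
            padicValNat_primes (by norm_num)]
        rw [h12]
        by_contra hlt
        rw [not_le] at hlt
        exact h8 (((Nat.prime_two.pow_dvd_iff_le_factorization hd).2 hlt : 2 ^ 3 ∣ d))
      · have h12 : (Nat.factorization 12) 3 = 1 := by
          rw [Nat.factorization_def _ Nat.prime_three]
          have : (12 : ℕ) = 4 * 3 := by norm_num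
          rw [this, padicValNat.mul (by norm_num) (by norm_num),
            padicValNat.eq_zero_of_not_dvd (by norm_num), padicValNat_self]
        rw [h12]
        by_contra hlt
        rw [not_le] at hlt
        exact h9 (((Nat.prime_three.pow_dvd_iff_le_factorization hd).2 hlt : 3 ^ 2 ∣ d))
  · rw [Nat.factorization_eq_zero_of_not_prime _ hq]
    exact Nat.zero_le _

/-- `gcd(p+1, 12) · gcd(p-1, 12) = 24` for a prime `p ≥ 5`. -/
theorem gcd_mul_gcd {p : ℕ} (hp : p.Prime) (hp5 : 5 ≤ p) :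
    Nat.gcd (p + 1) 12 * Nat.gcd (p - 1) 12 = 24 := by
  have h2 : ¬ 2 ∣ p := fun h => by
    have := (Nat.prime_dvd_prime_iff_eq Nat.prime_two hp).1 h; omega
  have h3 : ¬ 3 ∣ p := fun h => by
    have := (Nat.prime_dvd_prime_iff_eq Nat.prime_three hp).1 h; omega
  obtain ⟨q, r, hr, rfl⟩ : ∃ q r, r < 12 ∧ p = 12 * q + r :=
    ⟨p / 12, p % 12, Nat.mod_lt _ (by norm_num), (Nat.div_add_mod p 12).symm⟩
  have hg1 : Nat.gcd (12 * q + r + 1) 12 = Nat.gcd (r + 1) 12 := by
    rw [show 12 * q + r + 1 = (r + 1) + q * 12 by ring, Nat.gcd_add_mul_right_left]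
  have hr1 : 1 ≤ r := by
    rcases Nat.eq_zero_or_pos r with h | h
    · subst h; exact absurd (Dvd.intro (6 * q) (by ring)) h2
    · exact h
  have hg2 : Nat.gcd (12 * q + r - 1) 12 = Nat.gcd (r - 1) 12 := by
    rw [show 12 * q + r - 1 = (r - 1) + q * 12 by omega, Nat.gcd_add_mul_right_left]
  rw [hg1, hg2]
  interval_cases r
  all_goals first
    | rfl
    | (exfalso; omega)

end UpperArith

open ModularFormClass ModularCurve CuspForm in
/-- WP-GLUE (1): the upper bound from its four pieces. -/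
theorem ub_of_pieces {p : ℕ} (hp : p.Prime) (hp5 : 5 ≤ p) (hTR : UB_TR p)
    (hSD : ∀ ℓ : ℕ, ℓ.Prime → 5 ≤ ℓ → ℓ ∣ p + 1 → UB_den p ℓ) (h2 : UB_den p 8)
    (h3 : UB_den p 9) : UB p := by
  intro H hH
  obtain ⟨z, hz⟩ := hTR H hH
  -- the constant term is the rational number `r = z / (p + 1)`
  set r : ℚ := (z : ℚ) / ((p : ℚ) + 1) with hr
  have hp1 : ((p : ℂ) + 1) ≠ 0 := by
    have : ((p : ℂ) + 1) = ((p + 1 : ℕ) : ℂ) := by push_cast; ring
    rw [this]; exact Nat.cast_ne_zero.mpr (Nat.succ_ne_zero p)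
  have ha0 : qCoeff H 0 = (r : ℂ) := by
    rw [hr]; push_cast
    rw [eq_div_iff hp1, mul_comm]; exact hz
  have hden0 : r.den ≠ 0 := r.den_nz
  have hdenp : r.den ∣ p + 1 := by
    have h1 : r * ((p + 1 : ℕ) : ℚ) = (z : ℚ) := by
      rw [hr]; push_cast
      have : ((p : ℚ) + 1) ≠ 0 := by positivity
      field_simp
    have h2' : (r.den : ℤ) ∣ ((p + 1 : ℕ) : ℤ) := by
      have hnum : (r.num : ℚ) * ((p + 1 : ℕ) : ℚ) = (z : ℚ) * (r.den : ℚ) := by
        rw [← h1, mul_comm r, mul_assoc, Rat.mul_den_eq_num, mul_comm]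
      have hnum' : r.num * ((p + 1 : ℕ) : ℤ) = z * (r.den : ℤ) := by exact_mod_cast hnum
      have hcop : IsCoprime (r.den : ℤ) r.num := by
        rw [Int.isCoprime_iff_gcd_eq_one, Int.gcd_comm]
        exact r.reduced
      exact hcop.dvd_of_dvd_mul_left ⟨z, by rw [hnum']; ring⟩
    exact_mod_cast h2'
  have hden12 : r.den ∣ 12 :=
    UpperArith.dvd_twelve_of_not_dvd hden0 (h2 H hH r ha0) (h3 H hH r ha0)
      (fun ℓ hℓ hℓ5 hd => hSD ℓ hℓ hℓ5 (hd.trans hdenp) H hH r ha0 hd)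
  have hdeng : r.den ∣ Nat.gcd (p + 1) 12 := Nat.dvd_gcd hdenp hden12
  obtain ⟨c, hc⟩ := hdeng
  have h24 := UpperArith.gcd_mul_gcd hp hp5
  set ν := Nat.gcd (p - 1) 12 with hν
  have hν0 : (ν : ℂ) ≠ 0 := by
    have : ν ≠ 0 := by
      intro h0; rw [h0, mul_zero] at h24; exact absurd h24 (by norm_num)
    exact Nat.cast_ne_zero.mpr this
  refine ⟨r.num * c, ?_⟩
  rw [ha0]
  have hrq : (r : ℂ) = (r.num : ℂ) / (r.den : ℂ) := by
    conv_lhs => rw [← Rat.num_div_den r]
    push_cast; rfl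
  have h24C : ((r.den : ℂ) * (c : ℂ)) * (ν : ℂ) = 24 := by
    have : (r.den * c) * ν = 24 := by rw [← hc]; exact h24
    exact_mod_cast this
  have hdenC : (r.den : ℂ) ≠ 0 := Nat.cast_ne_zero.mpr hden0
  rw [hrq]
  push_cast
  rw [← mul_div_assoc, div_eq_div_iff hdenC (by norm_num : (24 : ℂ) ≠ 0), ← h24C]
  ring



open ModularFormClass ModularCurve CuspForm UpperHalfPlane

namespace UpperArith

theorem one_mem_strictPeriods_Gamma0' (N : ℕ) :
    (1 : ℝ) ∈ (Subgroup.map (Matrix.SpecialLinearGroup.mapGL ℝ)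
      (CongruenceSubgroup.Gamma0 N)).strictPeriods := by
  simp [CongruenceSubgroup.strictPeriods_Gamma0]

/-- `qCoeff` of a scalar multiple of a modular form. -/
theorem qCoeff_smul_modularForm {N : ℕ} (c : ℂ) (v : ModularForm (CongruenceSubgroup.Gamma0 N) 2)
    (n : ℕ) : qCoeff (⇑(c • v)) n = c * qCoeff (⇑v) n := by
  have h := ModularForm.qExpansion_smul (k := 2) one_pos (one_mem_strictPeriods_Gamma0' N) c v
  have hcoe : (⇑(c • v) : ℍ → ℂ) = c • ⇑v := rfl
  rw [qCoeff, hcoe, h]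
  simp [qCoeff]

end UpperArith

/-- A form "`≡ 1 mod ℓ ^ e`" is excluded ⟹ the constant term of a nearly integral form has
denominator not divisible by `ℓ ^ e`. -/
theorem ub_den_of_noUnitForm {p ℓ e : ℕ} (hℓ : ℓ.Prime) (he : 1 ≤ e) (h : NoUnitForm p ℓ e) :
    UB_den p (ℓ ^ e) := by
  intro H hH r0 hr0 hdvd
  apply h
  have hr0ne : r0 ≠ 0 := by
    intro h0
    rw [h0, Rat.den_zero] at hdvd
    have : ℓ ^ e ≤ 1 := Nat.le_of_dvd one_pos hdvd
    have h2 : 2 ^ 1 ≤ ℓ ^ e := (Nat.pow_le_pow_left hℓ.two_le 1).trans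
      (Nat.pow_le_pow_right hℓ.pos he)
    omega
  choose m hm using hH
  -- the new coefficients
  let r : ℕ → ℚ := fun k => if h0 : k = 0 then 1 else (m k (Nat.one_le_iff_ne_zero.mpr h0) : ℚ) / r0
  have hℓden : ℓ ∣ r0.den := (dvd_pow_self ℓ (by omega : e ≠ 0)).trans hdvd
  have hℓnum : ¬ (ℓ : ℤ) ∣ r0.num := by
    intro hn
    have h1 : ℓ ∣ r0.num.natAbs := Int.natCast_dvd.mp hn
    have h2 : ℓ ∣ Nat.gcd r0.num.natAbs r0.den := Nat.dvd_gcd h1 hℓden
    rw [r0.reduced] at h2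
    exact hℓ.one_lt.ne' (Nat.dvd_one.mp h2)
  have hcop : IsCoprime ((ℓ : ℤ) ^ e) r0.num :=
    IsCoprime.pow_left ((Nat.prime_iff_prime_int.mp hℓ).coprime_iff_not_dvd.mpr hℓnum)
  refine ⟨(r0 : ℂ)⁻¹ • H, r, ?_, ?_, by simp [r], ?_⟩
  · intro k
    rw [UpperArith.qCoeff_smul_modularForm]
    by_cases h0 : k = 0
    · subst h0
      have hc : (r0 : ℂ) ≠ 0 := by exact_mod_cast hr0ne
      simp [r, hr0, hc]
    · simp only [r, h0, dite_false]
      rw [hm k (Nat.one_le_iff_ne_zero.mpr h0)]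
      push_cast
      rw [div_eq_inv_mul]
  · intro k
    by_cases h0 : k = 0
    · simp only [r, h0, dite_true, Rat.den_one]
      exact fun h1 => hℓ.one_lt.ne' (Nat.dvd_one.mp h1)
    · simp only [r, h0, dite_false]
      set mk : ℤ := m k (Nat.one_le_iff_ne_zero.mpr h0)
      -- `mk / r0 = mk * den / num`, denominator divides `num`
      intro hd
      have hq : (mk : ℚ) / r0 = ((mk * r0.den : ℤ) : ℚ) / (r0.num : ℚ) := by
        have hnd : (r0.num : ℚ) = r0 * r0.den := (Rat.mul_den_eq_num r0).symm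
        have hden : (r0.den : ℚ) ≠ 0 := by exact_mod_cast r0.den_nz
        rw [hnd]
        push_cast
        field_simp
      have hden_dvd : (((mk : ℚ) / r0).den : ℤ) ∣ r0.num := by
        rw [hq, ← Rat.divInt_eq_div]
        exact Rat.den_dvd (mk * r0.den) r0.num
      exact hℓnum ((Int.natCast_dvd_natCast.mpr hd).trans hden_dvd)
  · intro k hk
    have h0 : k ≠ 0 := by omega
    simp only [r, h0, dite_false]
    set mk : ℤ := m k (Nat.one_le_iff_ne_zero.mpr h0)
    set q : ℚ := (mk : ℚ) / r0 with hqdef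
    -- q * num = mk * den
    have hnumne : (r0.num : ℚ) ≠ 0 := by exact_mod_cast Rat.num_ne_zero.mpr hr0ne
    have hdenne : (r0.den : ℚ) ≠ 0 := by exact_mod_cast r0.den_nz
    have hnd : (r0.num : ℚ) = r0 * r0.den := (Rat.mul_den_eq_num r0).symm
    have hr0q : (r0 : ℚ) ≠ 0 := hr0ne
    have h1 : q * (r0.num : ℚ) = (mk : ℚ) * (r0.den : ℚ) := by
      rw [hqdef, hnd]
      field_simp
    have h2 : (q.num : ℚ) * (r0.num : ℚ) = (mk : ℚ) * (r0.den : ℚ) * (q.den : ℚ) := by
      rw [← h1, ← Rat.mul_den_eq_num q]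
      ring
    have h3 : q.num * r0.num = mk * (r0.den : ℤ) * (q.den : ℤ) := by exact_mod_cast h2
    have h4 : ((ℓ : ℤ) ^ e) ∣ q.num * r0.num := by
      rw [h3]
      have : ((ℓ : ℤ) ^ e) ∣ (r0.den : ℤ) := by exact_mod_cast hdvd
      exact Dvd.dvd.mul_right (Dvd.dvd.mul_left this _) _
    exact hcop.dvd_of_dvd_mul_right h4

end Fermat.Agent.S16
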