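/-
P-S16, block A4 (helper16): the upper bound `HUB p` (some `P ∈ ker ph` has `ev P = n`) from
* `EisForm p` (block A3), `DualityCor p` (block A2),
* `UB p` (the constant term of every nearly integral form lies in `(ν/24) ℤ`),
* `HLB p` (block L).
-/
import Fermat.Agent.S16.Defs
import Fermat.Agent.S16.UpperArith
import Fermat.Agent.S16.GlueS16

set_option autoImplicit false

namespace Fermat.Agent.S16

open ModularFormClass ModularCurve CuspForm UpperHalfPlane

namespace UpperCore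

/-- `qCoeff` of a difference of a modular form and a cusp form. -/
theorem qCoeff_sub {N : ℕ} (E : ModularForm (CongruenceSubgroup.Gamma0 N) 2)
    (f : CuspForm (CongruenceSubgroup.Gamma0 N) 2) (n : ℕ) :
    qCoeff (⇑(E - CuspForm.toModularFormₗ f)) n = qCoeff (⇑E) n - qCoeff (⇑f) n := by
  have h := ModularForm.qExpansion_sub (a := 2) (b := 2) one_pos
    (UpperArith.one_mem_strictPeriods_Gamma0' N) E (CuspForm.toModularFormₗ f)
  have hcoe : (⇑(E - CuspForm.toModularFormₗ f) : ℍ → ℂ) = ⇑E - ⇑(CuspForm.toModularFormₗ f) := rfl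
  have hcoe' : (⇑(CuspForm.toModularFormₗ f) : ℍ → ℂ) = ⇑f := rfl
  rw [qCoeff, hcoe, h, hcoe']
  simp [qCoeff]

/-- `ph` is surjective. -/
theorem ph_surjective (p : ℕ) [Fact p.Prime] : Function.Surjective (ph p) :=
  (latticeRestrictHom_surjective p ∅).comp (Glue.heckeEvalForms_surjective p 2)

end UpperCore

/-- **Block A4.** -/
theorem hub_of {p : ℕ} [Fact p.Prime] (hE : EisForm p) (hD : DualityCor p) (hU : UB p)
    (hL : HLB p) : HUB p := by
  classical
  have hp : p.Prime := Fact.out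
  set n := eisensteinNumerator p with hn
  set ν := Nat.gcd (p - 1) 12 with hν
  have hnν : n * ν = p - 1 := Nat.div_mul_cancel (Nat.gcd_dvd_left _ _)
  have hp1 : 1 ≤ p - 1 := by have := hp.two_le; omega
  have hν0 : ν ≠ 0 := by
    intro h0; rw [h0, mul_zero] at hnν; omega
  have hn0 : n ≠ 0 := by
    intro h0; rw [h0, zero_mul] at hnν; omega
  have hnlt : n < p := by
    have : n ≤ p - 1 := by
      calc n = n * 1 := (mul_one n).symm
        _ ≤ n * ν := Nat.mul_le_mul_left n (Nat.one_le_iff_ne_zero.mpr hν0)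
        _ = p - 1 := hnν
    omega
  -- the ideal `J = ev (ker ph) = (m)`
  set J : Ideal ℤ := Ideal.map (ev p : HeckeAlg →+* ℤ) (RingHom.ker (ph p)) with hJ
  obtain ⟨m, hm⟩ : ∃ m : ℕ, J = Ideal.span {(m : ℤ)} := by
    refine ⟨(Submodule.IsPrincipal.generator J).natAbs, ?_⟩
    rw [Int.span_natAbs, Ideal.span_singleton_generator]
  have hev_surj : Function.Surjective (ev p : HeckeAlg →+* ℤ) :=
    Glue.aeval_eisensteinSystem_surjective p
  have hmemJ : ∀ P : HeckeAlg, ph p P = 0 → (m : ℤ) ∣ ev p P := by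
    intro P hP
    have : ev p P ∈ J := Ideal.mem_map_of_mem _ (RingHom.mem_ker.mpr hP)
    rw [hm] at this
    exact Ideal.mem_span_singleton.mp this
  -- the ring hom `ψ : T → ZMod m`
  let g : HeckeAlg →+* ZMod m := (Int.castRingHom (ZMod m)).comp (ev p : HeckeAlg →+* ℤ)
  have hgker : RingHom.ker (ph p) ≤ RingHom.ker g := by
    intro P hP
    rw [RingHom.mem_ker] at hP ⊢
    have := hmemJ P hP
    simp only [g, RingHom.comp_apply, eq_intCast]
    exact (ZMod.intCast_zmod_eq_zero_iff_dvd _ _).mpr this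
  let ψ : ↥(heckeLatticeAlgebra p ∅) →+* ZMod m :=
    (ph p).liftOfRightInverse (Function.surjInv (UpperCore.ph_surjective p))
      (Function.rightInverse_surjInv (UpperCore.ph_surjective p)) ⟨g, hgker⟩
  have hψ : ∀ P : HeckeAlg, ψ (ph p P) = ((ev p P : ℤ) : ZMod m) := by
    intro P
    have h2 : ψ (ph p P) = g P :=
      (ph p).liftOfRightInverse_comp_apply (Function.surjInv (UpperCore.ph_surjective p))
        (Function.rightInverse_surjInv (UpperCore.ph_surjective p)) ⟨g, hgker⟩ P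
    rw [h2]
    rfl
  obtain ⟨f, -, hf⟩ := hD m ψ hψ
  obtain ⟨E, hE0, hEk⟩ := hE
  -- the modulus `M`
  set M : ℕ := if m = 0 then p else m with hM
  have hM0 : M ≠ 0 := by
    rw [hM]; split_ifs with h0
    · exact hp.ne_zero
    · exact h0
  have hMC : (M : ℂ) ≠ 0 := Nat.cast_ne_zero.mpr hM0
  choose a ha using hf
  have hdiv : ∀ k (hk : 1 ≤ k), (M : ℤ) ∣ (sigmaP p k : ℤ) - a k hk := by
    intro k hk
    have h1 : (m : ℤ) ∣ (sigmaP p k : ℤ) - a k hk := by
      have := (ha k hk).2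
      rw [← Int.cast_natCast (R := ZMod m) (sigmaP p k)] at this
      exact (ZMod.intCast_eq_intCast_iff_dvd_sub _ _ _).mp this
    rw [hM]; split_ifs with h0
    · rw [h0, Nat.cast_zero, zero_dvd_iff] at h1
      rw [h1]; exact dvd_zero _
    · exact h1
  -- the nearly integral form `H = (E - f)/M`
  set H : ModularForm (CongruenceSubgroup.Gamma0 p) 2 :=
    ((M : ℂ)⁻¹) • (E - CuspForm.toModularFormₗ f) with hH
  have hHk : ∀ k, qCoeff H k = (M : ℂ)⁻¹ * (qCoeff E k - qCoeff f k) := by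
    intro k
    rw [hH, UpperArith.qCoeff_smul_modularForm, UpperCore.qCoeff_sub]
  have hHNI : IsNI H := by
    intro k hk
    obtain ⟨c, hc⟩ := hdiv k hk
    refine ⟨c, ?_⟩
    rw [hHk, hEk k hk, (ha k hk).1]
    have : ((sigmaP p k : ℂ) - (a k hk : ℂ)) = (M : ℂ) * (c : ℂ) := by
      have := congrArg (Int.cast : ℤ → ℂ) hc
      push_cast at this
      exact this
    rw [this, ← mul_assoc, inv_mul_cancel₀ hMC, one_mul]
  have hH0 : qCoeff H 0 = (M : ℂ)⁻¹ * (((p : ℂ) - 1) / 24) := by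
    rw [hHk, hE0, show qCoeff (⇑f) 0 = 0 from CuspFormClass.qExpansion_coeff_zero f one_pos
      (UpperArith.one_mem_strictPeriods_Gamma0' p), sub_zero]
  obtain ⟨z, hz⟩ := hU H hHNI
  -- `p - 1 = z ν M`, hence `M ∣ n`
  have hkey : ((p - 1 : ℕ) : ℤ) = z * ν * M := by
    have h1 : ((p : ℂ) - 1) = (z : ℂ) * (ν : ℂ) * (M : ℂ) := by
      rw [hH0] at hz
      field_simp at hz
      linear_combination hz
    have h2 : (((p - 1 : ℕ) : ℤ) : ℂ) = ((z * ν * M : ℤ) : ℂ) := by
      push_cast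
      rw [Nat.cast_sub hp.one_le, Nat.cast_one]
      exact h1
    exact_mod_cast h2
  have hMn : (M : ℤ) ∣ (n : ℤ) := by
    have h3 : ((n : ℤ) * ν) = (z * M) * ν := by
      have : ((n * ν : ℕ) : ℤ) = ((p - 1 : ℕ) : ℤ) := by rw [hnν]
      push_cast at this
      rw [this, hkey]; ring
    have hνZ : (ν : ℤ) ≠ 0 := by exact_mod_cast hν0
    have h4 := mul_right_cancel₀ hνZ h3
    exact ⟨z, by rw [h4]; ring⟩
  have hMn' : M ∣ n := by exact_mod_cast hMn
  -- `m ≠ 0`
  have hm0 : m ≠ 0 := by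
    intro h0
    have hMp : M = p := by rw [hM, if_pos h0]
    rw [hMp] at hMn'
    exact absurd (Nat.le_of_dvd (Nat.pos_of_ne_zero hn0) hMn') (by omega)
  have hMm : M = m := by rw [hM, if_neg hm0]
  -- `n ∣ m` from the lower bound
  have hmJ : (m : ℤ) ∈ J := by rw [hm]; exact Ideal.mem_span_singleton_self _
  obtain ⟨P, hPker, hPm0⟩ := (Ideal.mem_map_iff_of_surjective _ hev_surj).mp hmJ
  have hPm : ev p P = (m : ℤ) := hPm0
  have hnm : (n : ℤ) ∣ (m : ℤ) := by
    have := hL P (RingHom.mem_ker.mp hPker)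
    rw [hPm] at this
    exact this
  have hnm' : n ∣ m := by exact_mod_cast hnm
  have hmn : m = n := Nat.dvd_antisymm (hMm ▸ hMn') hnm'
  exact ⟨P, RingHom.mem_ker.mp hPker, by rw [hPm, hmn]⟩

end Fermat.Agent.S16
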