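/-
P-S16 (helper16): assembly of the frozen statement S16 for a prime `p ≥ 5` from the blocks
(all hypotheses are the shared `Prop`s of `S16/Defs.lean`):
A3 `EisForm`, A2 `DualityCor`, B3 `UB_TR`, SD/CH `NoUnitForm p ℓ 1` (`ℓ ≥ 5`, `ℓ ∣ p + 1`),
U2 `NoUnitForm p 2 3`, U3 `NoUnitForm p 3 2`, L `HLB`.
-/
import Fermat.Agent.S16.UpperCore

set_option autoImplicit false

namespace Fermat.Agent.S16

open ModularCurve CuspForm

/-- The upper bound `UB p` from the blocks B3, SD/CH, U2, U3. -/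
theorem ub_of_blocks {p : ℕ} (hp : p.Prime) (hp5 : 5 ≤ p) (hTR : UB_TR p)
    (hSD : ∀ ℓ : ℕ, ℓ.Prime → 5 ≤ ℓ → ℓ ∣ p + 1 → NoUnitForm p ℓ 1) (h2 : NoUnitForm p 2 3)
    (h3 : NoUnitForm p 3 2) : UB p := by
  refine ub_of_pieces hp hp5 hTR (fun ℓ hℓ hℓ5 hd => ?_) ?_ ?_
  · have := ub_den_of_noUnitForm hℓ le_rfl (hSD ℓ hℓ hℓ5 hd)
    rwa [pow_one] at this
  · exact ub_den_of_noUnitForm Nat.prime_two (by norm_num) h2
  · exact ub_den_of_noUnitForm Nat.prime_three (by norm_num) h3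

/-- **S16 for `p ≥ 5` from the blocks.** -/
theorem s16_of_blocks {p : ℕ} [Fact p.Prime] (hp5 : 5 ≤ p) (hE : EisForm p)
    (hD : DualityCor p) (hTR : UB_TR p)
    (hSD : ∀ ℓ : ℕ, ℓ.Prime → 5 ≤ ℓ → ℓ ∣ p + 1 → NoUnitForm p ℓ 1) (h2 : NoUnitForm p 2 3)
    (h3 : NoUnitForm p 3 2) (hL : HLB p) :
    Nat.card (↥(heckeLatticeAlgebra p ∅) ⧸
        Ideal.map ((latticeRestrictHom p ∅).toRingHom.comp (heckeEvalForms p 2))
          (eisensteinIdeal p)) =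
      eisensteinNumerator p :=
  Glue.s16_of_bounds p hL (hub_of hE hD (ub_of_blocks Fact.out hp5 hTR hSD h2 h3) hL)

end Fermat.Agent.S16
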