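/-
P-S16, block A3 (helper80): the weight-2 Eisenstein series of level `Γ₀(N)`
`Eis_N(z) = (N E₂(N z) - E₂(z)) / 24`, as a modular form, with its `q`-expansion
`a₀ = (N - 1)/24`, `a_n = ∑_{d ∣ n, N ∤ d} d`, and the behaviour of `Eis_N` under all of `SL(2,ℤ)`.
-/
import Mathlib
import Fermat.Agent.S23.UFunction
import Fermat.Agent.S23.UConj
import Fermat.Prelude.Def_FLTPrelim_Modularity

set_option autoImplicit false

noncomputable section

open UpperHalfPlane ModularForm EisensteinSeries Complex MatrixGroups CongruenceSubgroup Filter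
  Function
open scoped ModularForm Manifold Real Topology

namespace Fermat.Agent.S16.Eisenstein

open Fermat.Agent.S23.UFunction (scale coe_scale conjMat denom_conjMat scale_smul denom_SL)
open Fermat.Agent.S23.UConj (affMap coe_affMap exists_triangular)

local notation "𝕢" => Periodic.qParam

/-! ### Basic facts on `E₂` -/

/-- The constant `1 / (2 ζ(2))` of the quasi-modularity of `E₂`. -/
def kappa : ℂ := 1 / (2 * riemannZeta 2)

theorem D2_apply (γ : SL(2, ℤ)) (z : ℍ) :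
    D2 γ z = 2 * π * Complex.I * (γ 1 0 : ℂ) / denom γ z := rfl

/-- Quasi-modularity of `E₂`, pointwise. -/
theorem E2_smul (γ : SL(2, ℤ)) (z : ℍ) :
    E2 (γ • z) = denom γ z ^ 2 * E2 z - kappa * (2 * π * Complex.I * (γ 1 0 : ℂ)) * denom γ z := by
  have h := congrFun (E2_slash_action γ) z
  rw [SL_slash_apply] at h
  have hd : denom γ z ≠ 0 := UpperHalfPlane.denom_ne_zero (γ : GL (Fin 2) ℝ) z
  simp only [Pi.sub_apply, Pi.smul_apply, smul_eq_mul, D2_apply] at h
  rw [zpow_neg, zpow_ofNat] at h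
  have h2 : E2 (γ • z) = denom γ z ^ 2 *
      (E2 z - 1 / (2 * riemannZeta 2) * (2 * π * Complex.I * (γ 1 0 : ℂ) / denom γ z)) := by
    rw [← h]; field_simp
  rw [h2, kappa]
  field_simp

theorem periodic_E2 : Periodic (E2 ∘ ofComplex) 1 := by
  intro z
  simp only [Function.comp_apply]
  by_cases hz : 0 < z.im
  · have hz1 : 0 < (z + 1).im := by simpa using hz
    have h1 : ofComplex (z + 1) = ModularGroup.T • ofComplex z := by
      apply UpperHalfPlane.ext
      rw [modular_T_smul, coe_vadd, ofComplex_apply_of_im_pos hz1, ofComplex_apply_of_im_pos hz]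
      push_cast; ring
    rw [h1, E2_smul]
    simp [denom_SL, ModularGroup.T]
  · have hz1 : ¬ 0 < (z + 1).im := by simpa using hz
    rw [ofComplex_apply_of_im_nonpos (not_lt.mp hz), ofComplex_apply_of_im_nonpos (not_lt.mp hz1)]

theorem analyticAt_cuspFunction_E2 : AnalyticAt ℂ (cuspFunction 1 E2) 0 :=
  analyticAt_cuspFunction_zero one_pos (by simpa using periodic_E2) E2_mdifferentiable
    isBoundedAtImInfty_E2

theorem hasSum_E2 (τ : ℍ) :
    HasSum (fun m : ℕ ↦ (if m = 0 then 1 else -24 * (ArithmeticFunction.sigma 1 m : ℂ)) • 𝕢 1 τ ^ m)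
      (E2 τ) := by
  simpa only [Function.Periodic.qParam, ofReal_one, div_one] using hasSum_qExpansion_E2 (z := τ)

theorem qExpansion_E2_coeff (n : ℕ) :
    (qExpansion 1 E2).coeff n = if n = 0 then 1 else -24 * (ArithmeticFunction.sigma 1 n : ℂ) :=
  (Fermat.Agent.S23.UFunction.qExpansion_coeff_unique' one_pos analyticAt_cuspFunction_E2
    hasSum_E2 n).symm

/-! ### The function `Eis_N` -/

variable (N : ℕ) [NeZero N]

/-- The function `z ↦ (N E₂(N z) - E₂(z)) / 24`. -/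
def eisFun (z : ℍ) : ℂ := ((N : ℂ) * E2 (scale N z) - E2 z) / 24

theorem eisFun_smul (γ : SL(2, ℤ)) (hγ : γ ∈ Gamma0 N) (z : ℍ) :
    eisFun N (γ • z) = denom γ z ^ 2 * eisFun N z := by
  rw [Gamma0_mem, ZMod.intCast_zmod_eq_zero_iff_dvd] at hγ
  obtain ⟨c', hc⟩ := hγ
  unfold eisFun
  rw [scale_smul N γ c' hc, E2_smul, E2_smul, denom_conjMat, hc]
  simp only [Fermat.Agent.S23.UFunction.conjMat_one_zero]
  push_cast
  ring

theorem eisFun_slash (γ : SL(2, ℤ)) (hγ : γ ∈ Gamma0 N) : eisFun N ∣[(2 : ℤ)] γ = eisFun N := by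
  ext z
  rw [SL_slash_apply, eisFun_smul N γ hγ z]
  have hd : denom γ z ≠ 0 := UpperHalfPlane.denom_ne_zero (γ : GL (Fin 2) ℝ) z
  rw [zpow_neg, zpow_ofNat]
  field_simp

/-- `Eis_N` as a slash invariant form on `Γ₀(N)`. -/
def eisSIF : SlashInvariantForm (Gamma0 N) 2 where
  toFun := eisFun N
  slash_action_eq' := by
    rintro _ ⟨γ, hγ, rfl⟩
    exact eisFun_slash N γ hγ

@[simp] theorem coe_eisSIF : (eisSIF N : ℍ → ℂ) = eisFun N := rfl

theorem mdiff_eisFun : MDiff (eisFun N) := by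
  have h1 : MDiff (fun z : ℍ => E2 (scale N z)) :=
    Fermat.Agent.S23.UFunction.mdiff_comp_scale N E2_mdifferentiable
  have h2 : MDiff (fun z : ℍ => (N : ℂ) * E2 (scale N z)) := mdifferentiable_const.mul h1
  have h3 : MDiff (fun z : ℍ => (N : ℂ) * E2 (scale N z) - E2 z) := h2.sub E2_mdifferentiable
  have h4 : MDiff (fun z : ℍ => (24 : ℂ)⁻¹ * ((N : ℂ) * E2 (scale N z) - E2 z)) :=
    mdifferentiable_const.mul h3
  convert h4 using 1
  funext z
  unfold eisFun
  ring

theorem scale_eq_affMap (z : ℍ) :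
    scale N z = affMap N 1 0 (NeZero.pos N) one_pos z := by
  apply UpperHalfPlane.ext
  rw [coe_scale, coe_affMap]
  simp

/-- If `denom γ z = denom γ' ((a z + b)/d) * d` for all `z` then `c = c' a`. -/
theorem c_eq_of_denom (γ γ' : SL(2, ℤ)) (a d : ℕ) (b : ℤ) (ha : 0 < a) (hd : 0 < d)
    (h : ∀ z : ℍ, denom γ z = denom γ' (affMap a d b ha hd z) * d) :
    (γ 1 0 : ℂ) = (γ' 1 0 : ℂ) * a := by
  have h1 := h UpperHalfPlane.I
  rw [denom_SL, denom_SL, coe_affMap] at h1
  have hd0 : (d : ℂ) ≠ 0 := by exact_mod_cast hd.ne'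
  have h2 := congrArg Complex.im h1
  have e1 : (((γ 1 0 : ℤ) : ℂ) * (UpperHalfPlane.I : ℂ) + ((γ 1 1 : ℤ) : ℂ)).im = (γ 1 0 : ℝ) := by
    simp
  have e2 : ((((γ' 1 0 : ℤ) : ℂ) * (((a : ℂ) * (UpperHalfPlane.I : ℂ) + (b : ℂ)) / (d : ℂ)) +
      ((γ' 1 1 : ℤ) : ℂ)) * (d : ℂ)).im = (γ' 1 0 : ℝ) * a := by
    have : (((γ' 1 0 : ℤ) : ℂ) * (((a : ℂ) * (UpperHalfPlane.I : ℂ) + (b : ℂ)) / (d : ℂ)) +
      ((γ' 1 1 : ℤ) : ℂ)) * (d : ℂ) = ((γ' 1 0 : ℤ) : ℂ) * (a : ℂ) * (UpperHalfPlane.I : ℂ) +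
        (((γ' 1 0 : ℤ) : ℂ) * b + ((γ' 1 1 : ℤ) : ℂ) * d) := by
      field_simp
      ring
    rw [this]
    simp
  rw [e1, e2] at h2
  exact_mod_cast congrArg (fun x : ℝ => (x : ℂ)) h2

/-- The translate of `Eis_N` by an arbitrary element of `SL(2, ℤ)`. -/
theorem eisFun_slash_SL (γ : SL(2, ℤ)) :
    ∃ (a d : ℕ) (b : ℤ) (ha : 0 < a) (hd : 0 < d), a * d = N ∧ (d = 1 → γ ∈ Gamma0 N) ∧
      eisFun N ∣[(2 : ℤ)] γ =
        fun z => ((a : ℂ) / d * E2 (affMap a d b ha hd z) - E2 z) / 24 := by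
  obtain ⟨a, d, b, ha, hd, γ', had, hd1, h⟩ := exists_triangular N (NeZero.pos N) γ
  refine ⟨a, d, b, ha, hd, had, hd1, ?_⟩
  funext z
  obtain ⟨h1, h2⟩ := h z
  have hc := c_eq_of_denom γ γ' a d b ha hd (fun z => (h z).2)
  have hN : (N : ℂ) = a * d := by exact_mod_cast had.symm
  have hd0 : (d : ℂ) ≠ 0 := by exact_mod_cast hd.ne'
  have hD : denom γ' (affMap a d b ha hd z) ≠ 0 :=
    UpperHalfPlane.denom_ne_zero (γ' : GL (Fin 2) ℝ) _
  rw [SL_slash_apply]
  unfold eisFun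
  rw [scale_eq_affMap, h1, E2_smul, E2_smul γ, h2, hN, hc, zpow_neg, zpow_ofNat]
  field_simp
  ring

theorem isBoundedAtImInfty_E2_comp_affMap (a d : ℕ) (b : ℤ) (ha : 0 < a) (hd : 0 < d) :
    IsBoundedAtImInfty (fun z : ℍ => E2 (affMap a d b ha hd z)) := by
  have h := isBoundedAtImInfty_E2
  rw [IsBoundedAtImInfty, BoundedAtFilter] at h ⊢
  exact h.comp_tendsto (Fermat.Agent.S23.UConj.tendsto_affMap a d b ha hd)

theorem isBoundedAtImInfty_eisFun_slash (γ : SL(2, ℤ)) :
    IsBoundedAtImInfty (eisFun N ∣[(2 : ℤ)] γ) := by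
  obtain ⟨a, d, b, ha, hd, -, -, h⟩ := eisFun_slash_SL N γ
  rw [h]
  have h1 := isBoundedAtImInfty_E2_comp_affMap a d b ha hd
  have hc : ∀ c : ℂ, IsBoundedAtImInfty (fun _ : ℍ => c) := fun c => by
    rw [IsBoundedAtImInfty, BoundedAtFilter]
    exact Filter.const_boundedAtFilter _ c
  have h2 : IsBoundedAtImInfty (fun z : ℍ => (a : ℂ) / d * E2 (affMap a d b ha hd z)) :=
    (hc _).mul h1
  have h3 : IsBoundedAtImInfty
      (fun z : ℍ => (a : ℂ) / d * E2 (affMap a d b ha hd z) - E2 z) := h2.sub isBoundedAtImInfty_E2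
  have h4 : IsBoundedAtImInfty
      (fun z : ℍ => (24 : ℂ)⁻¹ * ((a : ℂ) / d * E2 (affMap a d b ha hd z) - E2 z)) :=
    (hc _).mul h3
  convert h4 using 1
  funext z
  ring

/-- The Eisenstein series `Eis_N = (N E₂(N z) - E₂(z))/24` as a modular form of weight 2 on
`Γ₀(N)`. -/
def eisForm : ModularForm (Gamma0 N) 2 where
  toSlashInvariantForm := eisSIF N
  holo' := mdiff_eisFun N
  bdd_at_cusps' {c} hc := by
    rw [Subgroup.IsArithmetic.isCusp_iff_isCusp_SL2Z] at hc
    rw [OnePoint.isBoundedAt_iff_forall_SL2Z hc]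
    intro γ _
    exact isBoundedAtImInfty_eisFun_slash N γ

@[simp] theorem coe_eisForm : (eisForm N : ℍ → ℂ) = eisFun N := rfl

theorem eisForm_apply (z : ℍ) : eisForm N z = ((N : ℂ) * E2 (scale N z) - E2 z) / 24 := rfl

/-! ### The `q`-expansion of `Eis_N` -/

/-- Sum of the divisors of `n` that are not divisible by `N` (for `N = p` prime: the sum of the
divisors prime to `p`). -/
def sigmaP (N n : ℕ) : ℕ := ∑ d ∈ n.divisors.filter (fun d => ¬ N ∣ d), d

open ArithmeticFunction in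
theorem sigma_one_eq (N n : ℕ) (hN : N ≠ 0) (hn : n ≠ 0) :
    sigma 1 n = sigmaP N n + (if N ∣ n then N * sigma 1 (n / N) else 0) := by
  rw [sigma_one_apply, sigmaP]
  rw [← Finset.sum_filter_add_sum_filter_not n.divisors (fun d => ¬ N ∣ d)]
  congr 1
  simp only [not_not]
  split_ifs with h
  · obtain ⟨m, rfl⟩ := h
    have hm : m ≠ 0 := by rintro rfl; simp at hn
    rw [Nat.mul_div_cancel_left m (Nat.pos_of_ne_zero hN), sigma_one_apply, Finset.mul_sum]
    have himg : (N * m).divisors.filter (fun d => N ∣ d) = m.divisors.image (fun d => N * d) := by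
      ext d
      simp only [Finset.mem_filter, Nat.mem_divisors, Finset.mem_image]
      constructor
      · rintro ⟨⟨hd, _⟩, d', rfl⟩
        exact ⟨d', ⟨(Nat.mul_dvd_mul_iff_left (Nat.pos_of_ne_zero hN)).mp hd, hm⟩, rfl⟩
      · rintro ⟨d', ⟨hd', _⟩, rfl⟩
        exact ⟨⟨Nat.mul_dvd_mul_left N hd', hn⟩, dvd_mul_right N d'⟩
    rw [himg, Finset.sum_image]
    intro x _ y _ hxy
    exact Nat.eq_of_mul_eq_mul_left (Nat.pos_of_ne_zero hN) hxy
  · apply Finset.sum_eq_zero
    intro d hd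
    rw [Finset.mem_filter, Nat.mem_divisors] at hd
    exact absurd (hd.2.trans hd.1.1) h

theorem periodic_eisFun : Periodic (eisFun N ∘ ofComplex) 1 := by
  have h := SlashInvariantFormClass.periodic_comp_ofComplex (eisSIF N) (h := 1)
    (by simp [CongruenceSubgroup.strictPeriods_Gamma0])
  simpa using h

theorem isBoundedAtImInfty_eisFun : IsBoundedAtImInfty (eisFun N) := by
  have h := isBoundedAtImInfty_eisFun_slash N 1
  rwa [SlashAction.slash_one] at h

theorem analyticAt_cuspFunction_eisFun : AnalyticAt ℂ (cuspFunction 1 (eisFun N)) 0 :=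
  analyticAt_cuspFunction_zero one_pos (by simpa using periodic_eisFun N) (mdiff_eisFun N)
    (isBoundedAtImInfty_eisFun N)

theorem hasSum_eisFun (τ : ℍ) :
    HasSum (fun m : ℕ => (((N : ℂ) * (PowerSeries.expand N (NeZero.ne N) (qExpansion 1 E2)).coeff m
      - (qExpansion 1 E2).coeff m) / 24) • Periodic.qParam 1 τ ^ m) (eisFun N τ) := by
  have hper : Periodic ((fun z : ℍ => E2 (scale N z)) ∘ ofComplex) ((1 : ℝ) : ℂ) := by
    simpa using Fermat.Agent.S23.UFunction.periodic_comp_scale N periodic_E2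
  have h1 := hasSum_qExpansion one_pos hper
    (Fermat.Agent.S23.UFunction.mdiff_comp_scale N E2_mdifferentiable)
    (Fermat.Agent.S23.UFunction.isBoundedAtImInfty_comp_scale N isBoundedAtImInfty_E2) τ
  rw [Fermat.Agent.S23.UFunction.qExpansion_comp_scale N periodic_E2 E2_mdifferentiable
    isBoundedAtImInfty_E2] at h1
  have hper2 : Periodic (E2 ∘ ofComplex) ((1 : ℝ) : ℂ) := by simpa using periodic_E2
  have h2 := hasSum_qExpansion one_pos hper2 E2_mdifferentiable isBoundedAtImInfty_E2 τ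
  have h3 := ((h1.mul_left (N : ℂ)).sub h2).mul_left ((24 : ℂ)⁻¹)
  have hval : eisFun N τ = 24⁻¹ * ((N : ℂ) * E2 (scale N τ) - E2 τ) := by
    unfold eisFun; ring
  have hfun : (fun m : ℕ =>
      (((N : ℂ) * (PowerSeries.expand N (NeZero.ne N) (qExpansion 1 E2)).coeff m
        - (qExpansion 1 E2).coeff m) / 24) • Periodic.qParam 1 τ ^ m) =
      fun i : ℕ => 24⁻¹ * ((N : ℂ) *
        (PowerSeries.coeff i) ((PowerSeries.expand N (NeZero.ne N)) (qExpansion 1 E2)) •
          Periodic.qParam 1 τ ^ i - (PowerSeries.coeff i) (qExpansion 1 E2) •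
            Periodic.qParam 1 τ ^ i) := by
    funext m
    simp only [smul_eq_mul]
    ring
  rw [hfun, hval]
  exact h3

theorem qExpansion_eisFun_coeff (m : ℕ) :
    (qExpansion 1 (eisFun N)).coeff m =
      ((N : ℂ) * (PowerSeries.expand N (NeZero.ne N) (qExpansion 1 E2)).coeff m
        - (qExpansion 1 E2).coeff m) / 24 :=
  (Fermat.Agent.S23.UFunction.qExpansion_coeff_unique' one_pos (analyticAt_cuspFunction_eisFun N)
    (hasSum_eisFun N) m).symm

/-- The constant term of `Eis_N` is `(N - 1)/24`. -/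
theorem qCoeff_eisForm_zero : ModularFormClass.qCoeff (eisForm N) 0 = ((N : ℂ) - 1) / 24 := by
  rw [ModularFormClass.qCoeff, coe_eisForm, qExpansion_eisFun_coeff]
  have h0 : (PowerSeries.expand N (NeZero.ne N) (qExpansion 1 E2)).coeff 0 =
      (qExpansion 1 E2).coeff 0 := by
    simp
  rw [h0, qExpansion_E2_coeff]
  simp

/-- The higher coefficients of `Eis_N` are `∑_{d ∣ n, N ∤ d} d`. -/
theorem qCoeff_eisForm (n : ℕ) (hn : n ≠ 0) :
    ModularFormClass.qCoeff (eisForm N) n = (sigmaP N n : ℂ) := by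
  rw [ModularFormClass.qCoeff, coe_eisForm, qExpansion_eisFun_coeff, qExpansion_E2_coeff,
    if_neg hn]
  have hs := sigma_one_eq N n (NeZero.ne N) hn
  by_cases hdvd : N ∣ n
  · obtain ⟨m, rfl⟩ := hdvd
    have hm : m ≠ 0 := by rintro rfl; simp at hn
    rw [PowerSeries.coeff_expand_mul, qExpansion_E2_coeff, if_neg hm]
    rw [if_pos (dvd_mul_right N m), Nat.mul_div_cancel_left m (NeZero.pos N)] at hs
    rw [hs]
    push_cast
    ring
  · rw [PowerSeries.coeff_expand_of_not_dvd _ _ _ hdvd]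
    rw [if_neg hdvd, add_zero] at hs
    rw [hs]
    ring


/-- For `p` prime, `sigmaP p n` is the sum of the divisors of `n` prime to `p`. -/
theorem sigmaP_prime {p : ℕ} (hp : p.Prime) (n : ℕ) :
    sigmaP p n = ∑ d ∈ n.divisors.filter (fun d => Nat.Coprime p d), d := by
  unfold sigmaP
  refine Finset.sum_congr (Finset.filter_congr fun d _ => ?_) fun _ _ => rfl
  exact (hp.coprime_iff_not_dvd).symm

theorem sigmaP_one_right (N : ℕ) (hN : 1 < N) : sigmaP N 1 = 1 := by
  unfold sigmaP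
  have : (Nat.divisors 1).filter (fun d => ¬ N ∣ d) = {1} := by
    ext d
    simp only [Nat.divisors_one, Finset.mem_filter, Finset.mem_singleton]
    constructor
    · rintro ⟨rfl, -⟩; rfl
    · rintro rfl
      exact ⟨rfl, fun h => absurd (Nat.le_of_dvd one_pos h) (not_le.mpr hN)⟩
  rw [this, Finset.sum_singleton]

end Fermat.Agent.S16.Eisenstein
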