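/-
P-S16, block B1 (helper80): the Fricke (Atkin-Lehner) involution `W = [[0,-1],[N,0]]` on
`M_k(Γ₀(N))` and `S_k(Γ₀(N))`, coset representatives `1, S T^j` of `Γ₀(p)` in `SL(2,ℤ)`,
the trace formula `Tr f = f + p^(2-k) U_p(f ∣ W)` (Prelude `heckeU`, Mathlib `ModularForm.trace`)
and its weight-2 consequences `U_p W = -1`, `W = -U_p`, `U_p² = 1` on `M_2(Γ₀(p))`.
-/
import Mathlib
import Fermat.Agent.S16.Eisenstein
import Fermat.Agent.S28.Hauptmodul.MFSeries
import Fermat.Prelude.Def_ModularForm_HeckeOperatorForms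
import Fermat.Agent.S23.Defs

set_option autoImplicit false

noncomputable section

open UpperHalfPlane ModularForm Complex MatrixGroups CongruenceSubgroup Filter Function
open scoped ModularForm Manifold Real Topology

namespace Fermat.Agent.S16.AtkinLehner

variable (N : ℕ) [NeZero N]

/-- The Fricke matrix `[[0, -1], [N, 0]]` in `GL(2, ℝ)`. -/
def frickeMat : GL (Fin 2) ℝ :=
  Matrix.GeneralLinearGroup.mkOfDetNeZero !![0, -1; (N : ℝ), 0] (by
    rw [Matrix.det_fin_two_of]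
    simpa using (NeZero.ne N))

theorem frickeMat_val : (frickeMat N).val = !![0, -1; (N : ℝ), 0] := rfl

theorem det_frickeMat : (frickeMat N).det.val = (N : ℝ) := by
  simp [frickeMat, Matrix.det_fin_two_of]

theorem det_frickeMat_pos : 0 < (frickeMat N).det.val := by
  rw [det_frickeMat]; exact Nat.cast_pos.mpr (NeZero.pos N)

theorem num_frickeMat (z : ℂ) : num (frickeMat N) z = -1 := by
  simp [num, frickeMat]

theorem denom_frickeMat (z : ℂ) : denom (frickeMat N) z = (N : ℂ) * z := by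
  simp [denom, frickeMat]

theorem coe_frickeMat_smul (z : ℍ) : ((frickeMat N • z : ℍ) : ℂ) = -1 / ((N : ℂ) * z) := by
  rw [coe_smul_of_det_pos (det_frickeMat_pos N), num_frickeMat, denom_frickeMat]

theorem σ_frickeMat (w : ℂ) : σ (frickeMat N) w = w := by
  have h : 0 < (frickeMat N).val.det := by
    have := det_frickeMat_pos N
    simpa using this
  simp [σ, h]

theorem slash_frickeMat_apply (k : ℤ) (f : ℍ → ℂ) (z : ℍ) :
    (f ∣[k] frickeMat N) z = f (frickeMat N • z) * (N : ℂ) ^ (k - 1) * ((N : ℂ) * z) ^ (-k) := by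
  rw [ModularForm.slash_apply, σ_frickeMat, denom_frickeMat, det_frickeMat,
    abs_of_pos (Nat.cast_pos.mpr (NeZero.pos N))]
  simp

/-- The conjugate `[[d, -c/N], [-N b, a]]` of `[[a, b], [c, d]] ∈ Γ₀(N)` by the Fricke matrix. -/
def frickeConj (γ : SL(2, ℤ)) (c' : ℤ) (hc : γ 1 0 = N * c') : SL(2, ℤ) :=
  ⟨!![γ 1 1, -c'; -(N * γ 0 1), γ 0 0], by
    have := γ.det_coe
    rw [Matrix.det_fin_two] at this
    rw [Matrix.det_fin_two_of]
    rw [hc] at this
    linarith⟩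

omit [NeZero N] in
theorem frickeConj_mem (γ : SL(2, ℤ)) (c' : ℤ) (hc : γ 1 0 = N * c') :
    frickeConj N γ c' hc ∈ Gamma0 N := by
  rw [Gamma0_mem]
  simp [frickeConj]

open ConjAct Pointwise in
theorem Gamma0_le_conj_fricke :
    ((Gamma0 N : Subgroup SL(2, ℤ)) : Subgroup (GL (Fin 2) ℝ)) ≤
      toConjAct (frickeMat N)⁻¹ • ((Gamma0 N : Subgroup SL(2, ℤ)) : Subgroup (GL (Fin 2) ℝ)) := by
  rintro _ ⟨γ, hγ, rfl⟩
  rw [Subgroup.mem_pointwise_smul_iff_inv_smul_mem, ← map_inv, inv_inv, ConjAct.toConjAct_smul]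
  have hγ' := hγ
  rw [SetLike.mem_coe, Gamma0_mem, ZMod.intCast_zmod_eq_zero_iff_dvd] at hγ'
  obtain ⟨c', hc⟩ := hγ'
  refine ⟨frickeConj N γ c' hc, frickeConj_mem N γ c' hc, ?_⟩
  rw [eq_mul_inv_iff_mul_eq]
  apply Matrix.GeneralLinearGroup.ext
  intro i j
  fin_cases i <;> fin_cases j <;>
    simp [frickeMat, frickeConj, Matrix.mul_apply, Fin.sum_univ_two, hc, mul_comm]

open Fermat.Agent.S28 (restrictLevel coe_restrictLevel)

/-- The Fricke (Atkin-Lehner) involution `f ↦ f ∣[k] [[0,-1],[N,0]]` on `M_k(Γ₀(N))`. -/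
def frickeMF {k : ℤ} (f : ModularForm (Gamma0 N) k) : ModularForm (Gamma0 N) k :=
  restrictLevel (Gamma0_le_conj_fricke N) (ModularForm.translate f (frickeMat N))

@[simp] theorem coe_frickeMF {k : ℤ} (f : ModularForm (Gamma0 N) k) :
    (frickeMF N f : ℍ → ℂ) = (f : ℍ → ℂ) ∣[k] frickeMat N := rfl

/-- The Fricke involution on cusp forms. -/
def frickeCF {k : ℤ} (f : CuspForm (Gamma0 N) k) : CuspForm (Gamma0 N) k where
  toFun := (f : ℍ → ℂ) ∣[k] frickeMat N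
  slash_action_eq' γ hγ :=
    (CuspForm.translate f (frickeMat N)).slash_action_eq' γ (Gamma0_le_conj_fricke N hγ)
  holo' := (CuspForm.translate f (frickeMat N)).holo'
  zero_at_cusps' hc :=
    (CuspForm.translate f (frickeMat N)).zero_at_cusps' (hc.mono (Gamma0_le_conj_fricke N))

@[simp] theorem coe_frickeCF {k : ℤ} (f : CuspForm (Gamma0 N) k) :
    (frickeCF N f : ℍ → ℂ) = (f : ℍ → ℂ) ∣[k] frickeMat N := rfl

theorem frickeMat_smul_smul (z : ℍ) : frickeMat N • (frickeMat N • z) = z := by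
  apply UpperHalfPlane.ext
  rw [coe_frickeMat_smul, coe_frickeMat_smul]
  have hN : (N : ℂ) ≠ 0 := Nat.cast_ne_zero.mpr (NeZero.ne N)
  have hz : (z : ℂ) ≠ 0 := UpperHalfPlane.ne_zero z
  field_simp

/-- `W² = 1` in weight 2. -/
theorem slash_fricke_fricke (f : ℍ → ℂ) :
    (f ∣[(2 : ℤ)] frickeMat N) ∣[(2 : ℤ)] frickeMat N = f := by
  funext z
  rw [slash_frickeMat_apply, slash_frickeMat_apply, frickeMat_smul_smul, coe_frickeMat_smul]
  have hN : (N : ℂ) ≠ 0 := Nat.cast_ne_zero.mpr (NeZero.ne N)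
  have hz : (z : ℂ) ≠ 0 := UpperHalfPlane.ne_zero z
  simp only [Int.reduceSub, Int.reduceNeg, zpow_neg, zpow_ofNat]
  field_simp

theorem frickeMF_frickeMF (f : ModularForm (Gamma0 N) 2) : frickeMF N (frickeMF N f) = f := by
  apply DFunLike.coe_injective
  rw [coe_frickeMF, coe_frickeMF, slash_fricke_fricke]

theorem frickeCF_frickeCF (f : CuspForm (Gamma0 N) 2) : frickeCF N (frickeCF N f) = f := by
  apply DFunLike.coe_injective
  rw [coe_frickeCF, coe_frickeCF, slash_fricke_fricke]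

/-! ### Coset representatives of `Γ₀(p)` in `SL(2, ℤ)` -/

section Cosets

open Fermat.Agent.S23 (G0 Q0)
open Matrix.SpecialLinearGroup (mapGL)

/-- The matrix `S T^j = [[0, -1], [1, j]]`. -/
def repM (j : ℤ) : SL(2, ℤ) := ⟨!![0, -1; 1, j], by simp [Matrix.det_fin_two_of]⟩

/-- The inverse `[[j, 1], [-1, 0]]` of `repM j`. -/
def repMInv (j : ℤ) : SL(2, ℤ) := ⟨!![j, 1; -1, 0], by simp [Matrix.det_fin_two_of]⟩

theorem repM_inv (j : ℤ) : (repM j)⁻¹ = repMInv j := by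
  rw [inv_eq_iff_mul_eq_one]
  ext a b
  fin_cases a <;> fin_cases b <;> simp [repM, repMInv, Matrix.mul_apply, Fin.sum_univ_two]

variable (p : ℕ)

/-- Coset representatives (as left cosets `h Γ₀(p)`): `1` and `(S T^j)⁻¹`, `0 ≤ j < p`. -/
def cosetRep : Option (Fin p) → SL(2, ℤ)
  | none => 1
  | some j => repMInv (j : ℤ)

/-- The class in `SL(2,ℤ) / Γ₀(p)` (Mathlib's model inside `GL(2,ℝ)`) of an element of `SL(2,ℤ)`. -/
def mkQ (γ : SL(2, ℤ)) : Q0 p :=
  QuotientGroup.mk (⟨mapGL ℝ γ, MonoidHom.mem_range.mpr ⟨γ, rfl⟩⟩ :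
    (mapGL ℝ : SL(2, ℤ) →* GL (Fin 2) ℝ).range)

theorem mkQ_eq_iff (γ γ' : SL(2, ℤ)) : mkQ p γ = mkQ p γ' ↔ γ⁻¹ * γ' ∈ Gamma0 p := by
  unfold mkQ
  rw [QuotientGroup.eq, Subgroup.mem_subgroupOf]
  constructor
  · rintro ⟨g, hg, hgeq⟩
    have : g = γ⁻¹ * γ' := by
      apply Matrix.SpecialLinearGroup.mapGL_injective (S := ℝ)
      rw [hgeq]
      simp
    rwa [← this]
  · intro h
    refine ⟨γ⁻¹ * γ', h, ?_⟩
    simp

theorem mkQ_surjective : Function.Surjective (mkQ p) := by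
  intro q
  induction q using QuotientGroup.induction_on with
  | H h =>
    obtain ⟨h, γ, rfl⟩ := h
    exact ⟨γ, rfl⟩

variable [Fact p.Prime]

theorem cosetRep_injective : Function.Injective (fun x => mkQ p (cosetRep p x)) := by
  have hp : p.Prime := Fact.out
  intro x y hxy
  simp only at hxy
  rw [mkQ_eq_iff, Fermat.Agent.S28.inv_mul_mem_Gamma0_iff'] at hxy
  rcases x with _ | i <;> rcases y with _ | j
  · rfl
  · exfalso
    simp [cosetRep, repMInv] at hxy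
  · exfalso
    simp [cosetRep, repMInv] at hxy
  · simp only [cosetRep, repMInv, Matrix.SpecialLinearGroup.coe_mk, Matrix.of_apply,
      Matrix.cons_val', Matrix.cons_val_zero, Matrix.cons_val_one, Matrix.empty_val',
      Matrix.cons_val_fin_one] at hxy
    push_cast at hxy
    have h2 : ((i : ℕ) : ZMod p) = ((j : ℕ) : ZMod p) := by linear_combination -hxy
    rw [ZMod.natCast_eq_natCast_iff'] at h2
    rw [Nat.mod_eq_of_lt i.2, Nat.mod_eq_of_lt j.2] at h2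
    exact congrArg some (Fin.ext h2)

theorem cosetRep_surjective : Function.Surjective (fun x => mkQ p (cosetRep p x)) := by
  have hp : p.Prime := Fact.out
  have : NeZero p := ⟨hp.ne_zero⟩
  intro q
  obtain ⟨γ, rfl⟩ := mkQ_surjective p q
  by_cases hc : ((γ 1 0 : ℤ) : ZMod p) = 0
  · refine ⟨none, ?_⟩
    simp only [cosetRep]
    rw [mkQ_eq_iff, inv_one, one_mul, Gamma0_mem]
    exact hc
  · set t : ZMod p := -((γ 0 0 : ℤ) : ZMod p) * (((γ 1 0 : ℤ) : ZMod p))⁻¹ with ht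
    refine ⟨some ⟨t.val, ZMod.val_lt t⟩, ?_⟩
    simp only [cosetRep]
    rw [mkQ_eq_iff, Fermat.Agent.S28.inv_mul_mem_Gamma0_iff']
    simp only [repMInv, Matrix.SpecialLinearGroup.coe_mk, Matrix.of_apply,
      Matrix.cons_val', Matrix.cons_val_zero, Matrix.cons_val_one, Matrix.empty_val',
      Matrix.cons_val_fin_one]
    push_cast
    rw [ZMod.natCast_zmod_val, ht]
    field_simp
    ring

theorem cosetRep_bijective : Function.Bijective (fun x => mkQ p (cosetRep p x)) :=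
  ⟨cosetRep_injective p, cosetRep_surjective p⟩

end Cosets

/-! ### The trace from `Γ₀(p)` to level one -/

section Trace

open Fermat.Agent.S23 (G0 Q0)
open Matrix.SpecialLinearGroup (mapGL)
open SlashInvariantForm (quotientFunc)

variable (p : ℕ) {k : ℤ}

theorem quotientFunc_mkQ (f : ModularForm (Gamma0 p) k) (γ : SL(2, ℤ)) :
    quotientFunc f (mkQ p γ) = (f : ℍ → ℂ) ∣[k] γ⁻¹ := by
  have h := SlashInvariantForm.quotientFunc_mk (𝒢 := G0 p) (ℋ := (mapGL ℝ).range) f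
    (⟨mapGL ℝ γ, MonoidHom.mem_range.mpr ⟨γ, rfl⟩⟩ :
      (mapGL ℝ : SL(2, ℤ) →* GL (Fin 2) ℝ).range)
  rw [ModularForm.SL_slash]
  convert h using 2
  · rfl
  · show _ = ((mapGL ℝ) γ)⁻¹
    rw [← map_inv]
    rfl

variable [Fact p.Prime]

/-- The trace of `f ∈ M_k(Γ₀(p))` to level one is `f + ∑_{j < p} f ∣ S T^j`. -/
theorem trace_apply (f : ModularForm (Gamma0 p) k) (z : ℍ) :
    ModularForm.trace (mapGL ℝ : SL(2, ℤ) →* GL (Fin 2) ℝ).range f z =
      f z + ∑ j : Fin p, ((f : ℍ → ℂ) ∣[k] repM (j : ℤ)) z := by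
  have h := ModularForm.coe_trace (𝒢 := G0 p) (mapGL ℝ : SL(2, ℤ) →* GL (Fin 2) ℝ).range f
  rw [h, Finset.sum_apply]
  rw [← Fintype.sum_bijective (fun x => mkQ p (cosetRep p x)) (cosetRep_bijective p)
    (fun x => ((f : ℍ → ℂ) ∣[k] (cosetRep p x)⁻¹) z) (fun q => quotientFunc f q z)
    (fun x => by rw [quotientFunc_mkQ])]
  rw [Fintype.sum_option]
  congr 1
  · simp [cosetRep]
  · refine Finset.sum_congr rfl fun j _ => ?_
    simp only [cosetRep]
    rw [← repM_inv, inv_inv]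

theorem coe_repM_smul (j : ℤ) (z : ℍ) : ((repM j • z : ℍ) : ℂ) = -1 / ((z : ℂ) + j) := by
  rw [UpperHalfPlane.coe_specialLinearGroup_apply]
  simp [repM]

theorem denom_repM (j : ℤ) (z : ℍ) : denom (repM j) z = (z : ℂ) + j := by
  rw [Fermat.Agent.S23.UFunction.denom_SL]
  simp [repM]

omit [Fact p.Prime] in
theorem fricke_heckeMatrix_smul [NeZero p] (j : ℕ) (z : ℍ) :
    frickeMat p • (heckeMatrix p j • z) = repM (j : ℤ) • z := by
  apply UpperHalfPlane.ext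
  rw [coe_frickeMat_smul, coe_heckeMatrix_smul (NeZero.ne p), coe_repM_smul]
  have hp : (p : ℂ) ≠ 0 := Nat.cast_ne_zero.mpr (NeZero.ne p)
  push_cast
  field_simp

omit [Fact p.Prime] in
/-- `f ∣ S T^j = p^(2-k) (f ∣ W) ∣ β_j` with `β_j = [[1, j], [0, p]]`. -/
theorem slash_repM [NeZero p] (f : ℍ → ℂ) (j : ℕ) :
    f ∣[k] repM (j : ℤ) =
      (p : ℂ) ^ (2 - k) • ((f ∣[k] frickeMat p) ∣[k] heckeMatrix p j) := by
  funext z
  have hp : (p : ℂ) ≠ 0 := Nat.cast_ne_zero.mpr (NeZero.ne p)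
  rw [SL_slash_apply, Pi.smul_apply, smul_eq_mul, slash_heckeMatrix_apply k (NeZero.ne p),
    slash_frickeMat_apply, fricke_heckeMatrix_smul, coe_heckeMatrix_smul (NeZero.ne p), denom_repM]
  have h1 : (p : ℂ) * (((z : ℂ) + (j : ℕ)) / p) = (z : ℂ) + ((j : ℕ) : ℤ) := by
    push_cast
    field_simp
  rw [h1]
  have h2 : (p : ℂ) ^ (2 - k) * ((p : ℂ)⁻¹ * (p : ℂ) ^ (k - 1)) = 1 := by
    rw [← zpow_neg_one, ← zpow_add₀ hp, ← zpow_add₀ hp]
    have : 2 - k + (-1 + (k - 1)) = 0 := by ring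
    rw [this, zpow_zero]
  calc f (repM (j : ℤ) • z) * ((z : ℂ) + ((j : ℕ) : ℤ)) ^ (-k)
      = ((p : ℂ) ^ (2 - k) * ((p : ℂ)⁻¹ * (p : ℂ) ^ (k - 1))) *
          (f (repM (j : ℤ) • z) * ((z : ℂ) + ((j : ℕ) : ℤ)) ^ (-k)) := by rw [h2, one_mul]
    _ = _ := by ring

/-- **Trace formula**: `Tr_{Γ₀(p) → SL(2,ℤ)} f = f + p^(2-k) U_p(f ∣ W)`. -/
theorem trace_eq (f : ModularForm (Gamma0 p) k) :
    (ModularForm.trace (mapGL ℝ : SL(2, ℤ) →* GL (Fin 2) ℝ).range f : ℍ → ℂ) =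
      (f : ℍ → ℂ) + (p : ℂ) ^ (2 - k) • heckeU k p ((f : ℍ → ℂ) ∣[k] frickeMat p) := by
  have hp : p.Prime := Fact.out
  have : NeZero p := ⟨hp.ne_zero⟩
  funext z
  rw [trace_apply, Pi.add_apply, Pi.smul_apply, heckeU_def, Finset.sum_apply, Finset.smul_sum,
    ← Fin.sum_univ_eq_sum_range]
  congr 1
  refine Finset.sum_congr rfl fun j _ => ?_
  have := congrFun (slash_repM p (k := k) (f : ℍ → ℂ) j) z
  rw [Pi.smul_apply] at this
  exact_mod_cast this

/-! ### Weight 2: `U_p W = -1`, `U_p² = 1` -/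

theorem levelOne_weight_two_eq_zero
    (F : ModularForm (mapGL ℝ : SL(2, ℤ) →* GL (Fin 2) ℝ).range 2) : F = 0 :=
  rank_zero_iff_forall_zero.mp ModularForm.levelOne_weight_two_rank_zero F

/-- `U_p (f ∣ W) = -f` on `M_2(Γ₀(p))`. -/
theorem heckeU_fricke (f : ModularForm (Gamma0 p) 2) :
    heckeU 2 p ((f : ℍ → ℂ) ∣[(2 : ℤ)] frickeMat p) = -(f : ℍ → ℂ) := by
  have h := trace_eq p f
  rw [levelOne_weight_two_eq_zero (ModularForm.trace _ f)] at h
  simp only [sub_self, zpow_zero, one_smul] at h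
  have h' : (f : ℍ → ℂ) + heckeU 2 p ((f : ℍ → ℂ) ∣[(2 : ℤ)] frickeMat p) = 0 := by
    rw [← h]; rfl
  exact eq_neg_of_add_eq_zero_right h'

/-- `f ∣ W = -U_p f` on `M_2(Γ₀(p))`. -/
theorem fricke_eq_neg_heckeU (f : ModularForm (Gamma0 p) 2) :
    (f : ℍ → ℂ) ∣[(2 : ℤ)] frickeMat p = -heckeU 2 p (f : ℍ → ℂ) := by
  have hp : p.Prime := Fact.out
  have : NeZero p := ⟨hp.ne_zero⟩
  have h := heckeU_fricke p (frickeMF p f)
  rw [coe_frickeMF, slash_fricke_fricke] at h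
  rw [h, neg_neg]

/-- `U_p² = 1` on `M_2(Γ₀(p))`. -/
theorem heckeU_heckeU (f : ModularForm (Gamma0 p) 2) :
    heckeU 2 p (heckeU 2 p (f : ℍ → ℂ)) = (f : ℍ → ℂ) := by
  have h := heckeU_fricke p f
  rw [fricke_eq_neg_heckeU, heckeU_neg] at h
  exact neg_injective h

end Trace

end Fermat.Agent.S16.AtkinLehner
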