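/-
P-S16, block B1 continued (helper80): a weight-2 modular form on `Γ₀(p)` whose constant term
vanishes is a cusp form; `M_2(Γ₀(p)) = S_2(Γ₀(p)) ⊕ ℂ Eis_p`.
-/
import Mathlib
import Fermat.Agent.S16.AtkinLehner
import Fermat.Prelude.Thm_ModularFormClass_qCoeff_heckeU

set_option autoImplicit false

noncomputable section

open UpperHalfPlane ModularForm Complex MatrixGroups CongruenceSubgroup Filter Function
open scoped ModularForm Manifold Real Topology

namespace Fermat.Agent.S16.CuspCriterion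

open Fermat.Agent.S16.AtkinLehner Fermat.Agent.S16.Eisenstein
open Matrix.SpecialLinearGroup (mapGL)
open Fermat.Agent.S28 (one_mem_strictPeriods_Gamma0)

/-- A periodic holomorphic function bounded at `i∞` tends to its constant `q`-coefficient. -/
theorem tendsto_coeff_zero {f : ℍ → ℂ} (hper : Periodic (f ∘ ofComplex) 1) (hhol : MDiff f)
    (hbdd : IsBoundedAtImInfty f) : Tendsto f atImInfty (𝓝 ((qExpansion 1 f).coeff 0)) := by
  have hper' : Periodic (f ∘ ofComplex) ((1 : ℝ) : ℂ) := by simpa using hper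
  have han := analyticAt_cuspFunction_zero one_pos hper' hhol hbdd
  have h0 : cuspFunction 1 f 0 = (qExpansion 1 f).coeff 0 := by
    rw [qExpansion_coeff]; simp
  have hcomp : (cuspFunction 1 f ∘ fun τ : ℍ ↦ Periodic.qParam 1 τ) = f := by
    funext τ
    simpa using eq_cuspFunction τ one_ne_zero hper'
  have := han.continuousAt.tendsto.comp (qParam_tendsto_atImInfty one_pos)
  rw [h0, hcomp] at this
  exact this

variable {N : ℕ} {k : ℤ}

theorem periodic_modularForm (H : ModularForm (Gamma0 N) k) :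
    Periodic ((H : ℍ → ℂ) ∘ ofComplex) 1 := by
  have h := SlashInvariantFormClass.periodic_comp_ofComplex H (h := 1)
    (one_mem_strictPeriods_Gamma0 N)
  simpa using h

theorem tendsto_modularForm [NeZero N] (H : ModularForm (Gamma0 N) k) :
    Tendsto (H : ℍ → ℂ) atImInfty (𝓝 (ModularFormClass.qCoeff H 0)) :=
  tendsto_coeff_zero (periodic_modularForm H) (ModularFormClass.holo H)
    (ModularFormClass.bdd_at_infty H)

/-! ### Translates by `SL(2, ℤ)` -/

variable (p : ℕ) [Fact p.Prime]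

/-- Every `SL(2,ℤ)`-translate of a `Γ₀(p)`-form is the form itself or a translate by `S T^j`. -/
theorem slash_SL_cases (H : ModularForm (Gamma0 p) k) (γ : SL(2, ℤ)) :
    (H : ℍ → ℂ) ∣[k] γ = (H : ℍ → ℂ) ∨
      ∃ j : Fin p, (H : ℍ → ℂ) ∣[k] γ = (H : ℍ → ℂ) ∣[k] repM ((j : ℕ) : ℤ) := by
  obtain ⟨x, hx⟩ := cosetRep_surjective p (mkQ p γ⁻¹)
  simp only at hx
  have h1 := quotientFunc_mkQ p H γ⁻¹
  rw [← hx, quotientFunc_mkQ, inv_inv] at h1
  rcases x with _ | j
  · left
    rw [← h1]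
    simp [cosetRep]
  · right
    refine ⟨j, ?_⟩
    rw [← h1]
    simp only [cosetRep]
    rw [← repM_inv, inv_inv]

omit [Fact p.Prime] in
theorem tendsto_heckeMatrix_smul [NeZero p] (j : ℕ) :
    Tendsto (fun τ : ℍ => heckeMatrix p j • τ) atImInfty atImInfty := by
  rw [atImInfty, tendsto_comap_iff]
  have hp0 : (0 : ℝ) < p := Nat.cast_pos.mpr (NeZero.pos p)
  have : (UpperHalfPlane.im ∘ fun τ : ℍ => heckeMatrix p j • τ) =
      fun τ : ℍ => (p : ℝ)⁻¹ * τ.im := by
    funext τ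
    simp only [Function.comp_apply]
    have h := coe_heckeMatrix_smul (NeZero.ne p) j τ
    have h2 : (heckeMatrix p j • τ).im = (((τ : ℂ) + j) / p).im := by rw [← h]; rfl
    rw [h2]
    have h3 : ((τ : ℂ) + j) / p = (((p : ℝ)⁻¹ : ℝ) : ℂ) * ((τ : ℂ) + ((j : ℝ) : ℂ)) := by
      push_cast; field_simp
    rw [h3, Complex.im_ofReal_mul]
    simp
  rw [this]
  exact (tendsto_comap (f := UpperHalfPlane.im) (x := atTop)).const_mul_atTop (inv_pos.mpr hp0)

omit [Fact p.Prime] in
theorem isZeroAtImInfty_slash_heckeMatrix [NeZero p] {G : ℍ → ℂ} (hG : IsZeroAtImInfty G) (j : ℕ) :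
    IsZeroAtImInfty (G ∣[k] heckeMatrix p j) := by
  have hfun : G ∣[k] heckeMatrix p j = fun τ => (p : ℂ)⁻¹ * G (heckeMatrix p j • τ) := by
    funext τ
    exact slash_heckeMatrix_apply k (NeZero.ne p) j G τ
  rw [hfun, IsZeroAtImInfty, ZeroAtFilter]
  have h1 : Tendsto (fun τ : ℍ => G (heckeMatrix p j • τ)) atImInfty (𝓝 0) :=
    hG.comp (tendsto_heckeMatrix_smul p j)
  simpa using h1.const_mul ((p : ℂ)⁻¹)

/-! ### The cusp form criterion in weight 2 -/

theorem qCoeff_heckeU_zero [NeZero N] (H : ModularForm (Gamma0 N) k) :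
    ModularFormClass.qCoeff (heckeU k p (H : ℍ → ℂ)) 0 = ModularFormClass.qCoeff H 0 := by
  have hp : p.Prime := Fact.out
  rw [ModularFormClass.qCoeff_heckeU H (one_mem_strictPeriods_Gamma0 N) hp.ne_zero 0,
    coeffHeckeU_apply, zero_mul]

theorem isZeroAtImInfty_slash_of_coeff_zero (H : ModularForm (Gamma0 p) 2)
    (h0 : ModularFormClass.qCoeff H 0 = 0) (γ : SL(2, ℤ)) :
    IsZeroAtImInfty ((H : ℍ → ℂ) ∣[(2 : ℤ)] γ) := by
  have hp : p.Prime := Fact.out
  have : NeZero p := ⟨hp.ne_zero⟩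
  have hH : IsZeroAtImInfty (H : ℍ → ℂ) := by
    have := tendsto_modularForm H
    rwa [h0] at this
  have hU : IsZeroAtImInfty (heckeU 2 p (H : ℍ → ℂ)) := by
    have := tendsto_modularForm (heckeULin 2 (dvd_refl p) H)
    rw [coe_heckeULin_apply, qCoeff_heckeU_zero p H, h0] at this
    exact this
  have hW : IsZeroAtImInfty ((H : ℍ → ℂ) ∣[(2 : ℤ)] frickeMat p) := by
    rw [fricke_eq_neg_heckeU]
    exact hU.neg
  rcases slash_SL_cases p H γ with h | ⟨j, h⟩
  · rw [h]; exact hH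
  · rw [h, slash_repM p (H : ℍ → ℂ) j]
    simp only [sub_self, zpow_zero, one_smul]
    exact isZeroAtImInfty_slash_heckeMatrix p hW j

/-- A weight-2 modular form on `Γ₀(p)` with vanishing constant term, as a cusp form. -/
def cuspFormOfCoeffZero (H : ModularForm (Gamma0 p) 2) (h0 : ModularFormClass.qCoeff H 0 = 0) :
    CuspForm (Gamma0 p) 2 where
  toSlashInvariantForm := H.toSlashInvariantForm
  holo' := H.holo'
  zero_at_cusps' {c} hc := by
    rw [Subgroup.IsArithmetic.isCusp_iff_isCusp_SL2Z] at hc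
    rw [OnePoint.isZeroAt_iff_forall_SL2Z hc]
    intro γ _
    exact isZeroAtImInfty_slash_of_coeff_zero p H h0 γ

@[simp] theorem coe_cuspFormOfCoeffZero (H : ModularForm (Gamma0 p) 2)
    (h0 : ModularFormClass.qCoeff H 0 = 0) :
    (cuspFormOfCoeffZero p H h0 : ℍ → ℂ) = (H : ℍ → ℂ) := rfl

/-! ### `M_2(Γ₀(p)) = S_2(Γ₀(p)) ⊕ ℂ Eis` -/

theorem qCoeff_sub_smul (H E : ModularForm (Gamma0 N) k) (c : ℂ) (n : ℕ) :
    ModularFormClass.qCoeff (H - c • E) n =
      ModularFormClass.qCoeff H n - c * ModularFormClass.qCoeff E n := by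
  unfold ModularFormClass.qCoeff
  have h2 : ((c • E : ModularForm (Gamma0 N) k) : ℍ → ℂ) = c • (E : ℍ → ℂ) := rfl
  rw [← h2, ModularForm.qExpansion_sub one_pos (one_mem_strictPeriods_Gamma0 N) H (c • E), h2,
    ModularForm.qExpansion_smul one_pos (one_mem_strictPeriods_Gamma0 N) c E]
  simp

/-- The coefficient of `Eis` in the decomposition `M_2 = S_2 ⊕ ℂ Eis`. -/
def eisCoord (H : ModularForm (Gamma0 p) 2) : ℂ :=
  24 * ModularFormClass.qCoeff H 0 / ((p : ℂ) - 1)

theorem qCoeff_sub_eis_zero (H : ModularForm (Gamma0 p) 2) :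
    haveI : NeZero p := ⟨(Fact.out : p.Prime).ne_zero⟩
    ModularFormClass.qCoeff (H - eisCoord p H • eisForm p) 0 = 0 := by
  have hp : p.Prime := Fact.out
  have : NeZero p := ⟨hp.ne_zero⟩
  rw [qCoeff_sub_smul, qCoeff_eisForm_zero, eisCoord]
  have hp1 : ((p : ℂ) - 1) ≠ 0 := by
    have : (p : ℂ) ≠ 1 := by exact_mod_cast hp.one_lt.ne'
    exact sub_ne_zero.mpr this
  field_simp
  ring

/-- The cuspidal part of a weight-2 form on `Γ₀(p)`. -/
def cuspPart (H : ModularForm (Gamma0 p) 2) : CuspForm (Gamma0 p) 2 :=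
  haveI : NeZero p := ⟨(Fact.out : p.Prime).ne_zero⟩
  cuspFormOfCoeffZero p (H - eisCoord p H • eisForm p) (qCoeff_sub_eis_zero p H)

theorem eq_cuspPart_add (H : ModularForm (Gamma0 p) 2) (z : ℍ) :
    haveI : NeZero p := ⟨(Fact.out : p.Prime).ne_zero⟩
    H z = cuspPart p H z + eisCoord p H * eisForm p z := by
  have : NeZero p := ⟨(Fact.out : p.Prime).ne_zero⟩
  show H z = (H - eisCoord p H • eisForm p) z + eisCoord p H * eisForm p z
  simp

end Fermat.Agent.S16.CuspCriterion
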