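/-
P-S16, block B2/B3 (helper80): the level-one trace of a product of two weight-2 forms on `Γ₀(p)`,
`Tr(H f) = H f + p⁻¹ U_p(U_p H · U_p f)`, its `q`-coefficients, and the consequence
`(p + 1) a_0(H) ∈ ℤ` for a nearly integral `H` (given an integral cusp form `f` with `a_1(f) = 1`).
-/
import Mathlib
import Fermat.Agent.S16.CuspCriterion
import Fermat.Prelude.Thm_CongruenceSubgroup_one_mem_strictPeriods_Gamma0

set_option autoImplicit false

noncomputable section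

open UpperHalfPlane ModularForm Complex MatrixGroups CongruenceSubgroup Filter Function
open scoped ModularForm Manifold Real Topology

namespace Fermat.Agent.S16.TraceProduct

open Fermat.Agent.S16.AtkinLehner Fermat.Agent.S16.Eisenstein Fermat.Agent.S16.CuspCriterion
open Matrix.SpecialLinearGroup (mapGL)
open ModularFormClass (qCoeff)

variable (p : ℕ) [Fact p.Prime]

/-- `U_p` on `M_k(Γ₀(p))` (Prelude `heckeULin` at level `p`). -/
abbrev Up {k : ℤ} : ModularForm (Gamma0 p) k →ₗ[ℂ] ModularForm (Gamma0 p) k :=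
  haveI : NeZero p := ⟨(Fact.out : p.Prime).ne_zero⟩
  heckeULin k (dvd_refl p)

theorem coe_Up {k : ℤ} (H : ModularForm (Gamma0 p) k) :
    (Up p H : ℍ → ℂ) = heckeU k p (H : ℍ → ℂ) := rfl

theorem qCoeff_Up {k : ℤ} (H : ModularForm (Gamma0 p) k) (n : ℕ) :
    qCoeff (Up p H) n = qCoeff H (n * p) := by
  have hp : p.Prime := Fact.out
  rw [coe_Up, ModularFormClass.qCoeff_heckeU H (CongruenceSubgroup.one_mem_strictPeriods_Gamma0 p) hp.ne_zero n,
    coeffHeckeU_apply]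

theorem Up_Up (H : ModularForm (Gamma0 p) 2) : Up p (Up p H) = H := by
  apply DFunLike.coe_injective
  rw [coe_Up, coe_Up, heckeU_heckeU]

theorem qCoeff_mul {a b : ℤ} (H : ModularForm (Gamma0 p) a) (f : ModularForm (Gamma0 p) b) (n : ℕ) :
    qCoeff (H.mul f) n = ∑ x ∈ Finset.HasAntidiagonal.antidiagonal n, qCoeff H x.1 * qCoeff f x.2 := by
  unfold ModularFormClass.qCoeff
  rw [ModularForm.qExpansion_mul one_pos (CongruenceSubgroup.one_mem_strictPeriods_Gamma0 p), PowerSeries.coeff_mul]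

/-- `(H f) ∣[4] W = p (U_p H)(U_p f)` for `H, f ∈ M_2(Γ₀(p))`. -/
theorem mul_slash_fricke (H f : ModularForm (Gamma0 p) 2) :
    ((H.mul f : ModularForm (Gamma0 p) (2 + 2)) : ℍ → ℂ) ∣[(2 + 2 : ℤ)] frickeMat p =
      (p : ℂ) • ((Up p H).mul (Up p f) : ModularForm (Gamma0 p) (2 + 2)) := by
  have hp : p.Prime := Fact.out
  have : NeZero p := ⟨hp.ne_zero⟩
  rw [ModularForm.coe_mul, ModularForm.mul_slash, fricke_eq_neg_heckeU, fricke_eq_neg_heckeU,
    ModularForm.coe_mul, coe_Up, coe_Up, det_frickeMat, abs_of_pos (Nat.cast_pos.mpr hp.pos)]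
  funext z
  simp only [Pi.smul_apply, Pi.mul_apply, smul_eq_mul, neg_mul_neg]
  simp

/-- The level-one trace of a product of two weight-2 forms on `Γ₀(p)` (block B2, function form):
`Tr(H f) = H f + p⁻¹ U_p(U_p H · U_p f)`. -/
theorem trace_mul_eq (H f : ModularForm (Gamma0 p) 2) :
    (ModularForm.trace (mapGL ℝ : SL(2, ℤ) →* GL (Fin 2) ℝ).range (H.mul f) : ℍ → ℂ) =
      (H.mul f : ℍ → ℂ) + (p : ℂ)⁻¹ • (Up p ((Up p H).mul (Up p f)) : ℍ → ℂ) := by
  have hp : p.Prime := Fact.out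
  have hp0 : (p : ℂ) ≠ 0 := Nat.cast_ne_zero.mpr hp.ne_zero
  rw [trace_eq p (H.mul f), mul_slash_fricke, heckeU_smul, coe_Up, smul_smul]
  congr 2
  rw [show (2 : ℤ) - (2 + 2) = -2 by norm_num, zpow_neg, zpow_ofNat]
  field_simp

omit [Fact p.Prime] in
theorem qCoeff_add_smul {k : ℤ} (A B : ModularForm (Gamma0 p) k) (c : ℂ) (n : ℕ) :
    qCoeff ((A : ℍ → ℂ) + c • (B : ℍ → ℂ)) n = qCoeff A n + c * qCoeff B n := by
  unfold ModularFormClass.qCoeff
  have h2 : ((c • B : ModularForm (Gamma0 p) k) : ℍ → ℂ) = c • (B : ℍ → ℂ) := rfl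
  rw [← h2, ModularForm.qExpansion_add one_pos (CongruenceSubgroup.one_mem_strictPeriods_Gamma0 p)
    A (c • B), h2,
    ModularForm.qExpansion_smul one_pos (CongruenceSubgroup.one_mem_strictPeriods_Gamma0 p) c B]
  simp

/-- `q`-coefficients of the level-one trace of `H f`. -/
theorem qCoeff_trace_mul (H f : ModularForm (Gamma0 p) 2) (n : ℕ) :
    qCoeff (ModularForm.trace (mapGL ℝ : SL(2, ℤ) →* GL (Fin 2) ℝ).range (H.mul f)) n =
      ∑ x ∈ Finset.HasAntidiagonal.antidiagonal n, qCoeff H x.1 * qCoeff f x.2 +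
        (p : ℂ)⁻¹ * ∑ x ∈ Finset.HasAntidiagonal.antidiagonal (n * p),
          qCoeff H (x.1 * p) * qCoeff f (x.2 * p) := by
  rw [trace_mul_eq, qCoeff_add_smul, qCoeff_mul, qCoeff_Up, qCoeff_mul]
  simp only [qCoeff_Up]

/-- If `f` vanishes at `∞` then the level-one trace of `H f` (weight 4) is zero. -/
theorem trace_mul_eq_zero (H f : ModularForm (Gamma0 p) 2) (hf0 : qCoeff f 0 = 0) :
    ModularForm.trace (mapGL ℝ : SL(2, ℤ) →* GL (Fin 2) ℝ).range (H.mul f) = 0 := by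
  apply ModularForm.sturm_bound_levelOne
  have h0 : (qExpansion 1 (ModularForm.trace (mapGL ℝ : SL(2, ℤ) →* GL (Fin 2) ℝ).range
      (H.mul f))).coeff 0 = 0 := by
    have h := qCoeff_trace_mul p H f 0
    simp only [zero_mul, Finset.Nat.antidiagonal_zero, Finset.sum_singleton, hf0, mul_zero,
      add_zero] at h
    exact h
  have h1 : (1 : ℕ∞) ≤ (qExpansion 1 (ModularForm.trace
      (mapGL ℝ : SL(2, ℤ) →* GL (Fin 2) ℝ).range (H.mul f))).order := by
    apply PowerSeries.le_order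
    intro i hi
    have hi0 : i = 0 := by
      have : i < 1 := by exact_mod_cast hi
      omega
    rw [hi0]
    exact h0
  have h2 : (((2 + 2 : ℤ).toNat / 12 : ℕ) : ℕ∞) = 0 := by norm_num
  rw [h2]
  exact lt_of_lt_of_le (by norm_num) h1

/-- **Block B3.** Let `H ∈ M_2(Γ₀(p))` have integral coefficients `a_k`, `k ≥ 1`, and let `f` be a
weight-2 form on `Γ₀(p)` with integral coefficients, `a_0(f) = 0` and `a_1(f) = 1`.  Then
`(p + 1) a_0(H) ∈ ℤ`. -/
theorem ub_tr_of_form (H f : ModularForm (Gamma0 p) 2)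
    (hH : ∀ k : ℕ, 1 ≤ k → ∃ m : ℤ, qCoeff H k = (m : ℂ))
    (hf : ∀ n : ℕ, ∃ m : ℤ, qCoeff f n = (m : ℂ)) (hf0 : qCoeff f 0 = 0)
    (hf1 : qCoeff f 1 = 1) :
    ∃ z : ℤ, ((p : ℂ) + 1) * qCoeff H 0 = (z : ℂ) := by
  have hp : p.Prime := Fact.out
  have hp0 : (p : ℂ) ≠ 0 := Nat.cast_ne_zero.mpr hp.ne_zero
  have htr := qCoeff_trace_mul p H f 1
  rw [trace_mul_eq_zero p H f hf0] at htr
  have hz : qCoeff ((0 : ModularForm (mapGL ℝ : SL(2, ℤ) →* GL (Fin 2) ℝ).range (2 + 2)) :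
      ℍ → ℂ) 1 = 0 := by
    unfold ModularFormClass.qCoeff
    rw [FunLike.coe_zero, qExpansion_zero]
    simp
  rw [hz] at htr
  -- `a_{p²}(f) = a_1(f) = 1`
  have hpp : qCoeff f (p * p) = 1 := by
    have h := congrArg (fun g : ModularForm (Gamma0 p) 2 => qCoeff g 1) (Up_Up p f)
    simp only [qCoeff_Up, one_mul] at h
    rw [h, hf1]
  -- expand the two sums
  rw [Finset.Nat.sum_antidiagonal_eq_sum_range_succ
      (fun i j => qCoeff H i * qCoeff f j) 1,
    Finset.Nat.sum_antidiagonal_eq_sum_range_succ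
      (fun i j => qCoeff H (i * p) * qCoeff f (j * p)) (1 * p),
    Finset.sum_range_succ, Finset.sum_range_one, Finset.sum_range_succ'] at htr
  simp only [Nat.sub_zero, Nat.sub_self, zero_mul, one_mul, hf0, hf1, mul_zero, add_zero,
    mul_one, hpp] at htr
  -- the remaining sum is an integer
  have hZ : ∃ Z : ℤ, ∑ i ∈ Finset.range p,
      qCoeff H ((i + 1) * p) * qCoeff f ((p - (i + 1)) * p) = (Z : ℂ) := by
    have : ∀ i ∈ Finset.range p, ∃ Z : ℤ,
        qCoeff H ((i + 1) * p) * qCoeff f ((p - (i + 1)) * p) = (Z : ℂ) := by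
      intro i _
      obtain ⟨a, ha⟩ := hH ((i + 1) * p) (Nat.mul_pos (Nat.succ_pos i) hp.pos)
      obtain ⟨b, hb⟩ := hf ((p - (i + 1)) * p)
      exact ⟨a * b, by rw [ha, hb]; push_cast; ring⟩
    choose! Zf hZf using this
    exact ⟨∑ i ∈ Finset.range p, Zf i, by
      rw [Int.cast_sum]; exact Finset.sum_congr rfl hZf⟩
  obtain ⟨Z, hZ⟩ := hZ
  rw [hZ] at htr
  refine ⟨-Z, ?_⟩
  have h3 : (p : ℂ) * (qCoeff H 0 + (p : ℂ)⁻¹ * ((Z : ℂ) + qCoeff H 0)) = 0 := by
    rw [← htr, mul_zero]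
  have h4 : (p : ℂ) * (qCoeff H 0 + (p : ℂ)⁻¹ * ((Z : ℂ) + qCoeff H 0)) =
      ((p : ℂ) + 1) * qCoeff H 0 + Z := by
    field_simp
    ring
  rw [h4] at h3
  push_cast
  linear_combination h3

end Fermat.Agent.S16.TraceProduct
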