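/-
P-S16, blocks A3 + B, final theorems in the shape of `S16/Defs.lean` (helper80):
`eisForm_spec : EisForm p`, `cuspOfConstZero : CuspOfConstZero p`, `ub_tr (hp5 : 5 ≤ p) : UB_TR p`.
Also: the integral lattice `S_ℤ` contains a form with `a_1 = 1` unless it is trivial (gcd trick
through the Hecke recursion).
-/
import Mathlib
import Fermat.Agent.S16.TraceProduct
import Fermat.Agent.S16.Defs
import Fermat.Agent.S23.Bounded
import Fermat.Agent.S49.Eigenform
import Fermat.Agent.S49.Realize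
import Fermat.Prelude.Thm_CuspForm_mem_intLattice_of_coe_eq_heckeT
import Fermat.Prelude.Thm_CuspForm_mem_intLattice_of_coe_eq_heckeU

set_option autoImplicit false

noncomputable section

open UpperHalfPlane ModularForm Complex MatrixGroups CongruenceSubgroup Filter Function
open scoped ModularForm Manifold Real Topology

namespace Fermat.Agent.S16.BlockB

open Fermat.Agent.S16.AtkinLehner Fermat.Agent.S16.Eisenstein Fermat.Agent.S16.CuspCriterion
  Fermat.Agent.S16.TraceProduct
open ModularFormClass (qCoeff)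
open Fermat.Agent.S49.Realize (mem_intLattice_iff)
open Fermat.Agent.S49.Eigenform (qCoeff_zero_cuspForm cuspForm_eq_zero_of_qCoeff qCoeff_heckeTLin
  qCoeff_heckeULin qCoeff_smul_cuspForm)

variable (p : ℕ) [Fact p.Prime]

/-- The ideal of `ℤ` of first coefficients of forms in the integral lattice. -/
def a1Ideal : Ideal ℤ where
  carrier := {m : ℤ | ∃ g ∈ CuspForm.intLattice p 2, qCoeff g 1 = (m : ℂ)}
  add_mem' := by
    rintro a b ⟨g, hg, hga⟩ ⟨h, hh, hhb⟩
    exact ⟨g + h, Submodule.add_mem _ hg hh, by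
      rw [Fermat.Agent.S49.Realize.qCoeff_add, hga, hhb]; push_cast; ring⟩
  zero_mem' := ⟨0, Submodule.zero_mem _, by
    rw [Fermat.Agent.S49.Realize.qCoeff_zero']; simp⟩
  smul_mem' := by
    rintro c a ⟨g, hg, hga⟩
    exact ⟨c • g, Submodule.smul_mem _ c hg, by
      rw [Fermat.Agent.S49.Realize.qCoeff_zsmul, hga]; simp⟩

omit [Fact p.Prime] in
theorem mem_a1Ideal (m : ℤ) :
    m ∈ a1Ideal p ↔ ∃ g ∈ CuspForm.intLattice p 2, qCoeff g 1 = (m : ℂ) := Iff.rfl

/-- All coefficients `a_n(g)`, `n ≥ 1`, `g ∈ S_ℤ`, lie in the ideal of first coefficients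
(`a_n(g) = a_1(T_n g)`, proved by induction through the Hecke recursion). -/
theorem qCoeff_mem_a1Ideal : ∀ n : ℕ, 1 ≤ n → ∀ g ∈ CuspForm.intLattice p 2,
    ∃ m ∈ a1Ideal p, qCoeff g n = (m : ℂ) := by
  have hp : p.Prime := Fact.out
  have : NeZero p := ⟨hp.ne_zero⟩
  intro n
  induction n using Nat.strong_induction_on with
  | _ n ih =>
    intro hn g hg
    rcases Nat.lt_or_ge n 2 with h2 | h2
    · have hn1 : n = 1 := by omega
      subst hn1
      obtain ⟨m, hm⟩ := (mem_intLattice_iff g).mp hg 1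
      exact ⟨m, ⟨g, hg, hm⟩, hm⟩
    · set ℓ := n.minFac with hℓdef
      have hℓ : ℓ.Prime := Nat.minFac_prime (by omega)
      have hℓn : ℓ ∣ n := Nat.minFac_dvd n
      set m := n / ℓ with hmdef
      have hnm : m * ℓ = n := Nat.div_mul_cancel hℓn
      have hm1 : 1 ≤ m := by
        rcases Nat.eq_zero_or_pos m with h0 | h0
        · rw [h0, zero_mul] at hnm; omega
        · exact h0
      have hmn : m < n := by
        have := hℓ.two_le
        nlinarith
      by_cases hℓp : ℓ = p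
      · -- `a_{m p}(g) = a_m(U_p g)`
        have hU : CuspForm.heckeULin 2 (dvd_refl p) g ∈ CuspForm.intLattice p 2 :=
          CuspForm.mem_intLattice_of_coe_eq_heckeU hp.ne_zero
            (CuspForm.coe_heckeULin_apply 2 (dvd_refl p) g) hg
        obtain ⟨a, ha, hae⟩ := ih m hmn hm1 _ hU
        refine ⟨a, ha, ?_⟩
        rw [← hae, qCoeff_heckeULin hp (dvd_refl p), coeffHeckeU_apply]
        have : m * p = n := by rw [← hℓp]; exact hnm
        rw [this]
      · have hℓnp : ¬ ℓ ∣ p := fun h => hℓp ((Nat.prime_dvd_prime_iff_eq hℓ hp).mp h)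
        have hT : CuspForm.heckeTLin 2 hℓ hℓnp g ∈ CuspForm.intLattice p 2 :=
          CuspForm.mem_intLattice_of_coe_eq_heckeT one_le_two hℓ.ne_zero
            (CuspForm.coe_heckeTLin_apply 2 hℓ hℓnp g) hg
        obtain ⟨a, ha, hae⟩ := ih m hmn hm1 _ hT
        rw [qCoeff_heckeTLin hℓ hℓnp, coeffHeckeT_apply, hnm] at hae
        by_cases hdvd : ℓ ∣ m
        · have hml1 : 1 ≤ m / ℓ := Nat.div_pos (Nat.le_of_dvd hm1 hdvd) hℓ.pos
          have hmln : m / ℓ < n := lt_of_le_of_lt (Nat.div_le_self m ℓ) hmn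
          obtain ⟨b, hb, hbe⟩ := ih (m / ℓ) hmln hml1 g hg
          rw [if_pos hdvd, hbe] at hae
          refine ⟨a - ℓ * b, Ideal.sub_mem _ ha (Ideal.mul_mem_left _ _ hb), ?_⟩
          have : qCoeff g n = (a : ℂ) - (ℓ : ℂ) ^ ((2 : ℤ) - 1) * (b : ℂ) := by
            rw [← hae]; ring
          rw [this]
          norm_num
        · rw [if_neg hdvd, add_zero] at hae
          exact ⟨a, ha, hae⟩

/-- Either the integral lattice contains a form with `a_1 = 1`, or it is trivial. -/
theorem exists_unit_form_or_bot :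
    (∃ f ∈ CuspForm.intLattice p 2, qCoeff f 1 = 1) ∨ CuspForm.intLattice p 2 = ⊥ := by
  have hprinc : (a1Ideal p).IsPrincipal := inferInstance
  set d := Submodule.IsPrincipal.generator (a1Ideal p) with hd
  by_cases hd0 : d = 0
  · right
    rw [Submodule.eq_bot_iff]
    intro g hg
    apply cuspForm_eq_zero_of_qCoeff
    intro n
    rcases Nat.eq_zero_or_pos n with h0 | h0
    · rw [h0]; exact qCoeff_zero_cuspForm g
    · obtain ⟨m, hm, hme⟩ := qCoeff_mem_a1Ideal p n h0 g hg
      obtain ⟨s, hs⟩ := (Submodule.IsPrincipal.mem_iff_eq_smul_generator (a1Ideal p)).mp hm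
      rw [← hd, hd0, smul_zero] at hs
      rw [hme, hs]; simp
  · left
    obtain ⟨g₀, hg₀, hg₀d⟩ := (mem_a1Ideal p d).mp (Submodule.IsPrincipal.generator_mem _)
    have hdC : (d : ℂ) ≠ 0 := by exact_mod_cast hd0
    refine ⟨(d : ℂ)⁻¹ • g₀, ?_, ?_⟩
    · rw [mem_intLattice_iff]
      intro n
      rcases Nat.eq_zero_or_pos n with h0 | h0
      · refine ⟨0, ?_⟩
        rw [h0, qCoeff_zero_cuspForm]; simp
      · obtain ⟨m, hm, hme⟩ := qCoeff_mem_a1Ideal p n h0 g₀ hg₀
        obtain ⟨s, hs⟩ := (Submodule.IsPrincipal.mem_iff_eq_smul_generator (a1Ideal p)).mp hm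
        refine ⟨s, ?_⟩
        rw [qCoeff_smul_cuspForm, hme, hs, ← hd, smul_eq_mul]
        push_cast
        field_simp
    · rw [qCoeff_smul_cuspForm, hg₀d]
      field_simp

/-! ### The block theorems in the shape of `S16/Defs.lean` -/

/-- Block A3: the Eisenstein series `(p E₂(pz) - E₂(z))/24`. -/
theorem eisForm_spec : EisForm p := by
  have hp : p.Prime := Fact.out
  have : NeZero p := ⟨hp.ne_zero⟩
  refine ⟨eisForm p, qCoeff_eisForm_zero p, fun k hk => ?_⟩
  rw [qCoeff_eisForm p k (by omega)]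
  rfl

/-- Block B1: a weight-2 form on `Γ₀(p)` with vanishing constant term is a cusp form. -/
theorem cuspOfConstZero : CuspOfConstZero p :=
  fun H h0 => ⟨cuspFormOfCoeffZero p H h0, fun _ => rfl⟩

theorem twentyfour_dvd_sq_sub_one (hp5 : 5 ≤ p) : ∃ t : ℤ, (p : ℤ) ^ 2 - 1 = 24 * t := by
  have hp : p.Prime := Fact.out
  have h2 : ¬ 2 ∣ p := fun h => by
    have := (Nat.prime_dvd_prime_iff_eq Nat.prime_two hp).mp h
    omega
  have h3 : ¬ 3 ∣ p := fun h => by
    have := (Nat.prime_dvd_prime_iff_eq Nat.prime_three hp).mp h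
    omega
  have hq : (p : ℤ) = 24 * ((p / 24 : ℕ) : ℤ) + ((p % 24 : ℕ) : ℤ) := by
    exact_mod_cast (Nat.div_add_mod p 24).symm
  set q : ℤ := ((p / 24 : ℕ) : ℤ)
  have hr : p % 24 = 1 ∨ p % 24 = 5 ∨ p % 24 = 7 ∨ p % 24 = 11 ∨ p % 24 = 13 ∨ p % 24 = 17 ∨
      p % 24 = 19 ∨ p % 24 = 23 := by omega
  rcases hr with h | h | h | h | h | h | h | h <;> rw [h] at hq <;> rw [hq]
  · exact ⟨24 * q ^ 2 + 2 * q, by push_cast; ring⟩
  · exact ⟨24 * q ^ 2 + 10 * q + 1, by push_cast; ring⟩
  · exact ⟨24 * q ^ 2 + 14 * q + 2, by push_cast; ring⟩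
  · exact ⟨24 * q ^ 2 + 22 * q + 5, by push_cast; ring⟩
  · exact ⟨24 * q ^ 2 + 26 * q + 7, by push_cast; ring⟩
  · exact ⟨24 * q ^ 2 + 34 * q + 12, by push_cast; ring⟩
  · exact ⟨24 * q ^ 2 + 38 * q + 15, by push_cast; ring⟩
  · exact ⟨24 * q ^ 2 + 46 * q + 22, by push_cast; ring⟩

/-- Block B3: `(p + 1) a_0(H) ∈ ℤ` for every nearly integral `H ∈ M_2(Γ₀(p))`, `p ≥ 5`. -/
theorem ub_tr (hp5 : 5 ≤ p) : UB_TR p := by
  have hp : p.Prime := Fact.out
  have : NeZero p := ⟨hp.ne_zero⟩
  intro H hH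
  rcases exists_unit_form_or_bot p with ⟨f, hfL, hf1⟩ | hbot
  · exact ub_tr_of_form p H (ModularFormClass.modularForm f) hH
      ((mem_intLattice_iff f).mp hfL) (qCoeff_zero_cuspForm f) hf1
  · -- no cusp forms: `H = c • Eis`
    have hS : ∀ g : CuspForm (Gamma0 p) 2, g = 0 := by
      intro g
      have htop : g ∈ Submodule.span ℂ ((CuspForm.intLattice p 2 :
          Submodule ℤ (CuspForm (Gamma0 p) 2)) : Set (CuspForm (Gamma0 p) 2)) := by
        have h := Fermat.Agent.S23.Bounded.hasIntegralStructure p 2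
        unfold CuspForm.HasIntegralStructure at h
        rw [h]; trivial
      rw [hbot] at htop
      simpa using htop
    set c := eisCoord p H with hc
    have hHeq : H = c • eisForm p := by
      apply DFunLike.coe_injective
      funext z
      have h := eq_cuspPart_add p H z
      rw [hS (cuspPart p H)] at h
      simpa using h
    have hq : ∀ n, qCoeff H n = c * qCoeff (eisForm p) n := by
      intro n
      have h := qCoeff_add_smul p (0 : ModularForm (Gamma0 p) 2) (eisForm p) c n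
      have h0 : qCoeff ((0 : ModularForm (Gamma0 p) 2) : ℍ → ℂ) n = 0 := by
        unfold ModularFormClass.qCoeff
        rw [FunLike.coe_zero, qExpansion_zero]; simp
      rw [h0, zero_add] at h
      rw [← h, hHeq]
      congr 1
      funext z
      simp
    obtain ⟨m, hm⟩ := hH 1 le_rfl
    rw [hq 1, qCoeff_eisForm p 1 one_ne_zero, sigmaP_one_right p hp.one_lt] at hm
    have hcm : c = (m : ℂ) := by simpa using hm
    obtain ⟨t, ht⟩ := twentyfour_dvd_sq_sub_one p hp5
    refine ⟨m * t, ?_⟩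
    rw [hq 0, qCoeff_eisForm_zero, hcm]
    have htC : ((p : ℂ)) ^ 2 - 1 = 24 * (t : ℂ) := by exact_mod_cast congrArg (fun x : ℤ => (x : ℂ)) ht
    push_cast
    linear_combination (m : ℂ) / 24 * htC

end Fermat.Agent.S16.BlockB
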