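import Mathlib
import Fermat.Prelude.Def_CuspForm_HeckeLocal
import Fermat.Prelude.Def_CuspForm_HeckeEvalForms
import Fermat.Prelude.Def_HeckeGalois_EichlerShimura
import Fermat.Agent.S22.HeckeDual

/-!
# S16, block A1: the polynomials `P_n` in the Hecke generators

For a level `N` and `n ≥ 1` we produce a polynomial `P_n ∈ ℤ[X_ℓ : ℓ prime]` such that
* the first `q`-coefficient of `P_n(T) g` is the `n`-th `q`-coefficient of `g`, for every cusp
  form `g` of weight `2` and level `Γ₀(N)` (here `X_ℓ ↦ U_ℓ` for `ℓ ∣ N`, `X_ℓ ↦ T_ℓ` otherwise);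
* the value of `P_n` at the Eisenstein system (`X_ℓ ↦ 1` for `ℓ ∣ N`, `X_ℓ ↦ 1 + ℓ` otherwise) is
  `σ'_N(n)`, the sum of the divisors of `n` that are prime to `N`.
-/

set_option autoImplicit false

open CuspForm ModularFormClass ModularCurve

namespace Fermat.Agent.S16

open Finset

local notation "Γ₀(" N ")" => CongruenceSubgroup.Gamma0 N

/-! ### The divisor sum `σ'_N` -/

/-- Sum of the divisors of `n` that are prime to `N`. -/
def sigmaCop (N n : ℕ) : ℕ := ∑ d ∈ n.divisors with Nat.Coprime d N, d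

theorem sigmaCop_one (N : ℕ) : sigmaCop N 1 = 1 := by
  simp [sigmaCop, Finset.filter_singleton]

theorem sigmaCop_mul_of_dvd {N ℓ : ℕ} (hℓN : ℓ ∣ N) (m : ℕ) (hℓ0 : ℓ ≠ 0) (hm : m ≠ 0) :
    sigmaCop N (ℓ * m) = sigmaCop N m := by
  unfold sigmaCop
  congr 1
  ext d
  simp only [mem_filter, Nat.mem_divisors]
  constructor
  · rintro ⟨⟨hd, -⟩, hc⟩
    refine ⟨⟨?_, hm⟩, hc⟩
    have hdl : Nat.Coprime d ℓ := Nat.Coprime.coprime_dvd_right hℓN hc
    exact hdl.dvd_of_dvd_mul_left hd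
  · rintro ⟨⟨hd, -⟩, hc⟩
    exact ⟨⟨Dvd.dvd.mul_left hd ℓ, mul_ne_zero hℓ0 hm⟩, hc⟩

theorem sigmaCop_mul_of_not_dvd {N ℓ : ℕ} (hℓ : ℓ.Prime) (hℓN : ¬ ℓ ∣ N) (m : ℕ) (hm : m ≠ 0) :
    sigmaCop N (ℓ * m) + (if ℓ ∣ m then ℓ * sigmaCop N (m / ℓ) else 0) =
      (1 + ℓ) * sigmaCop N m := by
  have hcop : Nat.Coprime ℓ N := (Nat.Prime.coprime_iff_not_dvd hℓ).2 hℓN
  set A := (m.divisors.filter fun d => Nat.Coprime d N) with hA
  have hinj : Function.Injective (fun d : ℕ => ℓ * d) := fun a b h =>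
    Nat.eq_of_mul_eq_mul_left hℓ.pos h
  set B := A.image (fun d => ℓ * d) with hB
  have h1 : ((ℓ * m).divisors.filter fun d => Nat.Coprime d N) = A ∪ B := by
    ext d
    simp only [hA, hB, mem_filter, Nat.mem_divisors, mem_union, mem_image]
    constructor
    · rintro ⟨⟨hd, -⟩, hc⟩
      by_cases hld : ℓ ∣ d
      · obtain ⟨e, rfl⟩ := hld
        right
        refine ⟨e, ⟨⟨?_, hm⟩, ?_⟩, rfl⟩
        · exact Nat.dvd_of_mul_dvd_mul_left hℓ.pos hd
        · exact Nat.Coprime.coprime_mul_left hc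
      · left
        have hdl : Nat.Coprime d ℓ := ((Nat.Prime.coprime_iff_not_dvd hℓ).2 hld).symm
        exact ⟨⟨hdl.dvd_of_dvd_mul_left hd, hm⟩, hc⟩
    · rintro (⟨⟨hd, -⟩, hc⟩ | ⟨e, ⟨⟨he, -⟩, hc⟩, rfl⟩)
      · exact ⟨⟨Dvd.dvd.mul_left hd ℓ, mul_ne_zero hℓ.ne_zero hm⟩, hc⟩
      · exact ⟨⟨Nat.mul_dvd_mul_left ℓ he, mul_ne_zero hℓ.ne_zero hm⟩, Nat.Coprime.mul_left hcop hc⟩
  have h2 : ∑ d ∈ A ∩ B, d = if ℓ ∣ m then ℓ * sigmaCop N (m / ℓ) else 0 := by
    split_ifs with hlm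
    · have : A ∩ B = (((m / ℓ).divisors.filter fun d => Nat.Coprime d N).image fun d => ℓ * d) := by
        ext d
        simp only [hA, hB, mem_inter, mem_filter, Nat.mem_divisors, mem_image]
        constructor
        · rintro ⟨⟨⟨hd, -⟩, -⟩, e, ⟨⟨-, -⟩, hc⟩, rfl⟩
          refine ⟨e, ⟨⟨(Nat.dvd_div_iff_mul_dvd hlm).2 hd, ?_⟩, hc⟩, rfl⟩
          exact (Nat.div_pos (Nat.le_of_dvd (Nat.pos_of_ne_zero hm) hlm) hℓ.pos).ne'
        · rintro ⟨e, ⟨⟨he, -⟩, hc⟩, rfl⟩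
          have h3 : ℓ * e ∣ m := (Nat.dvd_div_iff_mul_dvd hlm).1 he
          refine ⟨⟨⟨h3, hm⟩, Nat.Coprime.mul_left hcop hc⟩, e, ⟨⟨?_, hm⟩, hc⟩, rfl⟩
          exact (Dvd.intro_left ℓ rfl).trans h3
      rw [this, sum_image (fun a _ b _ h => hinj h), ← mul_sum]
      rfl
    · have : A ∩ B = ∅ := by
        ext d
        simp only [hA, hB, mem_inter, mem_filter, Nat.mem_divisors, mem_image, notMem_empty,
          iff_false]
        rintro ⟨⟨⟨hd, -⟩, -⟩, e, -, rfl⟩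
        exact hlm ((Dvd.intro e rfl).trans hd)
      rw [this, sum_empty]
  have h3 : ∑ d ∈ B, d = ℓ * sigmaCop N m := by
    rw [hB, sum_image (fun a _ b _ h => hinj h), ← mul_sum]
    rfl
  have h4 := sum_union_inter (s₁ := A) (s₂ := B) (f := fun d => d)
  unfold sigmaCop at *
  rw [h1, ← h2, h4, h3]
  ring

/-! ### `q`-coefficients of `T_ℓ g` and `U_ℓ g` in weight two -/

variable (N : ℕ) [NeZero N]

omit [NeZero N] in
theorem qCoeff_heckeTLin {ℓ : ℕ} (hℓ : ℓ.Prime) (hℓN : ¬ ℓ ∣ N) (g : CuspForm Γ₀(N) 2) (n : ℕ) :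
    qCoeff (heckeTLin 2 hℓ hℓN g) n =
      qCoeff g (n * ℓ) + if ℓ ∣ n then (ℓ : ℂ) * qCoeff g (n / ℓ) else 0 := by
  have := ModularFormClass.qCoeff_heckeT g (Fermat.Agent.S22.hΓ0 N) hℓ.ne_zero n
  rw [coe_heckeTLin_apply, this, ModularForm.coeffHeckeT_apply]
  norm_num

theorem qCoeff_heckeULin {ℓ : ℕ} (hℓ : ℓ.Prime) (hℓN : ℓ ∣ N) (g : CuspForm Γ₀(N) 2) (n : ℕ) :
    qCoeff (heckeULin 2 hℓN g) n = qCoeff g (n * ℓ) := by
  have := ModularFormClass.qCoeff_heckeU (k := 2) g (Fermat.Agent.S22.hΓ0 N) hℓ.ne_zero n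
  rw [coe_heckeULin_apply, this, ModularForm.coeffHeckeU_apply]

/-- The action of a Hecke polynomial on cusp forms. -/
noncomputable def heckeAct (P : HeckeAlg) : Module.End ℂ (CuspForm Γ₀(N) 2) :=
  (heckeEvalForms N 2 P : Module.End ℂ (CuspForm Γ₀(N) 2))

theorem heckeAct_one : heckeAct N 1 = 1 := by
  simp [heckeAct]

theorem heckeAct_mul (P Q : HeckeAlg) : heckeAct N (P * Q) = heckeAct N P * heckeAct N Q := by
  simp [heckeAct]

theorem heckeAct_mul_apply (P Q : HeckeAlg) (g : CuspForm Γ₀(N) 2) :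
    heckeAct N (P * Q) g = heckeAct N P (heckeAct N Q g) := by
  rw [heckeAct_mul]
  rfl

theorem heckeAct_mul_apply' (P Q : HeckeAlg) (g : CuspForm Γ₀(N) 2) :
    heckeAct N (P * Q) g = heckeAct N Q (heckeAct N P g) := by
  rw [mul_comm, heckeAct_mul_apply]

theorem heckeAct_sub (P Q : HeckeAlg) : heckeAct N (P - Q) = heckeAct N P - heckeAct N Q := by
  simp [heckeAct]

theorem heckeAct_add (P Q : HeckeAlg) : heckeAct N (P + Q) = heckeAct N P + heckeAct N Q := by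
  simp [heckeAct]

theorem heckeAct_C_mul (a : ℤ) (P : HeckeAlg) (g : CuspForm Γ₀(N) 2) :
    heckeAct N (MvPolynomial.C a * P) g = a • heckeAct N P g := by
  rw [heckeAct_mul_apply]
  simp only [heckeAct, heckeEvalForms_C]
  rw [Algebra.algebraMap_eq_smul_one]
  simp

theorem heckeAct_X_of_dvd {ℓ : Nat.Primes} (h : (ℓ : ℕ) ∣ N) :
    heckeAct N (MvPolynomial.X ℓ) = heckeULin 2 h := by
  have := heckeEvalForms_heckeGen_of_dvd (N := N) (k := 2) h
  rw [heckeGen] at this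
  rw [heckeAct, this]
  rfl

theorem heckeAct_X_of_not_dvd {ℓ : Nat.Primes} (h : ¬ (ℓ : ℕ) ∣ N) :
    heckeAct N (MvPolynomial.X ℓ) = heckeTLin 2 ℓ.2 h := by
  have := heckeEvalForms_heckeGen_of_not_dvd (N := N) (k := 2) h
  rw [heckeGen] at this
  rw [heckeAct, this]
  rfl

/-- **Block A1.** For `n ≥ 1` there is a polynomial `P_n` in the Hecke generators with
`a₁(P_n(T) g) = a_n(g)` for every cusp form `g`, and `P_n(Eis) = σ'_N(n)`. -/
theorem exists_heckePoly (n : ℕ) (hn : 0 < n) :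
    ∃ P : HeckeAlg, (∀ g : CuspForm Γ₀(N) 2, qCoeff (heckeAct N P g) 1 = qCoeff g n) ∧
      MvPolynomial.aeval (R := ℤ) (eisensteinSystem N) P = (sigmaCop N n : ℤ) := by
  induction n using Nat.strong_induction_on with
  | _ n ih =>
    rcases Nat.eq_or_lt_of_le (Nat.one_le_of_lt hn) with h1 | h1
    · subst h1
      refine ⟨1, fun g => ?_, ?_⟩
      · rw [heckeAct_one]
        rfl
      · simp [sigmaCop_one]
    · obtain ⟨L, hL⟩ : ∃ L : Nat.Primes, (L : ℕ) = n.minFac :=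
        ⟨⟨n.minFac, Nat.minFac_prime (by omega)⟩, rfl⟩
      have hℓ : (L : ℕ).Prime := L.2
      obtain ⟨m, hm⟩ : (L : ℕ) ∣ n := hL ▸ Nat.minFac_dvd n
      have hm0 : m ≠ 0 := by
        rintro rfl
        omega
      have hmlt : m < n := by
        rw [hm]
        exact lt_mul_of_one_lt_left (Nat.pos_of_ne_zero hm0) hℓ.one_lt
      obtain ⟨Pm, hPm1, hPm2⟩ := ih m hmlt (Nat.pos_of_ne_zero hm0)
      by_cases hℓN : (L : ℕ) ∣ N
      · refine ⟨MvPolynomial.X L * Pm, fun g => ?_, ?_⟩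
        · rw [heckeAct_mul_apply', hPm1, heckeAct_X_of_dvd N hℓN,
            qCoeff_heckeULin N hℓ hℓN, hm, mul_comm]
        · rw [map_mul, MvPolynomial.aeval_X, hPm2, eisensteinSystem_of_dvd hℓN,
            one_mul, hm, sigmaCop_mul_of_dvd hℓN m hℓ.ne_zero hm0]
      · by_cases hlm : (L : ℕ) ∣ m
        · have hm'lt : m / (L : ℕ) < n := lt_of_le_of_lt (Nat.div_le_self m _) hmlt
          have hm'pos : 0 < m / (L : ℕ) :=
            Nat.div_pos (Nat.le_of_dvd (Nat.pos_of_ne_zero hm0) hlm) hℓ.pos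
          obtain ⟨Pm', hPm'1, hPm'2⟩ := ih (m / (L : ℕ)) hm'lt hm'pos
          refine ⟨MvPolynomial.X L * Pm - MvPolynomial.C ((L : ℕ) : ℤ) * Pm', fun g => ?_, ?_⟩
          · change Fermat.Agent.S22.qCoeffLin N 2 1 _ = _
            rw [heckeAct_sub, LinearMap.sub_apply, map_sub, heckeAct_mul_apply', heckeAct_C_mul,
              LinearMap.map_smul_of_tower]
            simp only [Fermat.Agent.S22.qCoeffLin_apply]
            rw [hPm1, hPm'1, heckeAct_X_of_not_dvd N hℓN, qCoeff_heckeTLin N hℓ hℓN, if_pos hlm, hm,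
              mul_comm m]
            simp
          · have := sigmaCop_mul_of_not_dvd hℓ hℓN m hm0
            rw [if_pos hlm] at this
            rw [map_sub, map_mul, map_mul, MvPolynomial.aeval_X, MvPolynomial.aeval_C, hPm2,
              hPm'2, eisensteinSystem_of_not_dvd hℓN, hm]
            have h2 : ((sigmaCop N ((L : ℕ) * m) : ℕ) : ℤ) +
                ((L : ℕ) : ℤ) * (sigmaCop N (m / (L : ℕ)) : ℤ) =
                (1 + ((L : ℕ) : ℤ)) * (sigmaCop N m : ℤ) := by exact_mod_cast this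
            simp only [algebraMap_int_eq, eq_intCast, Int.cast_id]
            linarith
        · refine ⟨MvPolynomial.X L * Pm, fun g => ?_, ?_⟩
          · rw [heckeAct_mul_apply', hPm1, heckeAct_X_of_not_dvd N hℓN,
              qCoeff_heckeTLin N hℓ hℓN, if_neg hlm, add_zero, hm, mul_comm]
          · have := sigmaCop_mul_of_not_dvd hℓ hℓN m hm0
            rw [if_neg hlm, add_zero] at this
            rw [map_mul, MvPolynomial.aeval_X, hPm2,
              eisensteinSystem_of_not_dvd hℓN, hm, this]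
            push_cast
            ring

/-- A choice of the polynomial `P_n` (and `0` for `n = 0`). -/
noncomputable def heckePoly (n : ℕ) : HeckeAlg :=
  if hn : 0 < n then Classical.choose (exists_heckePoly N n hn) else 0

theorem qCoeff_heckePoly {n : ℕ} (hn : 0 < n) (g : CuspForm Γ₀(N) 2) :
    qCoeff (heckeAct N (heckePoly N n) g) 1 = qCoeff g n := by
  rw [heckePoly, dif_pos hn]
  exact (Classical.choose_spec (exists_heckePoly N n hn)).1 g

theorem aeval_heckePoly {n : ℕ} (hn : 0 < n) :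
    MvPolynomial.aeval (R := ℤ) (eisensteinSystem N) (heckePoly N n) = (sigmaCop N n : ℤ) := by
  rw [heckePoly, dif_pos hn]
  exact (Classical.choose_spec (exists_heckePoly N n hn)).2

end Fermat.Agent.S16
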