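import Mathlib
import Fermat.Prelude.Def_CuspForm_HeckeLocal
import Fermat.Prelude.Def_CuspForm_HeckeEvalForms
import Fermat.Prelude.Def_HeckeGalois_EichlerShimura
import Fermat.Agent.S49.Realize
import Fermat.Agent.S16.HeckeTn
import Fermat.Agent.S16.GlueS16

/-!
# S16, block A2: duality between the Hecke algebra and the lattice of integral cusp forms

`SZ := intLattice N 2`, `T := heckeLatticeAlgebra N ∅`.  The pairing
`SZ × T → ℤ`, `(x, t) ↦ a₁(t x)` induces a bijection `SZ → Hom_ℤ(T, ℤ)`.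
-/

set_option autoImplicit false
set_option linter.unusedSectionVars false

open CuspForm ModularFormClass ModularCurve

namespace Fermat.Agent.S16

local notation "Γ₀(" N ")" => CongruenceSubgroup.Gamma0 N

variable (N : ℕ) [NeZero N]

/-! ### Integral coefficients -/

theorem exists_int_qCoeff (x : ↥(intLattice N 2)) (n : ℕ) :
    ∃ m : ℤ, qCoeff (x : CuspForm Γ₀(N) 2) n = (m : ℂ) :=
  (Fermat.Agent.S49.Realize.mem_intLattice_iff (x : CuspForm Γ₀(N) 2)).1 x.2 n

/-- The `n`-th `q`-coefficient of an integral cusp form, as an integer. -/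
noncomputable def coeffZfun (x : ↥(intLattice N 2)) (n : ℕ) : ℤ :=
  Classical.choose (exists_int_qCoeff N x n)

theorem coeffZfun_spec (x : ↥(intLattice N 2)) (n : ℕ) :
    ((coeffZfun N x n : ℤ) : ℂ) = qCoeff (x : CuspForm Γ₀(N) 2) n :=
  (Classical.choose_spec (exists_int_qCoeff N x n)).symm

/-- The `n`-th `q`-coefficient as a `ℤ`-linear functional on the lattice. -/
noncomputable def coeffZ (n : ℕ) : ↥(intLattice N 2) →ₗ[ℤ] ℤ :=
  (AddMonoidHom.mk' (fun x => coeffZfun N x n) (by
    intro x y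
    have h : ((coeffZfun N (x + y) n : ℤ) : ℂ) = ((coeffZfun N x n + coeffZfun N y n : ℤ) : ℂ) := by
      push_cast
      rw [coeffZfun_spec, coeffZfun_spec, coeffZfun_spec]
      exact Fermat.Agent.S49.Realize.qCoeff_add _ _ n
    exact_mod_cast h)).toIntLinearMap

theorem coeffZ_spec (x : ↥(intLattice N 2)) (n : ℕ) :
    ((coeffZ N n x : ℤ) : ℂ) = qCoeff (x : CuspForm Γ₀(N) 2) n :=
  coeffZfun_spec N x n

theorem coeffZ_eq_of_qCoeff {x : ↥(intLattice N 2)} {n : ℕ} {m : ℤ}
    (h : qCoeff (x : CuspForm Γ₀(N) 2) n = (m : ℂ)) : coeffZ N n x = m := by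
  have : ((coeffZ N n x : ℤ) : ℂ) = (m : ℂ) := by rw [coeffZ_spec, h]
  exact_mod_cast this

theorem coeffZ_zero (x : ↥(intLattice N 2)) : coeffZ N 0 x = 0 := by
  apply coeffZ_eq_of_qCoeff
  rw [Int.cast_zero]
  exact CuspFormClass.qExpansion_coeff_zero (x : CuspForm Γ₀(N) 2) one_pos
    (Fermat.Agent.S22.hΓ0 N)

theorem eq_zero_of_coeffZ (x : ↥(intLattice N 2)) (h : ∀ n, 0 < n → coeffZ N n x = 0) : x = 0 := by
  apply Subtype.ext
  apply Fermat.Agent.S22.coeffLattice_separates N 2
  intro φ hφ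
  induction hφ using Submodule.span_induction with
  | mem ψ hψ =>
    obtain ⟨n, rfl⟩ := hψ
    rw [Fermat.Agent.S22.qCoeffLin_apply, ← coeffZ_spec]
    rcases Nat.eq_zero_or_pos n with rfl | hn
    · rw [coeffZ_zero, Int.cast_zero]
    · rw [h n hn, Int.cast_zero]
  | zero => simp
  | add a b _ _ ha hb => rw [LinearMap.add_apply, ha, hb, add_zero]
  | smul c a _ ha => rw [LinearMap.smul_apply, ha, smul_zero]

/-! ### The Hecke action on the lattice -/

/-- `ph : ℤ[X_ℓ] → T`, the map of the statement S16. -/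
noncomputable def phZ : HeckeAlg →+* ↥(heckeLatticeAlgebra N ∅) :=
  (latticeRestrictHom N ∅).toRingHom.comp (heckeEvalForms N 2)

theorem phZ_surjective : Function.Surjective (phZ N) :=
  (latticeRestrictHom_surjective N ∅).comp (Glue.heckeEvalForms_surjective N 2)

theorem coe_phZ_apply (P : HeckeAlg) (x : ↥(intLattice N 2)) :
    ((((phZ N P : ↥(heckeLatticeAlgebra N ∅)) : Module.End ℤ ↥(intLattice N 2)) x :
      ↥(intLattice N 2)) : CuspForm Γ₀(N) 2) = heckeAct N P (x : CuspForm Γ₀(N) 2) := rfl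

/-- `a₁(P_n(T) x) = a_n(x)` on the lattice. -/
theorem coeffZ_one_phZ_heckePoly {n : ℕ} (hn : 0 < n) (x : ↥(intLattice N 2)) :
    coeffZ N 1 (((phZ N (heckePoly N n) : ↥(heckeLatticeAlgebra N ∅)) :
      Module.End ℤ ↥(intLattice N 2)) x) = coeffZ N n x := by
  apply coeffZ_eq_of_qCoeff
  rw [coe_phZ_apply, qCoeff_heckePoly N hn, coeffZ_spec]

/-! ### The pairing -/

/-- The pairing `SZ × T → ℤ`, `(x, t) ↦ a₁(t x)`. -/
noncomputable def pairing : ↥(intLattice N 2) →ₗ[ℤ] ↥(heckeLatticeAlgebra N ∅) →ₗ[ℤ] ℤ :=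
  LinearMap.mk₂ ℤ (fun x t => coeffZ N 1 ((t : Module.End ℤ ↥(intLattice N 2)) x))
    (fun x y t => by simp only [map_add])
    (fun c x t => by simp only [map_smul])
    (fun x s t => by
      simp only [Subalgebra.coe_add, LinearMap.add_apply, map_add])
    (fun c x t => by
      simp only [Subalgebra.coe_smul, LinearMap.smul_apply, map_smul])

theorem pairing_apply (x : ↥(intLattice N 2)) (t : ↥(heckeLatticeAlgebra N ∅)) :
    pairing N x t = coeffZ N 1 ((t : Module.End ℤ ↥(intLattice N 2)) x) := rfl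

theorem pairing_phZ_heckePoly {n : ℕ} (hn : 0 < n) (x : ↥(intLattice N 2)) :
    pairing N x (phZ N (heckePoly N n)) = coeffZ N n x := by
  rw [pairing_apply, coeffZ_one_phZ_heckePoly N hn]

theorem pairing_mul (x : ↥(intLattice N 2)) (s t : ↥(heckeLatticeAlgebra N ∅)) :
    pairing N x (s * t) = pairing N ((t : Module.End ℤ ↥(intLattice N 2)) x) s := rfl

/-- The pairing is nondegenerate on the left. -/
theorem pairing_injective : Function.Injective (pairing N) := by
  rw [← LinearMap.ker_eq_bot, LinearMap.ker_eq_bot']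
  intro x hx
  apply eq_zero_of_coeffZ
  intro n hn
  rw [← pairing_phZ_heckePoly N hn, hx, LinearMap.zero_apply]

/-- The pairing is nondegenerate on the right. -/
theorem pairing_flip_injective : Function.Injective (pairing N).flip := by
  rw [← LinearMap.ker_eq_bot, LinearMap.ker_eq_bot']
  intro t ht
  apply Subtype.ext
  apply LinearMap.ext
  intro x
  rw [ZeroMemClass.coe_zero, LinearMap.zero_apply]
  apply eq_zero_of_coeffZ
  intro n hn
  rw [← pairing_phZ_heckePoly N hn, pairing_apply]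
  have h1 : ((phZ N (heckePoly N n) : ↥(heckeLatticeAlgebra N ∅)) :
      Module.End ℤ ↥(intLattice N 2)) ((t : Module.End ℤ ↥(intLattice N 2)) x) =
      (t : Module.End ℤ ↥(intLattice N 2))
        (((phZ N (heckePoly N n) : ↥(heckeLatticeAlgebra N ∅)) :
          Module.End ℤ ↥(intLattice N 2)) x) := by
    have := congrArg (fun u : ↥(heckeLatticeAlgebra N ∅) =>
      (u : Module.End ℤ ↥(intLattice N 2)) x) (mul_comm (phZ N (heckePoly N n)) t)
    exact this
  rw [h1, ← pairing_apply]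
  have := LinearMap.congr_fun ht
    (((phZ N (heckePoly N n) : ↥(heckeLatticeAlgebra N ∅)) :
          Module.End ℤ ↥(intLattice N 2)) x)
  exact this

/-! ### Perfectness of the pairing -/

open Module in
/-- An injective map between finite modules over a domain whose target has rank at most the rank
of the source has torsion cokernel. -/
theorem exists_smul_mem_range_of_finrank_le {R M M' : Type*} [CommRing R] [IsDomain R]
    [AddCommGroup M] [AddCommGroup M']
    [Module R M] [Module R M'] [Module.Finite R M'] [Module.Finite R M]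
    (f : M →ₗ[R] M') (hf : Function.Injective f) (h : finrank R M' ≤ finrank R M) (y : M') :
    ∃ k : R, k ≠ 0 ∧ k • y ∈ LinearMap.range f := by
  have h1 : finrank R (LinearMap.range f) = finrank R M := LinearMap.finrank_range_of_inj hf
  have h2 := Submodule.finrank_quotient_add_finrank (LinearMap.range f)
  have h3 : finrank R (M' ⧸ LinearMap.range f) = 0 := by omega
  have h4 : Module.IsTorsion R (M' ⧸ LinearMap.range f) :=
    Module.finrank_eq_zero_iff_isTorsion.1 h3
  obtain ⟨a, ha⟩ := @h4 (Submodule.Quotient.mk y)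
  refine ⟨(a : R), nonZeroDivisors.coe_ne_zero a, ?_⟩
  have h5 : Submodule.Quotient.mk (p := LinearMap.range f) ((a : R) • y) = 0 := by
    rw [Submodule.Quotient.mk_smul]
    exact ha
  exact (Submodule.Quotient.mk_eq_zero _).1 h5

open Module in
theorem finrank_heckeLatticeAlgebra_eq :
    finrank ℤ ↥(heckeLatticeAlgebra N ∅) = finrank ℤ ↥(intLattice N 2) := by
  have := intLattice.moduleFinite N
  have := intLattice.moduleFree N
  apply le_antisymm
  · have h := LinearMap.finrank_le_finrank_of_injective (pairing_flip_injective N)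
    rwa [Module.finrank_linearMap_self] at h
  · have h := LinearMap.finrank_le_finrank_of_injective (pairing_injective N)
    rwa [Module.finrank_linearMap_self] at h

/-- Saturation: if all higher coefficients of `x ∈ SZ` are divisible by `k ≠ 0`, then `x = k • y`
with `y ∈ SZ`. -/
theorem exists_eq_zsmul_of_dvd_coeffZ (x : ↥(intLattice N 2)) (k : ℤ) (hk : k ≠ 0)
    (c : ℕ → ℤ) (hc : ∀ n, 0 < n → coeffZ N n x = k * c n) :
    ∃ y : ↥(intLattice N 2), x = k • y ∧ ∀ n, 0 < n → coeffZ N n y = c n := by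
  have hkC : (k : ℂ) ≠ 0 := Int.cast_ne_zero.mpr hk
  have hmem : ((k : ℂ)⁻¹ • (x : CuspForm Γ₀(N) 2)) ∈ intLattice N 2 := by
    rw [Fermat.Agent.S49.Realize.mem_intLattice_iff]
    intro n
    rcases Nat.eq_zero_or_pos n with rfl | hn
    · refine ⟨0, ?_⟩
      rw [Fermat.Agent.S49.Realize.qCoeff_smul, ← coeffZ_spec, coeffZ_zero]
      simp
    · refine ⟨c n, ?_⟩
      rw [Fermat.Agent.S49.Realize.qCoeff_smul, ← coeffZ_spec, hc n hn]
      push_cast
      field_simp
  have hxy : x = k • (⟨_, hmem⟩ : ↥(intLattice N 2)) := by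
    apply Subtype.ext
    rw [Submodule.coe_smul]
    change (x : CuspForm Γ₀(N) 2) = k • ((k : ℂ)⁻¹ • (x : CuspForm Γ₀(N) 2))
    rw [← Int.cast_smul_eq_zsmul ℂ k, smul_smul, mul_inv_cancel₀ hkC, one_smul]
  refine ⟨⟨_, hmem⟩, hxy, fun n hn => ?_⟩
  have h1 := hc n hn
  rw [hxy, map_smul, smul_eq_mul] at h1
  exact mul_left_cancel₀ hk h1

/-- **Block A2.** The pairing `(x, t) ↦ a₁(t x)` identifies `SZ` with `Hom_ℤ(T, ℤ)`. -/
theorem pairing_bijective : Function.Bijective (pairing N) := by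
  have := intLattice.moduleFinite N
  have := intLattice.moduleFree N
  refine ⟨pairing_injective N, fun lam => ?_⟩
  have key : ∃ k : ℤ, k ≠ 0 ∧ ∃ x, pairing N x = k • lam := by
    obtain ⟨k, hk, x, hx⟩ := exists_smul_mem_range_of_finrank_le (pairing N) (pairing_injective N)
      (by rw [Module.finrank_linearMap_self, finrank_heckeLatticeAlgebra_eq]) lam
    exact ⟨k, hk, x, hx⟩
  obtain ⟨k, hk, x, hx⟩ := key
  have hcoef : ∀ n, 0 < n → coeffZ N n x = k * lam (phZ N (heckePoly N n)) := by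
    intro n hn
    have h2 : pairing N x (phZ N (heckePoly N n)) = (k • lam) (phZ N (heckePoly N n)) :=
      LinearMap.congr_fun hx (phZ N (heckePoly N n))
    exact (pairing_phZ_heckePoly N hn x).symm.trans h2
  obtain ⟨y, hxy, -⟩ := exists_eq_zsmul_of_dvd_coeffZ N x k hk
    (fun n => lam (phZ N (heckePoly N n))) hcoef
  refine ⟨y, ?_⟩
  apply LinearMap.ext
  intro t
  have h0 : pairing N x = k • pairing N y :=
    (congrArg (pairing N) hxy).trans (map_zsmul (pairing N) k y)
  have h1 : k * pairing N y t = k * lam t := by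
    have h2 : (k • pairing N y) t = (k • lam) t := LinearMap.congr_fun (h0.symm.trans hx) t
    exact h2
  exact mul_left_cancel₀ hk h1

/-- The duality isomorphism `SZ ≃ Hom_ℤ(T, ℤ)`. -/
noncomputable def pairingEquiv :
    ↥(intLattice N 2) ≃ₗ[ℤ] (↥(heckeLatticeAlgebra N ∅) →ₗ[ℤ] ℤ) :=
  LinearEquiv.ofBijective (pairing N) (pairing_bijective N)

theorem pairingEquiv_apply (x : ↥(intLattice N 2)) (t : ↥(heckeLatticeAlgebra N ∅)) :
    pairingEquiv N x t = coeffZ N 1 ((t : Module.End ℤ ↥(intLattice N 2)) x) := rfl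

theorem coeffZ_pairingEquiv_symm {n : ℕ} (hn : 0 < n)
    (lam : ↥(heckeLatticeAlgebra N ∅) →ₗ[ℤ] ℤ) :
    coeffZ N n ((pairingEquiv N).symm lam) = lam (phZ N (heckePoly N n)) := by
  rw [← pairing_phZ_heckePoly N hn]
  exact LinearMap.congr_fun ((pairingEquiv N).apply_symm_apply lam) _

/-! ### Corollaries -/

/-- **Corollary of block A2.**  A ring homomorphism `ψ : T → ℤ/m` with `ψ ∘ ph = ev mod m`
(i.e. `T_ℓ ↦ 1 + ℓ` for `ℓ ∤ N`, `U_ℓ ↦ 1` for `ℓ ∣ N`) comes from a cusp form `f ∈ SZ` with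
`a_n(f) ≡ σ'_N(n) mod m` for all `n ≥ 1`. -/
theorem exists_form_of_ringHom (m : ℕ) (ψ : ↥(heckeLatticeAlgebra N ∅) →+* ZMod m)
    (hψ : ∀ P : HeckeAlg, ψ (phZ N P) =
      ((MvPolynomial.aeval (R := ℤ) (eisensteinSystem N) P : ℤ) : ZMod m)) :
    ∃ f : ↥(intLattice N 2), ∀ n, 0 < n →
      ((coeffZ N n f : ℤ) : ZMod m) = (sigmaCop N n : ZMod m) := by
  obtain ⟨lam, hlam⟩ := Module.projective_lifting_property
    ((Int.castAddHom (ZMod m)).toIntLinearMap) (ψ.toAddMonoidHom.toIntLinearMap)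
    (ZMod.intCast_surjective)
  refine ⟨(pairingEquiv N).symm lam, fun n hn => ?_⟩
  rw [coeffZ_pairingEquiv_symm N hn]
  have h1 := LinearMap.congr_fun hlam (phZ N (heckePoly N n))
  have h2 : ((lam (phZ N (heckePoly N n)) : ℤ) : ZMod m) = ψ (phZ N (heckePoly N n)) := h1
  rw [h2, hψ, aeval_heckePoly N hn]
  push_cast
  rfl

/-- If there is a nonzero integral cusp form, there is one with `a₁ = 1`. -/
theorem exists_coeffZ_one_eq_one (h : ∃ x : ↥(intLattice N 2), x ≠ 0) :
    ∃ f : ↥(intLattice N 2), coeffZ N 1 f = 1 := by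
  obtain ⟨d, hd⟩ : ∃ d : ℤ, LinearMap.range (coeffZ N 1) = Ideal.span {d} :=
    (IsPrincipalIdealRing.principal (LinearMap.range (coeffZ N 1) : Ideal ℤ)).principal
  have hmem : ∀ x : ↥(intLattice N 2), ∀ n, 0 < n → ∃ c : ℤ, coeffZ N n x = d * c := by
    intro x n hn
    have h1 : coeffZ N n x ∈ LinearMap.range (coeffZ N 1) := by
      rw [← coeffZ_one_phZ_heckePoly N hn]
      exact LinearMap.mem_range_self _ _
    rw [hd, Ideal.mem_span_singleton'] at h1
    obtain ⟨c, hc⟩ := h1
    exact ⟨c, by rw [← hc, mul_comm]⟩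
  have hd0 : d ≠ 0 := by
    rintro rfl
    obtain ⟨x, hx⟩ := h
    apply hx
    apply eq_zero_of_coeffZ
    intro n hn
    obtain ⟨c, hc⟩ := hmem x n hn
    rw [hc, zero_mul]
  obtain ⟨g, hg⟩ : d ∈ LinearMap.range (coeffZ N 1) := by
    rw [hd]
    exact Ideal.mem_span_singleton_self d
  choose c hc using hmem g
  obtain ⟨y, -, hy⟩ := exists_eq_zsmul_of_dvd_coeffZ N g d hd0
    (fun n => if hn : 0 < n then c n hn else 0) (fun n hn => by rw [dif_pos hn, hc n hn])
  refine ⟨y, ?_⟩
  rw [hy 1 one_pos, dif_pos one_pos]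
  have h1 := hc 1 one_pos
  rw [hg] at h1
  exact (mul_left_cancel₀ hd0 (h1.symm.trans (mul_one d).symm)).symm ▸ rfl

end Fermat.Agent.S16
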