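import Fermat.Agent.S16.Defs
import Fermat.Agent.S16.Duality

/-!
# S16, block A2: the corollary `DualityCor p` in the shape of `S16/Defs.lean`
-/

set_option autoImplicit false

open CuspForm ModularFormClass ModularCurve

namespace Fermat.Agent.S16

/-- For a prime `p`, `sigmaP p = sigmaCop p`. -/
theorem sigmaP_eq_sigmaCop {p : ℕ} (hp : p.Prime) (k : ℕ) : sigmaP p k = sigmaCop p k := by
  unfold sigmaP sigmaCop
  congr 1
  ext d
  simp only [Finset.mem_filter, and_congr_right_iff]
  intro _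
  rw [Nat.coprime_comm, Nat.Prime.coprime_iff_not_dvd hp]

/-- **Block A2, corollary.** -/
theorem dualityCor (p : ℕ) [Fact p.Prime] : DualityCor p := by
  intro m ψ hψ
  obtain ⟨f, hf⟩ := exists_form_of_ringHom p m ψ hψ
  refine ⟨(f : CuspForm (CongruenceSubgroup.Gamma0 p) 2), f.2, fun k hk => ?_⟩
  refine ⟨coeffZ p k f, (coeffZ_spec p f k).symm, ?_⟩
  rw [hf k hk, sigmaP_eq_sigmaCop Fact.out]

end Fermat.Agent.S16
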