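import Fermat.Agent.S16.CohU
import Fermat.Agent.Gateway.Hecke.CohPeriod

/-!
# P-S16 block L0: the period map intertwines `U_q` on weight two cusp forms of level `N`, `q ∣ N`
prime, with the cohomological Hecke operator `heckeHomU` on `Hom(Γ₀(N), ℂ)`.

This is the `U_q`-twin of `Gateway/Hecke/CohPeriod.lean` (which treats `T_l`, `l ∤ N`).
-/

set_option autoImplicit false
set_option linter.unusedSectionVars false

open Complex Filter Function Topology CongruenceSubgroup ModularForm
open UpperHalfPlane hiding I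
open Matrix.SpecialLinearGroup
open scoped Manifold Real MatrixGroups OnePoint
open P2MW.S_ModularForm_heckeT_slash_eq_self_of_mem_Gamma0.ModularForm.HeckeSlashInvariance
open ModularCurve ModularCurve.Period
open Fermat.Agent.S21
open Fermat.Agent.Gateway.HeckeCohPeriod

namespace Fermat.Agent.S16.CohU

variable (N q : ℕ) [NeZero N] [Fact q.Prime] (hqN : q ∣ N)

/-- A family of elements of `Γ₀(N)` realising the permutation of the `U_q`-representatives
induced by `γ`. -/
def IsCocFamilyU (γ : Gamma0 N) (c : ZMod q → Gamma0 N) : Prop :=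
  ∀ x : ZMod q,
    heckeMatrix q x.val * mapGL ℝ (γ : SL(2, ℤ))
      = mapGL ℝ ((c x : Gamma0 N) : SL(2, ℤ)) * heckeMatrix q (permU N q hqN γ x).val

theorem isCocFamilyU_cocU (γ : Gamma0 N) :
    IsCocFamilyU N q hqN γ (fun x => cocU N q hqN x γ) :=
  fun x => cocU_spec N q hqN x γ

/-! ### The primitive of `U_q f` -/

/-- The candidate primitive of `U_q f`: the sum of the translates of a primitive of `f`. -/
noncomputable def heckePrimitiveU (F : ℍ → ℂ) : ℍ → ℂ :=
  fun w => ∑ x : ZMod q, F (heckeMatrix q x.val • w)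

theorem isPrimitiveOf_heckePrimitiveU {f F : ℍ → ℂ} (hF : IsPrimitiveOf f F) :
    IsPrimitiveOf (heckeU 2 q f) (heckePrimitiveU q F) := by
  intro τ
  have h1 : (heckePrimitiveU q F ∘ ofComplex)
      = fun z : ℂ => ∑ x : ZMod q, ((fun w : ℍ => F (heckeMatrix q x.val • w)) ∘ ofComplex) z := by
    funext z
    simp only [heckePrimitiveU, Function.comp_apply]
  have hdet : ∀ x : ZMod q, 0 < (heckeMatrix q x.val : GL (Fin 2) ℝ).val.det := fun x => by
    have := det_heckeRep_pos q (x : OnePoint (ZMod q))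
    rwa [heckeRep_coe] at this
  have h2 : heckeU 2 q f τ
      = ∑ x : ZMod q, f (heckeMatrix q x.val • τ) *
          (((heckeMatrix q x.val : GL (Fin 2) ℝ).val.det : ℂ) /
            denom (heckeMatrix q x.val) τ ^ 2) := by
    rw [heckeU_eq_sum_zmod, Finset.sum_apply]
    exact Finset.sum_congr rfl fun x _ =>
      slash_two_apply_of_det_pos f (hdet x) τ
  rw [h1, h2]
  exact HasDerivAt.fun_sum fun x _ => (hF.comp_smul (hdet x)) τ

theorem tendsto_heckePrimitiveU {F : ℍ → ℂ} (hF : Tendsto F atImInfty (𝓝 0)) :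
    Tendsto (heckePrimitiveU q F) atImInfty (𝓝 0) := by
  have hq0 : q ≠ 0 := (Fact.out : q.Prime).ne_zero
  have h : Tendsto (heckePrimitiveU q F) atImInfty (𝓝 (∑ _x : ZMod q, (0 : ℂ))) :=
    tendsto_finsetSum _ fun x _ => by
      have := tendsto_heckeRep_smul q hq0 (x : OnePoint (ZMod q))
      rw [heckeRep_coe] at this
      exact hF.comp this
  simpa using h

/-- Equivariance of the `U_q`-primitive, with the explicit period. -/
theorem heckePrimitiveU_smul_sub {F : ℍ → ℂ} (hF : IsEquivariantPrimitive (Gamma0 N) F)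
    {γ : Gamma0 N} {c : ZMod q → Gamma0 N} (hc : IsCocFamilyU N q hqN γ c) (z : ℍ) :
    heckePrimitiveU q F ((γ : SL(2, ℤ)) • z) - heckePrimitiveU q F z
      = ∑ x : ZMod q, hF.period (c x) := by
  have h1 : ∀ x : ZMod q,
      F (heckeMatrix q x.val • ((γ : SL(2, ℤ)) • z))
        = F (heckeMatrix q (permU N q hqN γ x).val • z) + hF.period (c x) := by
    intro x
    have h2 : heckeMatrix q x.val • ((γ : SL(2, ℤ)) • z)
        = ((c x : Gamma0 N) : SL(2, ℤ)) • (heckeMatrix q (permU N q hqN γ x).val • z) := by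
      rw [ModularGroup.sl_moeb, ModularGroup.sl_moeb, ← mul_smul, ← mul_smul]
      exact congrArg (· • z) (hc x)
    rw [h2]
    have h3 := hF.sub_eq_period (c x) (heckeMatrix q (permU N q hqN γ x).val • z)
    linear_combination h3
  have h4 : ∑ x : ZMod q, F (heckeMatrix q (permU N q hqN γ x).val • z)
      = ∑ x : ZMod q, F (heckeMatrix q x.val • z) :=
    Equiv.sum_comp (permU N q hqN γ) (fun x => F (heckeMatrix q x.val • z))
  simp only [heckePrimitiveU]
  rw [Finset.sum_congr rfl fun x _ => h1 x, Finset.sum_add_distrib, h4]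
  ring

include hqN in
theorem isEquivariantPrimitive_heckePrimitiveU {F : ℍ → ℂ}
    (hF : IsEquivariantPrimitive (Gamma0 N) F) :
    IsEquivariantPrimitive (Gamma0 N) (heckePrimitiveU q F) := by
  intro γ
  exact ⟨_, fun z => heckePrimitiveU_smul_sub N q hqN hF (isCocFamilyU_cocU N q hqN γ) z⟩

theorem tendsto_heckePrimitiveU_cusp {F : ℍ → ℂ}
    (hF : ∀ δ : SL(2, ℤ), ∃ L : ℂ, Tendsto (fun w : ℍ => F (δ • w)) atImInfty (𝓝 L))
    (δ : SL(2, ℤ)) :
    ∃ L : ℂ, Tendsto (fun w : ℍ => heckePrimitiveU q F (δ • w)) atImInfty (𝓝 L) := by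
  have hq0 : q ≠ 0 := (Fact.out : q.Prime).ne_zero
  have hq1 : ¬ q ∣ 1 := fun h => (Fact.out : q.Prime).one_lt.ne' (Nat.dvd_one.mp h)
  have h : ∀ x : ZMod q, ∃ L : ℂ,
      Tendsto (fun w : ℍ => F (heckeMatrix q x.val • (δ • w))) atImInfty (𝓝 L) := by
    intro x
    obtain ⟨g', -, hmul⟩ := heckeRep_mul (N := 1) hq1 δ (by simp) (x : OnePoint (ZMod q))
    obtain ⟨L, hL⟩ := hF g'
    refine ⟨L, ?_⟩
    have h2 : ∀ w : ℍ, heckeMatrix q x.val • (δ • w)
        = g' • (heckeRep q (redMatrix q δ • (x : OnePoint (ZMod q))) • w) := by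
      intro w
      rw [ModularGroup.sl_moeb, ModularGroup.sl_moeb, ← mul_smul, ← mul_smul]
      rw [heckeRep_coe] at hmul
      exact congrArg (· • w) hmul
    simp_rw [h2]
    exact hL.comp (tendsto_heckeRep_smul q hq0 _)
  choose L hL using h
  exact ⟨∑ x : ZMod q, L x, tendsto_finsetSum _ fun x _ => hL x⟩

/-- The sum of the `U_q`-translates of an equivariant primitive of `f` is an equivariant
primitive of `U_q f`. -/
theorem hasEquivariantPrimitive_heckeULin
    {f : CuspForm (Gamma0 N) 2} {F : ℍ → ℂ} (hF : HasEquivariantPrimitive N f F) :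
    HasEquivariantPrimitive N (CuspForm.heckeULin 2 hqN f) (heckePrimitiveU q F) := by
  refine ⟨?_, tendsto_heckePrimitiveU q hF.2.1,
    isEquivariantPrimitive_heckePrimitiveU N q hqN hF.2.2.1,
    tendsto_heckePrimitiveU_cusp q hF.2.2.2⟩
  have h : IsPrimitiveOf (heckeU 2 q ⇑f) (heckePrimitiveU q F) :=
    isPrimitiveOf_heckePrimitiveU q (f := ⇑f) hF.1
  exact h

/-- **Pointwise form.** The period of `U_q f` along `γ` is the sum of the periods of `f`
along any `U_q`-cocycle family for `γ`. -/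
theorem periodMap_heckeULin_apply (f : CuspForm (Gamma0 N) 2)
    {γ : Gamma0 N} {c : ZMod q → Gamma0 N} (hc : IsCocFamilyU N q hqN γ c) :
    periodMap N (CuspForm.heckeULin 2 hqN f) (Additive.ofMul γ)
      = ∑ x : ZMod q, periodMap N f (Additive.ofMul (c x)) := by
  obtain ⟨F, hF⟩ := exists_hasEquivariantPrimitive N f
  have hT := hasEquivariantPrimitive_heckeULin N q hqN hF
  rw [periodMap_apply_aux N hT γ UpperHalfPlane.I,
    heckePrimitiveU_smul_sub N q hqN hF.2.2.1 hc UpperHalfPlane.I]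
  refine Finset.sum_congr rfl fun x _ => ?_
  rw [periodMap_apply_aux N hF (c x) UpperHalfPlane.I]
  exact (hF.2.2.1.sub_eq_period (c x) UpperHalfPlane.I).symm

/-- **HK4P for `U_q`.** The period map intertwines `U_q` on weight two cusp forms with the
cohomological Hecke operator `heckeHomU`. -/
theorem periodMap_heckeULin (f : CuspForm (Gamma0 N) 2) :
    periodMap N (CuspForm.heckeULin 2 hqN f) = heckeHomU N q hqN ℂ (periodMap N f) := by
  refine AddMonoidHom.ext fun γ => ?_
  have h := periodMap_heckeULin_apply N q hqN f (isCocFamilyU_cocU N q hqN (Additive.toMul γ))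
  rw [ofMul_toMul] at h
  rw [h, ← heckeHomU_apply, ofMul_toMul]

/-! ### Compatibility with the involution `γ ↦ J γ J`, `J = diag(1,-1)` -/

theorem permU_jConjGamma0_neg (γ : Gamma0 N) (x : ZMod q) :
    permU N q hqN (jConjGamma0 N γ) (-x) = -permU N q hqN γ x := by
  rw [permU_apply, permU_apply, jConjGamma0_coe]
  simp [jConjSL_coe, jConjMat]
  ring

/-- The basic relation between `U_q`-cocycle families for `γ` and for `J γ J`. -/
theorem jConj_cocFamilyU {γ : Gamma0 N} {c c' : ZMod q → Gamma0 N}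
    {t : OnePoint (ZMod q) → Gamma0 N}
    (hc : IsCocFamilyU N q hqN γ c) (hc' : IsCocFamilyU N q hqN (jConjGamma0 N γ) c')
    (ht : ∀ x, Jr * heckeRep q x * Jr
      = mapGL ℝ ((t x : Gamma0 N) : SL(2, ℤ)) * heckeRep q (negOP q x))
    (x : ZMod q) :
    t (x : OnePoint (ZMod q)) * c' (-x)
      = jConjGamma0 N (c x) * t ((permU N q hqN γ x : ZMod q) : OnePoint (ZMod q)) := by
  have h1 := congrArg (fun A : GL (Fin 2) ℝ => Jr * A * Jr) (hc x)
  simp only [Jr_conj_mul] at h1
  have ht1 := ht (x : OnePoint (ZMod q))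
  have ht2 := ht ((permU N q hqN γ x : ZMod q) : OnePoint (ZMod q))
  rw [negOP_coe, heckeRep_coe, heckeRep_coe] at ht1 ht2
  rw [ht1, ht2, Jr_mul_mapGL_mul_Jr, Jr_mul_mapGL_mul_Jr] at h1
  have h2 := hc' (-x)
  rw [jConjGamma0_coe] at h2
  rw [permU_jConjGamma0_neg] at h2
  rw [mul_assoc, h2, ← mul_assoc, ← mul_assoc] at h1
  have h3 := mul_right_cancel h1
  rw [← map_mul, ← map_mul] at h3
  have h4 := Matrix.SpecialLinearGroup.mapGL_injective h3
  apply Subtype.ext
  rw [Subgroup.coe_mul, Subgroup.coe_mul, jConjGamma0_coe]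
  exact h4

/-- **Compatibility with the involution.** For a homomorphism `ψ` into an abelian group, the
sum over a `U_q`-cocycle family for `γ` of `ψ ∘ (J · J)` equals the sum of `ψ` over a cocycle family
for `J γ J`. -/
theorem sum_jConj_cocFamilyU {A : Type*} [AddCommGroup A] (ψ : Additive (Gamma0 N) →+ A)
    {γ : Gamma0 N} {c c' : ZMod q → Gamma0 N}
    (hc : IsCocFamilyU N q hqN γ c) (hc' : IsCocFamilyU N q hqN (jConjGamma0 N γ) c') :
    ∑ x : ZMod q, ψ (Additive.ofMul (jConjGamma0 N (c x)))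
      = ∑ x : ZMod q, ψ (Additive.ofMul (c' x)) := by
  choose t ht using Jr_mul_heckeRep_mul_Jr N q
  have h1 : ∀ x : ZMod q,
      ψ (Additive.ofMul (jConjGamma0 N (c x)))
        = ψ (Additive.ofMul (t (x : OnePoint (ZMod q)))) + ψ (Additive.ofMul (c' (-x)))
          - ψ (Additive.ofMul (t ((permU N q hqN γ x : ZMod q) : OnePoint (ZMod q)))) := by
    intro x
    have h2 := congrArg (fun g : Gamma0 N => ψ (Additive.ofMul g))
      (jConj_cocFamilyU N q hqN hc hc' ht x)
    simp only [ofMul_mul, map_add] at h2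
    rw [h2]
    abel
  have h3 : ∑ x : ZMod q, ψ (Additive.ofMul (t ((permU N q hqN γ x : ZMod q) : OnePoint (ZMod q))))
      = ∑ x : ZMod q, ψ (Additive.ofMul (t (x : OnePoint (ZMod q)))) :=
    Equiv.sum_comp (permU N q hqN γ) (fun x => ψ (Additive.ofMul (t (x : OnePoint (ZMod q)))))
  have h4 : ∑ x : ZMod q, ψ (Additive.ofMul (c' (-x)))
      = ∑ x : ZMod q, ψ (Additive.ofMul (c' x)) :=
    Equiv.sum_comp (Equiv.neg (ZMod q)) (fun x => ψ (Additive.ofMul (c' x)))
  rw [Finset.sum_congr rfl fun x _ => h1 x, Finset.sum_sub_distrib, Finset.sum_add_distrib, h3, h4]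
  abel

/-- `heckeHomU` commutes with the involution `ψ ↦ ψ ∘ (J · J)`. -/
theorem heckeHomU_charInvolution (R : Type*) [Semiring R] (A : Type*) [AddCommGroup A] [Module R A]
    (ψ : Additive (Gamma0 N) →+ A) :
    heckeHomU N q hqN A (charInvolution N R A ψ)
      = charInvolution N R A (heckeHomU N q hqN A ψ) := by
  refine AddMonoidHom.ext fun γ => ?_
  have h := sum_jConj_cocFamilyU N q hqN ψ (isCocFamilyU_cocU N q hqN (Additive.toMul γ))
    (isCocFamilyU_cocU N q hqN (jConjGamma0 N (Additive.toMul γ)))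
  rw [charInvolution_apply, heckeHomU_apply, ← h, ← ofMul_toMul γ, heckeHomU_apply]
  rfl

/-- **HK4P for `U_q`, pair form.** `periodHomPair` intertwines `(U_q, U_q)` with `heckeHomU`. -/
theorem periodHomPair_heckeULin (f g : CuspForm (Gamma0 N) 2) :
    periodHomPair N (CuspForm.heckeULin 2 hqN f, CuspForm.heckeULin 2 hqN g)
      = heckeHomU N q hqN ℂ (periodHomPair N (f, g)) := by
  have hlin := existsPeriodMapLinear N
  rw [Glue.periodHomPair_apply N hlin, Glue.periodHomPair_apply N hlin,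
    periodMap_heckeULin N q hqN f, periodMap_heckeULin N q hqN g,
    map_add, map_add, map_sub, heckeHomU_charInvolution N q hqN ℂ ℂ,
    heckeHomU_charInvolution N q hqN ℂ ℂ]

end Fermat.Agent.S16.CohU
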