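import Mathlib
import Fermat.Prelude.Thm_ModularForm_heckeT_slash_eq_self_of_mem_Gamma0
import Fermat.Agent.Gateway.A2.Defs
import Fermat.Agent.Gateway.Hecke.CohPE

/-!
# P-S16 block L0: the Hecke operator `U_q` on `Hom(Γ₀(N), A)` for `q ∣ N`

For `q ∣ N`, the coset representatives `heckeMatrix q x = [[1, x], [0, q]]`, `x ∈ ℤ/q`, of
`Γ₀(N) \ Γ₀(N) diag(1, q) Γ₀(N)` satisfy
`heckeMatrix q x * γ = cocU x γ * heckeMatrix q (permU γ x)` with `cocU x γ ∈ Γ₀(N)`
(`permU γ` the affine permutation `x ↦ d (b + d x)` of `ℤ/q`).  The Hecke operator on additive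
characters is `(heckeHomU φ) γ = ∑ x, φ (cocU x γ)`.  It preserves the characters killing all
parabolic and elliptic elements (`homPE`).

This is the `U_q`-twin of `Gateway/Hecke/Coh.lean` + `Gateway/Hecke/CohPE.lean` (which treat `T_l`,
`l ∤ N`).
-/

set_option autoImplicit false
set_option linter.unusedSectionVars false

namespace Fermat.Agent.S16.CohU

open P2MW.S_ModularForm_heckeT_slash_eq_self_of_mem_Gamma0.ModularForm.HeckeSlashInvariance
open CongruenceSubgroup Matrix.SpecialLinearGroup ModularForm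
open scoped MatrixGroups
open Fermat.Agent.Gateway.A2 Fermat.Agent.Gateway.HeckeCoh

variable (N q : ℕ) (hqN : q ∣ N)

include hqN in
theorem natCast_dvd_apply_one_zero (gam : Gamma0 N) : (q : ℤ) ∣ (gam : SL(2, ℤ)) 1 0 :=
  (Int.natCast_dvd_natCast.mpr hqN).trans
    ((ZMod.intCast_zmod_eq_zero_iff_dvd _ _).mp (Gamma0_mem.mp gam.2))

include hqN in
theorem cast_apply_one_zero (gam : Gamma0 N) : ((((gam : SL(2, ℤ)) 1 0 : ℤ)) : ZMod q) = 0 :=
  (ZMod.intCast_zmod_eq_zero_iff_dvd _ _).mpr (natCast_dvd_apply_one_zero N q hqN gam)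

/-- The affine permutation `x ↦ d (b + d x)` of `ℤ/q` induced by `γ = [[a, b], [c, d]] ∈ Γ₀(N)`,
`q ∣ N`. -/
def permU (gam : Gamma0 N) : Equiv.Perm (ZMod q) :=
  affinePerm (gam : SL(2, ℤ)) (cast_apply_one_zero N q hqN gam)

theorem permU_apply (gam : Gamma0 N) (x : ZMod q) :
    permU N q hqN gam x =
      ((((gam : SL(2, ℤ)) 1 1 : ℤ)) : ZMod q) *
        (((((gam : SL(2, ℤ)) 0 1 : ℤ)) : ZMod q) + ((((gam : SL(2, ℤ)) 1 1 : ℤ)) : ZMod q) * x) :=
  rfl

theorem permU_one : permU N q hqN 1 = 1 := by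
  ext x
  rw [permU_apply]
  simp

/-- `permU` is an anti-homomorphism. -/
theorem permU_mul (gam del : Gamma0 N) :
    permU N q hqN (gam * del) = permU N q hqN del * permU N q hqN gam := by
  ext x
  rw [Equiv.Perm.mul_apply, permU_apply, permU_apply, permU_apply]
  have hc := cast_apply_one_zero N q hqN gam
  have hu := unit_of_apply_one_zero_eq_zero (gam : SL(2, ℤ)) hc
  simp only [Subgroup.coe_mul, Matrix.SpecialLinearGroup.coe_mul, Matrix.mul_apply,
    Fin.sum_univ_two, Int.cast_add, Int.cast_mul]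
  set a := ((((gam : SL(2, ℤ)) 0 0 : ℤ)) : ZMod q)
  set b := ((((gam : SL(2, ℤ)) 0 1 : ℤ)) : ZMod q)
  set c := ((((gam : SL(2, ℤ)) 1 0 : ℤ)) : ZMod q)
  set d := ((((gam : SL(2, ℤ)) 1 1 : ℤ)) : ZMod q)
  set b' := ((((del : SL(2, ℤ)) 0 1 : ℤ)) : ZMod q)
  set d' := ((((del : SL(2, ℤ)) 1 1 : ℤ)) : ZMod q)
  linear_combination (d' * b') * hu
    + (b' * (a * b' + b * d' + (c * b' + d * d') * x) + d * d' * b' * x) * hc

theorem permU_pow (gam : Gamma0 N) (k : ℕ) :
    permU N q hqN (gam ^ k) = permU N q hqN gam ^ k := by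
  induction k with
  | zero => rw [pow_zero, pow_zero, permU_one]
  | succ k ih => rw [pow_succ', permU_mul, ih, pow_succ]

variable [NeZero N] [NeZero q]

theorem exists_cocU (x : ZMod q) (gam : Gamma0 N) :
    ∃ g' : Gamma0 N, heckeMatrix q x.val * mapGL ℝ (gam : SL(2, ℤ)) =
      mapGL ℝ (g' : SL(2, ℤ)) * heckeMatrix q (permU N q hqN gam x).val := by
  obtain ⟨g', hg', h⟩ :=
    heckeMatrix_mul_of_dvd (gam : SL(2, ℤ)) (natCast_dvd_apply_one_zero N q hqN gam) x
  refine ⟨⟨g', ?_⟩, h⟩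
  rw [Gamma0_mem, hg']
  push_cast
  rw [Gamma0_mem.mp gam.2, mul_zero]

/-- The cocycle `cocU x γ ∈ Γ₀(N)` with
`heckeMatrix q x * γ = cocU x γ * heckeMatrix q (permU γ x)`. -/
noncomputable def cocU (x : ZMod q) (gam : Gamma0 N) : Gamma0 N :=
  (exists_cocU N q hqN x gam).choose

theorem cocU_spec (x : ZMod q) (gam : Gamma0 N) :
    heckeMatrix q x.val * mapGL ℝ (gam : SL(2, ℤ)) =
      mapGL ℝ (cocU N q hqN x gam : SL(2, ℤ)) * heckeMatrix q (permU N q hqN gam x).val :=
  (exists_cocU N q hqN x gam).choose_spec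

/-- Uniqueness of the cocycle. -/
theorem cocU_unique {x : ZMod q} {gam g' : Gamma0 N}
    (h : heckeMatrix q x.val * mapGL ℝ (gam : SL(2, ℤ)) =
      mapGL ℝ (g' : SL(2, ℤ)) * heckeMatrix q (permU N q hqN gam x).val) :
    cocU N q hqN x gam = g' := by
  have h1 := cocU_spec N q hqN x gam
  rw [h] at h1
  have h2 := mul_right_cancel h1
  exact Subtype.ext (mapGL_injective (R := ℤ) (S := ℝ) h2).symm

theorem cocU_mul (x : ZMod q) (gam del : Gamma0 N) :
    cocU N q hqN x (gam * del) =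
      cocU N q hqN x gam * cocU N q hqN (permU N q hqN gam x) del := by
  apply cocU_unique
  rw [Subgroup.coe_mul, map_mul, ← mul_assoc, cocU_spec N q hqN x gam, mul_assoc,
    cocU_spec N q hqN _ del, ← mul_assoc, Subgroup.coe_mul, map_mul, permU_mul,
    Equiv.Perm.mul_apply]

theorem cocU_one (x : ZMod q) : cocU N q hqN x 1 = 1 := by
  apply cocU_unique
  simp [permU_one]

/-- The Hecke operator `U_q` on additive characters of `Γ₀(N)`, `q ∣ N`:
`(heckeHomU φ) γ = ∑ x : ℤ/q, φ (cocU x γ)`. -/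
noncomputable def heckeHomU (A : Type*) [AddCommGroup A] :
    (Additive (Gamma0 N) →+ A) →+ (Additive (Gamma0 N) →+ A) where
  toFun φ :=
    { toFun := fun gam => ∑ x : ZMod q, φ (Additive.ofMul (cocU N q hqN x gam.toMul))
      map_zero' := by
        show ∑ x : ZMod q, φ (Additive.ofMul (cocU N q hqN x 1)) = 0
        simp [cocU_one]
      map_add' := by
        intro a b
        show ∑ x : ZMod q, φ (Additive.ofMul (cocU N q hqN x (a.toMul * b.toMul))) = _
        simp_rw [cocU_mul, ofMul_mul, map_add, Finset.sum_add_distrib]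
        congr 1
        exact Equiv.sum_comp (permU N q hqN a.toMul)
          (fun y => φ (Additive.ofMul (cocU N q hqN y b.toMul))) }
  map_zero' := by
    ext gam
    simp
  map_add' := by
    intro φ ψ
    ext gam
    simp [Finset.sum_add_distrib]

theorem heckeHomU_apply (A : Type*) [AddCommGroup A] (φ : Additive (Gamma0 N) →+ A)
    (gam : Gamma0 N) :
    heckeHomU N q hqN A φ (Additive.ofMul gam) =
      ∑ x : ZMod q, φ (Additive.ofMul (cocU N q hqN x gam)) := rfl

/-- Naturality of `heckeHomU` in the coefficient group. -/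
theorem heckeHomU_comp {A B : Type*} [AddCommGroup A] [AddCommGroup B] (f : A →+ B)
    (φ : Additive (Gamma0 N) →+ A) :
    heckeHomU N q hqN B (f.comp φ) = f.comp (heckeHomU N q hqN A φ) := by
  ext gam
  show ∑ x : ZMod q, f (φ (Additive.ofMul (cocU N q hqN x gam))) =
    f (∑ x : ZMod q, φ (Additive.ofMul (cocU N q hqN x gam)))
  rw [map_sum]

/-! ### `U_q` preserves `homPE` -/

/-- The value of an additive character on `cocU x (γ ^ k)` is the sum of its values on the
`cocU` along the orbit of `x`. -/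
theorem map_cocU_pow {A : Type*} [AddCommGroup A] (φ : Additive (Gamma0 N) →+ A)
    (x : ZMod q) (gam : Gamma0 N) (k : ℕ) :
    φ (Additive.ofMul (cocU N q hqN x (gam ^ k))) =
      ∑ i ∈ Finset.range k,
        φ (Additive.ofMul (cocU N q hqN ((permU N q hqN gam ^ i) x) gam)) := by
  induction k with
  | zero => simp [cocU_one]
  | succ k ih =>
    rw [pow_succ, cocU_mul, ofMul_mul, map_add, ih, Finset.sum_range_succ, permU_pow]

theorem heckeHomU_mem_homPE {R : Type*} [Semiring R] {A : Type*} [AddCommGroup A] [Module R A]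
    {φ : Additive (Gamma0 N) →+ A}
    (hφ : φ ∈ homPE R (Gamma0 N) A) : heckeHomU N q hqN A φ ∈ homPE R (Gamma0 N) A := by
  intro gam hgam
  rw [heckeHomU_apply]
  refine sum_eq_zero_of_orbit_sums (permU N q hqN gam)
    (fun x => φ (Additive.ofMul (cocU N q hqN x gam))) fun x => ?_
  set k := Function.minimalPeriod (permU N q hqN gam • ·) x with hk
  have h0 : ∀ i : ℕ, (permU N q hqN gam ^ i) • x = (permU N q hqN gam ^ i) x := fun i => rfl
  simp_rw [h0]
  rw [← map_cocU_pow]
  apply hφ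
  have hper : (permU N q hqN gam ^ k) x = x := by
    have h := Function.isPeriodicPt_minimalPeriod (permU N q hqN gam • ·) x
    have h2 : (permU N q hqN gam • ·)^[k] x = x := h
    rwa [smul_iterate] at h2
  have hspec := cocU_spec N q hqN x (gam ^ k)
  rw [permU_pow, hper, Subgroup.coe_pow] at hspec
  exact isPE_of_conj hspec (isPE_pow hgam k)

theorem heckeHomU_smul {R : Type*} [Semiring R] {A : Type*} [AddCommGroup A] [Module R A]
    (c : R) (φ : Additive (Gamma0 N) →+ A) :
    heckeHomU N q hqN A (c • φ) = c • heckeHomU N q hqN A φ := by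
  refine AddMonoidHom.ext fun gam => ?_
  obtain ⟨gam, rfl⟩ := Additive.ofMul.surjective gam
  rw [AddMonoidHom.smul_apply, heckeHomU_apply, heckeHomU_apply, Finset.smul_sum]
  rfl

/-- The Hecke operator `U_q` on `homPE R Γ₀(N) B`, as an `R`-linear map. -/
noncomputable def heckeCohUR (R : Type*) [Semiring R] (B : Type*) [AddCommGroup B] [Module R B] :
    homPE R (Gamma0 N) B →ₗ[R] homPE R (Gamma0 N) B where
  toFun φ := ⟨heckeHomU N q hqN B φ.1, heckeHomU_mem_homPE N q hqN φ.2⟩
  map_add' φ ψ := by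
    apply Subtype.ext
    simp
  map_smul' c φ := by
    apply Subtype.ext
    simp [heckeHomU_smul]

theorem heckeCohUR_coe (R : Type*) [Semiring R] (B : Type*) [AddCommGroup B] [Module R B]
    (φ : homPE R (Gamma0 N) B) :
    (heckeCohUR N q hqN R B φ : Additive (Gamma0 N) →+ B) = heckeHomU N q hqN B φ.1 := rfl

end Fermat.Agent.S16.CohU
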