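/-
P-S16, block L1 (helper21): the Shimura classes.

For a prime `p` the character `γ ↦ (d(γ) mod p) ^ ν`, `ν = gcd (p - 1) 12`, of `Γ₀(p)` with values
in `(ZMod p)ˣ` kills the parabolic and elliptic elements, is an eigenvector of the cohomological
Hecke operators `T_l` (`l ≠ p`) with eigenvalue `1 + l` and is fixed by `U_p`.
-/
import Fermat.Agent.S16.CohU
import Fermat.Agent.Gateway.Hecke.Coh
import Fermat.Prelude.Sol.S_ModularForm_heckeT_slash_eq_self_of_mem_Gamma0

set_option autoImplicit false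
set_option linter.unusedSectionVars false

namespace Fermat.Agent.S16.Shimura

open CongruenceSubgroup Matrix.SpecialLinearGroup ModularForm
open scoped MatrixGroups OnePoint
open Fermat.Agent.Gateway.A2 Fermat.Agent.Gateway.HeckeCoh Fermat.Agent.S16.CohU

variable (p : ℕ) [Fact p.Prime]

instance neZero_prime : NeZero p := ⟨(Fact.out : p.Prime).ne_zero⟩

/-- The lower right entry of `γ ∈ Γ₀(p)` as a unit modulo `p`. -/
noncomputable def dU : Gamma0 p →* (ZMod p)ˣ := (Gamma0Map p).toHomUnits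

theorem dU_val (gam : Gamma0 p) :
    ((dU p gam : (ZMod p)ˣ) : ZMod p) = ((((gam : SL(2, ℤ)) 1 1 : ℤ)) : ZMod p) := rfl

/-- `ν = gcd (p - 1) 12`. -/
def nu : ℕ := Nat.gcd (p - 1) 12

/-- The Shimura class `γ ↦ d(γ) ^ ν`. -/
noncomputable def shimuraClass : Additive (Gamma0 p) →+ Additive (ZMod p)ˣ :=
  MonoidHom.toAdditive ((powMonoidHom (nu p)).comp (dU p))

theorem shimuraClass_apply (gam : Gamma0 p) :
    shimuraClass p (Additive.ofMul gam) = Additive.ofMul ((dU p gam) ^ nu p) := rfl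

theorem units_pow_card_sub_one (u : (ZMod p)ˣ) : u ^ (p - 1) = 1 := ZMod.units_pow_card_sub_one_eq_one p u

/-- A unit of `ZMod p` killed by `12` is killed by `ν`. -/
theorem pow_nu_eq_one_of_pow_twelve {u : (ZMod p)ˣ} (h : u ^ 12 = 1) : u ^ nu p = 1 :=
  pow_gcd_eq_one.mpr ⟨units_pow_card_sub_one p u, h⟩

/-- The Shimura class vanishes on parabolic and elliptic elements. -/
theorem shimuraClass_mem_homPE : shimuraClass p ∈ homPE ℤ (Gamma0 p) (Additive (ZMod p)ˣ) := by
  intro gam hgam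
  rw [shimuraClass_apply]
  apply congrArg Additive.ofMul
  apply pow_nu_eq_one_of_pow_twelve
  -- the relation `d ^ 2 - t d + 1 = 0` in `ZMod p`
  have hc : ((((gam : SL(2, ℤ)) 1 0 : ℤ)) : ZMod p) = 0 := Gamma0_mem.mp gam.2
  have hdet : ((gam : SL(2, ℤ)) 0 0) * ((gam : SL(2, ℤ)) 1 1)
      - ((gam : SL(2, ℤ)) 0 1) * ((gam : SL(2, ℤ)) 1 0) = 1 := by
    have h := (gam : SL(2, ℤ)).det_coe
    rwa [Matrix.det_fin_two] at h
  have hdetp := congrArg (Int.cast : ℤ → ZMod p) hdet
  push_cast at hdetp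
  rw [hc, mul_zero, sub_zero] at hdetp
  unfold IsPE at hgam
  rw [Matrix.trace_fin_two] at hgam
  set a : ℤ := (gam : SL(2, ℤ)) 0 0 with ha
  set d : ℤ := (gam : SL(2, ℤ)) 1 1 with hd
  have ht : a + d = -2 ∨ a + d = -1 ∨ a + d = 0 ∨ a + d = 1 ∨ a + d = 2 := by
    have h1 : -3 < a + d := by nlinarith
    have h2 : a + d < 3 := by nlinarith
    omega
  apply Units.ext
  rw [Units.val_pow_eq_pow_val, dU_val, Units.val_one]
  set D : ZMod p := ((d : ℤ) : ZMod p) with hD
  set A' : ZMod p := ((a : ℤ) : ZMod p) with hA'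
  have hsum : ∀ t : ℤ, a + d = t → A' = (t : ZMod p) - D := by
    intro t h
    have := congrArg (Int.cast : ℤ → ZMod p) h
    push_cast at this
    rw [hA', hD]
    linear_combination this
  rcases ht with h | h | h | h | h
  · have hA := hsum _ h
    push_cast at hA
    have h1 : (D + 1) ^ 2 = 0 := by rw [hA] at hdetp; linear_combination -hdetp
    have h2 : D = -1 := by
      have := pow_eq_zero_iff (two_ne_zero) |>.mp h1
      linear_combination this
    rw [h2]; norm_num
  · have hA := hsum _ h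
    push_cast at hA
    have h1 : D ^ 2 + D + 1 = 0 := by rw [hA] at hdetp; linear_combination -hdetp
    have h3 : D ^ 3 = 1 := by linear_combination (D - 1) * h1
    calc D ^ 12 = (D ^ 3) ^ 4 := by ring
      _ = 1 := by rw [h3, one_pow]
  · have hA := hsum _ h
    push_cast at hA
    have h1 : D ^ 2 = -1 := by rw [hA] at hdetp; linear_combination -hdetp
    calc D ^ 12 = (D ^ 2) ^ 6 := by ring
      _ = 1 := by rw [h1]; norm_num
  · have hA := hsum _ h
    push_cast at hA
    have h1 : D ^ 2 - D + 1 = 0 := by rw [hA] at hdetp; linear_combination -hdetp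
    have h3 : D ^ 3 = -1 := by linear_combination (D + 1) * h1
    calc D ^ 12 = (D ^ 3) ^ 4 := by ring
      _ = 1 := by rw [h3]; norm_num
  · have hA := hsum _ h
    push_cast at hA
    have h1 : (D - 1) ^ 2 = 0 := by rw [hA] at hdetp; linear_combination -hdetp
    have h2 : D = 1 := by
      have := pow_eq_zero_iff (two_ne_zero) |>.mp h1
      linear_combination this
    rw [h2]; norm_num


/-! ### The eigenvalue of `T_l`, `l ≠ p` -/

section TL

open P2MW.S_ModularForm_heckeT_slash_eq_self_of_mem_Gamma0.ModularForm.HeckeSlashInvariance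

variable (l : ℕ) [Fact l.Prime]

/-- lower right entry of `heckeRep l x`. -/
def lowR (x : OnePoint (ZMod l)) : ℕ := x.elim 1 (fun _ => l)

/-- upper right entry of `heckeRep l x`. -/
def upR (x : OnePoint (ZMod l)) : ℕ := x.elim 0 (fun j => j.val)

theorem heckeRep_apply_one_zero (x : OnePoint (ZMod l)) : (heckeRep l x : GL (Fin 2) ℝ) 1 0 = 0 := by
  have hl0 : l ≠ 0 := (Fact.out : l.Prime).ne_zero
  induction x using OnePoint.rec with
  | infty => rw [heckeRep_infty, val_heckeDiagMatrix hl0]; simp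
  | coe j => rw [heckeRep_coe, val_heckeMatrix hl0]; simp

theorem heckeRep_apply_one_one (x : OnePoint (ZMod l)) :
    (heckeRep l x : GL (Fin 2) ℝ) 1 1 = (lowR l x : ℝ) := by
  have hl0 : l ≠ 0 := (Fact.out : l.Prime).ne_zero
  induction x using OnePoint.rec with
  | infty => rw [heckeRep_infty, val_heckeDiagMatrix hl0]; simp [lowR]
  | coe j => rw [heckeRep_coe, val_heckeMatrix hl0]; simp [lowR]

theorem heckeRep_apply_zero_one (x : OnePoint (ZMod l)) :
    (heckeRep l x : GL (Fin 2) ℝ) 0 1 = (upR l x : ℝ) := by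
  have hl0 : l ≠ 0 := (Fact.out : l.Prime).ne_zero
  induction x using OnePoint.rec with
  | infty => rw [heckeRep_infty, val_heckeDiagMatrix hl0]; simp [upR]
  | coe j => rw [heckeRep_coe, val_heckeMatrix hl0]; simp [upR]

/-- The integral relation between lower right entries in
`heckeRep l x * g = g' * heckeRep l x'`. -/
theorem lowR_mul_eq {g g' : SL(2, ℤ)} {x x' : OnePoint (ZMod l)}
    (h : heckeRep l x * mapGL ℝ g = mapGL ℝ g' * heckeRep l x') :
    (lowR l x : ℤ) * g 1 1 = g' 1 0 * (upR l x' : ℤ) + g' 1 1 * (lowR l x' : ℤ) := by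
  have h11 := congrArg (fun A : GL (Fin 2) ℝ => A 1 1) h
  simp only [Matrix.GeneralLinearGroup.coe_mul, Matrix.mul_apply, Fin.sum_univ_two,
    heckeRep_apply_one_zero, heckeRep_apply_one_one, heckeRep_apply_zero_one, mapGL_apply] at h11
  have : (((lowR l x : ℤ) * g 1 1 : ℤ) : ℝ)
      = ((g' 1 0 * (upR l x' : ℤ) + g' 1 1 * (lowR l x' : ℤ) : ℤ) : ℝ) := by
    push_cast
    linear_combination h11
  exact_mod_cast this

variable (hlp : ¬ l ∣ p)

include hlp in
theorem lowR_ne_zero (x : OnePoint (ZMod l)) : ((lowR l x : ℕ) : ZMod p) ≠ 0 := by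
  induction x using OnePoint.rec with
  | infty => simp [lowR]
  | coe j =>
    simp only [lowR, OnePoint.elim_some]
    intro h
    have h1 : p ∣ l := (ZMod.natCast_eq_zero_iff l p).mp h
    have h2 : p = l := (Nat.prime_dvd_prime_iff_eq (Fact.out : p.Prime) (Fact.out : l.Prime)).mp h1
    exact hlp (h2 ▸ dvd_refl l)

/-- lower right entry of `heckeRep l x` as a unit modulo `p`. -/
noncomputable def lowRU (x : OnePoint (ZMod l)) : (ZMod p)ˣ :=
  Units.mk0 ((lowR l x : ℕ) : ZMod p) (lowR_ne_zero p l hlp x)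

theorem dU_coc (x : OnePoint (ZMod l)) (gam : Gamma0 p) :
    dU p (coc p l hlp x gam) * lowRU p l hlp (redMatrix l (gam : SL(2, ℤ)) • x)
      = lowRU p l hlp x * dU p gam := by
  have h := lowR_mul_eq l (coc_spec p l hlp x gam)
  have hc : (((((coc p l hlp x gam : Gamma0 p) : SL(2, ℤ)) 1 0 : ℤ)) : ZMod p) = 0 :=
    Gamma0_mem.mp (coc p l hlp x gam).2
  have hp := congrArg (Int.cast : ℤ → ZMod p) h
  push_cast at hp
  rw [hc, zero_mul, zero_add] at hp
  apply Units.ext
  rw [Units.val_mul, Units.val_mul, dU_val, dU_val]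
  simp only [lowRU, Units.val_mk0]
  exact hp.symm

/-- **`T_l` eigenvalue.** `heckeHom` multiplies the Shimura class by `1 + l`. -/
theorem heckeHom_shimuraClass :
    heckeHom p l hlp (Additive (ZMod p)ˣ) (shimuraClass p) = (l + 1) • shimuraClass p := by
  refine AddMonoidHom.ext fun gam => ?_
  rw [← ofMul_toMul gam, heckeHom_apply]
  set γ : Gamma0 p := Additive.toMul gam with hγ
  have h1 : ∀ x : OnePoint (ZMod l),
      shimuraClass p (Additive.ofMul (coc p l hlp x γ))
        = shimuraClass p (Additive.ofMul γ)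
          + (Additive.ofMul ((lowRU p l hlp x) ^ nu p)
            - Additive.ofMul ((lowRU p l hlp (redMatrix l (γ : SL(2, ℤ)) • x)) ^ nu p)) := by
    intro x
    rw [shimuraClass_apply, shimuraClass_apply, ← ofMul_div, ← ofMul_mul]
    apply congrArg Additive.ofMul
    have h := congrArg (fun u : (ZMod p)ˣ => u ^ nu p) (dU_coc p l hlp x γ)
    simp only [mul_pow] at h
    rw [eq_comm, mul_div_assoc', div_eq_iff_eq_mul, mul_comm (dU p γ ^ nu p)]
    exact h.symm
  rw [Finset.sum_congr rfl fun x _ => h1 x, Finset.sum_add_distrib, Finset.sum_sub_distrib]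
  have h2 : ∑ x : OnePoint (ZMod l),
      Additive.ofMul ((lowRU p l hlp (redMatrix l (γ : SL(2, ℤ)) • x)) ^ nu p)
      = ∑ x : OnePoint (ZMod l), Additive.ofMul ((lowRU p l hlp x) ^ nu p) :=
    Equiv.sum_comp (MulAction.toPerm (redMatrix l (γ : SL(2, ℤ))))
      (fun x => Additive.ofMul ((lowRU p l hlp x) ^ nu p))
  rw [h2, sub_self, add_zero, Finset.sum_const, Finset.card_univ]
  have hcard : Fintype.card (OnePoint (ZMod l)) = l + 1 := by
    have : Fintype.card (Option (ZMod l)) = l + 1 := by rw [Fintype.card_option, ZMod.card]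
    rw [← this]
    exact Fintype.card_congr (Equiv.refl _)
  rw [hcard]
  rfl

end TL


/-! ### `U_p` fixes the Shimura class -/

section UP

open P2MW.S_ModularForm_heckeT_slash_eq_self_of_mem_Gamma0.ModularForm.HeckeSlashInvariance

theorem apply_one_one_congr (q : ℕ) (hq0 : q ≠ 0) {g g' : SL(2, ℤ)} {j j' : ℕ}
    (h : heckeMatrix q j * mapGL ℝ g = mapGL ℝ g' * heckeMatrix q j')
    (hc : (q : ℤ) ∣ g 1 0) :
    ((g' 1 1 : ℤ) : ZMod q) = ((g 1 1 : ℤ) : ZMod q) := by
  have h10 := congrArg (fun A : GL (Fin 2) ℝ => A 1 0) h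
  have h11 := congrArg (fun A : GL (Fin 2) ℝ => A 1 1) h
  simp only [Matrix.GeneralLinearGroup.coe_mul, Matrix.mul_apply, Fin.sum_univ_two,
    val_heckeMatrix hq0, Matrix.of_apply, Matrix.cons_val', Matrix.cons_val_zero,
    Matrix.cons_val_one, Matrix.cons_val_fin_one, mapGL_apply] at h10 h11
  have hq' : (q : ℝ) ≠ 0 := by exact_mod_cast hq0
  have hR : ((g 1 1 : ℤ) : ℝ) = ((g 1 0 : ℤ) : ℝ) * (j' : ℝ) + ((g' 1 1 : ℤ) : ℝ) := by
    apply mul_left_cancel₀ hq'
    linear_combination h11 - (j' : ℝ) * h10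
  have hZ : g 1 1 = g 1 0 * (j' : ℤ) + g' 1 1 := by exact_mod_cast hR
  obtain ⟨e, he⟩ := hc
  rw [hZ, he]
  push_cast
  simp

/-- The lower right entry of `cocU x γ` is congruent to that of `γ` modulo `q`. -/
theorem cocU_apply_one_one (N q : ℕ) [NeZero N] [NeZero q] (hqN : q ∣ N) (x : ZMod q)
    (gam : Gamma0 N) :
    ((((cocU N q hqN x gam : Gamma0 N) : SL(2, ℤ)) 1 1 : ℤ) : ZMod q)
      = ((((gam : SL(2, ℤ)) 1 1 : ℤ)) : ZMod q) :=
  apply_one_one_congr q (NeZero.ne q) (cocU_spec N q hqN x gam)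
    (natCast_dvd_apply_one_zero N q hqN gam)

end UP

theorem heckeHomU_shimuraClass :
    heckeHomU p p (dvd_refl p) (Additive (ZMod p)ˣ) (shimuraClass p) = shimuraClass p := by
  refine AddMonoidHom.ext fun gam => ?_
  rw [← ofMul_toMul gam, heckeHomU_apply]
  set γ : Gamma0 p := Additive.toMul gam with hγ
  have h1 : ∀ x : ZMod p, shimuraClass p (Additive.ofMul (cocU p p (dvd_refl p) x γ))
      = shimuraClass p (Additive.ofMul γ) := by
    intro x
    rw [shimuraClass_apply, shimuraClass_apply]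
    have : dU p (cocU p p (dvd_refl p) x γ) = dU p γ := by
      apply Units.ext
      rw [dU_val, dU_val]
      exact cocU_apply_one_one p p (dvd_refl p) x γ
    rw [this]
  rw [Finset.sum_congr rfl fun x _ => h1 x, Finset.sum_const, Finset.card_univ, ZMod.card]
  -- `p • a = a` in a group of exponent `p - 1`
  have hp1 : 1 ≤ p := (Fact.out : p.Prime).one_lt.le
  have h2 : (p - 1) • shimuraClass p (Additive.ofMul γ) = 0 := by
    rw [shimuraClass_apply, ← ofMul_pow, ← pow_mul, mul_comm, pow_mul, units_pow_card_sub_one,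
      one_pow, ofMul_one]
  calc p • shimuraClass p (Additive.ofMul γ)
      = ((p - 1) + 1) • shimuraClass p (Additive.ofMul γ) := by rw [Nat.sub_add_cancel hp1]
    _ = shimuraClass p (Additive.ofMul γ) := by rw [add_smul, h2, zero_add, one_smul]

/-! ### The order of the Shimura class -/

theorem dU_surjective : Function.Surjective (dU p) := by
  intro u
  have hp0 : p ≠ 0 := (Fact.out : p.Prime).ne_zero
  set a : ℤ := ((((u⁻¹ : (ZMod p)ˣ) : ZMod p).val : ℕ) : ℤ) with ha
  set d : ℤ := ((((u : (ZMod p)ˣ) : ZMod p).val : ℕ) : ℤ) with hd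
  have had : (((a * d - 1 : ℤ)) : ZMod p) = 0 := by
    push_cast
    rw [ha, hd]
    push_cast
    rw [ZMod.natCast_zmod_val, ZMod.natCast_zmod_val, ← Units.val_inv_eq_inv_val,
      ← Units.val_mul, inv_mul_cancel, Units.val_one, sub_self]
  obtain ⟨k, hk⟩ := (ZMod.intCast_zmod_eq_zero_iff_dvd _ _).mp had
  have hdet : (!![a, k; (p : ℤ), d] : Matrix (Fin 2) (Fin 2) ℤ).det = 1 := by
    rw [Matrix.det_fin_two_of]
    linear_combination hk
  let M : SL(2, ℤ) := ⟨!![a, k; (p : ℤ), d], hdet⟩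
  have hM10 : M 1 0 = (p : ℤ) := rfl
  have hM11 : M 1 1 = d := rfl
  have hM : M ∈ Gamma0 p := by
    rw [Gamma0_mem, hM10]
    simp
  refine ⟨⟨M, hM⟩, ?_⟩
  apply Units.ext
  rw [dU_val]
  show (((M 1 1 : ℤ)) : ZMod p) = _
  rw [hM11, hd]
  push_cast
  rw [ZMod.natCast_zmod_val]

/-- **Order of the Shimura class.** An integer killing the Shimura class is divisible by
`(p - 1) / gcd (p - 1) 12`. -/
theorem dvd_of_zsmul_shimuraClass_eq_zero {k : ℤ} (hk : k • shimuraClass p = 0) :
    (((p - 1) / Nat.gcd (p - 1) 12 : ℕ) : ℤ) ∣ k := by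
  obtain ⟨g, hg⟩ := IsCyclic.exists_generator (α := (ZMod p)ˣ)
  obtain ⟨gam, hgam⟩ := dU_surjective p g
  have h1 : k • shimuraClass p (Additive.ofMul gam) = 0 := DFunLike.congr_fun hk (Additive.ofMul gam)
  rw [shimuraClass_apply, hgam, ← ofMul_zpow, ← ofMul_one] at h1
  have h2 : (g ^ nu p) ^ k = 1 := Additive.ofMul.injective h1
  rw [← zpow_natCast, ← zpow_mul] at h2
  have h3 : (orderOf g : ℤ) ∣ (nu p : ℤ) * k := orderOf_dvd_iff_zpow_eq_one.mpr h2
  have hord : orderOf g = p - 1 := by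
    rw [orderOf_eq_card_of_forall_mem_zpowers hg, Nat.card_eq_fintype_card, ZMod.card_units_eq_totient,
      Nat.totient_prime (Fact.out : p.Prime)]
  rw [hord] at h3
  have hnu : (p - 1) = ((p - 1) / Nat.gcd (p - 1) 12) * nu p :=
    (Nat.div_mul_cancel (Nat.gcd_dvd_left _ _)).symm
  have hnu0 : (nu p : ℤ) ≠ 0 := by
    have : 0 < nu p := Nat.gcd_pos_of_pos_right _ (by norm_num)
    exact_mod_cast this.ne'
  have h4 : ((((p - 1) / Nat.gcd (p - 1) 12 : ℕ) : ℤ)) * (nu p : ℤ) ∣ k * (nu p : ℤ) := by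
    rw [mul_comm k]
    have : (((p - 1 : ℕ)) : ℤ) = ((((p - 1) / Nat.gcd (p - 1) 12 : ℕ) : ℤ)) * (nu p : ℤ) := by
      exact_mod_cast hnu
    rw [← this]
    exact h3
  exact (mul_dvd_mul_iff_right hnu0).mp h4

end Fermat.Agent.S16.Shimura
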