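/-
P-S16, block L2 (helper21): the lower bound `n ∣ ev P` for every `P` in the kernel of
`ph : ℤ[X_ℓ] → 𝕋`  (`HLB p`).

The Shimura class `χ : Γ₀(p) → (ℤ/p)ˣ`, `γ ↦ d(γ)^ν`, lifts to a character `θ₀ : Γ₀(p) → ℤ` killing
parabolic and elliptic elements (freeness of `Γ₀(p)^ab / ⟨parabolic, elliptic⟩`, `A2.Count`), and
`θ₀` is the period character of a pair of cusp forms (Eichler–Shimura, `S21`).  The period map
intertwines the Hecke operators on forms with the cohomological ones, and `χ` is an eigenvector of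
the latter with the Eisenstein eigenvalues.  Hence a polynomial `P` in the Hecke operators that
kills all cusp forms satisfies `ev P • χ = 0`, and `χ` has order `n = (p-1)/gcd(p-1,12)`.
-/
import Fermat.Agent.S16.Defs
import Fermat.Agent.S16.Shimura
import Fermat.Agent.S16.CohUPeriod
import Fermat.Agent.Gateway.Hecke.CohPeriod
import Fermat.Agent.Gateway.A2.Uncond
import Fermat.Agent.S23

set_option autoImplicit false
set_option linter.unusedSectionVars false

namespace Fermat.Agent.S16.LowerBound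

open CongruenceSubgroup Matrix.SpecialLinearGroup ModularForm
open scoped MatrixGroups
open ModularCurve CuspForm
open Fermat.Agent.Gateway.A2 Fermat.Agent.Gateway.A2.Count Fermat.Agent.Gateway.HeckeCoh
open Fermat.Agent.Gateway.HeckeCohPeriod Fermat.Agent.S16.CohU Fermat.Agent.S16.Shimura

variable (p : ℕ) [Fact p.Prime]

/-- The operator on `S₂(Γ₀(p))` attached to a Hecke polynomial. -/
noncomputable def opT (P : HeckeAlg) : Module.End ℂ (CuspForm (Gamma0 p) 2) :=
  ((heckeEvalForms p 2 P : heckeAlgebra p 2 ∅) : Module.End ℂ (CuspForm (Gamma0 p) 2))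

theorem opT_C (a : ℤ) (f : CuspForm (Gamma0 p) 2) : opT p (MvPolynomial.C a) f = a • f := by
  unfold opT
  rw [heckeEvalForms_C, Subalgebra.coe_algebraMap, eq_intCast, Module.End.intCast_apply]

theorem opT_add (P Q : HeckeAlg) (f : CuspForm (Gamma0 p) 2) :
    opT p (P + Q) f = opT p P f + opT p Q f := by
  unfold opT
  rw [map_add, Subalgebra.coe_add, LinearMap.add_apply]

theorem opT_mul (P Q : HeckeAlg) (f : CuspForm (Gamma0 p) 2) :
    opT p (P * Q) f = opT p P (opT p Q f) := by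
  unfold opT
  rw [map_mul, Subalgebra.coe_mul, Module.End.mul_apply]

theorem opT_X_of_not_dvd (l : Nat.Primes) (h : ¬ (l : ℕ) ∣ p) (f : CuspForm (Gamma0 p) 2) :
    opT p (MvPolynomial.X l) f = CuspForm.heckeTLin 2 l.2 h f := by
  unfold opT
  have := heckeEvalForms_heckeGen_of_not_dvd (N := p) (k := 2) h
  unfold heckeGen at this
  rw [this, heckeAlgebra.coe_T]

theorem opT_X_of_dvd (l : Nat.Primes) (h : (l : ℕ) ∣ p) (f : CuspForm (Gamma0 p) 2) :
    opT p (MvPolynomial.X l) f = CuspForm.heckeULin 2 h f := by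
  unfold opT
  have := heckeEvalForms_heckeGen_of_dvd (N := p) (k := 2) h
  unfold heckeGen at this
  rw [this, heckeAlgebra.coe_U]

/-- If `ph P = 0` then `P` acts as zero on cusp forms. -/
theorem opT_eq_zero_of_ph {P : HeckeAlg} (h : ph p P = 0) : opT p P = 0 := by
  unfold opT
  have h1 : latticeRestrictHom p ∅ (heckeEvalForms p 2 P) = latticeRestrictHom p ∅ 0 := by
    rw [map_zero]; exact h
  rw [(latticeRestrictHom_bijective p ∅ (Fermat.Agent.S23.result p)).1 h1]
  rfl

/-! ### Eisenstein eigencharacters -/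

section Eig

variable {A : Type*} [AddCommGroup A]

/-- A character of `Γ₀(p)` on which the cohomological Hecke operators act through the Eisenstein
eigenvalues `T_l ↦ l + 1` (`l ≠ p`), `U_p ↦ 1`. -/
def EisEig (χ : Additive (Gamma0 p) →+ A) : Prop :=
  (∀ (l : ℕ) [Fact l.Prime] (hlp : ¬ l ∣ p), heckeHom p l hlp A χ = ((l : ℤ) + 1) • χ) ∧
  (∀ (q : ℕ) [Fact q.Prime] (hqp : q ∣ p), heckeHomU p q hqp A χ = χ)

variable {p}

theorem EisEig.zsmul {χ : Additive (Gamma0 p) →+ A} (h : EisEig p χ) (c : ℤ) :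
    EisEig p (c • χ) := by
  refine ⟨fun l _ hlp => ?_, fun q _ hqp => ?_⟩
  · rw [map_zsmul, h.1 l hlp, smul_comm]
  · rw [map_zsmul, h.2 q hqp]

variable (p)

theorem eisEig_shimuraClass : EisEig p (shimuraClass p) := by
  refine ⟨fun l _ hlp => ?_, fun q _ hqp => ?_⟩
  · rw [heckeHom_shimuraClass p l hlp]
    have : ((l : ℤ) + 1) = ((l + 1 : ℕ) : ℤ) := by push_cast; ring
    rw [this, natCast_zsmul]
  · have hqp' : q = p :=
      (Nat.prime_dvd_prime_iff_eq (Fact.out : q.Prime) (Fact.out : p.Prime)).mp hqp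
    subst hqp'
    exact heckeHomU_shimuraClass q

end Eig

/-! ### The induction over Hecke polynomials -/

section Induction

variable {A : Type*} [AddCommGroup A] (π : ℤ →+ A)

/-- The inductive statement: if the period character of the pair `x` is the integral character
`θ`, whose image under `π` is an Eisenstein eigencharacter, then the period character of `P x` is an
integral character with image `ev P • π θ`. -/
def Good (P : HeckeAlg) : Prop :=
  ∀ (x : CuspForm (Gamma0 p) 2 × CuspForm (Gamma0 p) 2) (θ : Additive (Gamma0 p) →+ ℤ),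
    periodHomPair p x = (Int.castAddHom ℂ).comp θ → EisEig p (π.comp θ) →
    ∃ θ' : Additive (Gamma0 p) →+ ℤ,
      periodHomPair p (opT p P x.1, opT p P x.2) = (Int.castAddHom ℂ).comp θ' ∧
      π.comp θ' = (ev p P) • (π.comp θ)

theorem comp_zsmul {B C : Type*} [AddCommGroup B] [AddCommGroup C] (f : B →+ C) (c : ℤ)
    (θ : Additive (Gamma0 p) →+ B) : f.comp (c • θ) = c • f.comp θ :=
  map_zsmul (AddMonoidHom.compHom f) c θ

theorem good_C (a : ℤ) : Good p π (MvPolynomial.C a) := by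
  intro x θ hx hθ
  refine ⟨a • θ, ?_, ?_⟩
  · have h1 : (opT p (MvPolynomial.C a) x.1, opT p (MvPolynomial.C a) x.2) = a • x := by
      rw [opT_C, opT_C]; rfl
    rw [h1, map_zsmul, hx, comp_zsmul]
  · rw [comp_zsmul]
    congr 1
    simp [ev]

theorem good_add {P Q : HeckeAlg} (hP : Good p π P) (hQ : Good p π Q) : Good p π (P + Q) := by
  intro x θ hx hθ
  obtain ⟨θ₁, h1, h1'⟩ := hP x θ hx hθ
  obtain ⟨θ₂, h2, h2'⟩ := hQ x θ hx hθ
  refine ⟨θ₁ + θ₂, ?_, ?_⟩
  · have h3 : (opT p (P + Q) x.1, opT p (P + Q) x.2)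
        = (opT p P x.1, opT p P x.2) + (opT p Q x.1, opT p Q x.2) := by
      rw [opT_add, opT_add]; rfl
    rw [h3, map_add, h1, h2, AddMonoidHom.comp_add]
  · rw [AddMonoidHom.comp_add, h1', h2', map_add, add_smul]

theorem good_mul_X {P : HeckeAlg} (l : Nat.Primes) (hP : Good p π P) :
    Good p π (P * MvPolynomial.X l) := by
  intro x θ hx hθ
  have : Fact (l : ℕ).Prime := ⟨l.2⟩
  by_cases h : (l : ℕ) ∣ p
  · -- the operator `U_p`
    set x₁ : CuspForm (Gamma0 p) 2 × CuspForm (Gamma0 p) 2 :=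
      (CuspForm.heckeULin 2 h x.1, CuspForm.heckeULin 2 h x.2) with hx₁
    set θ₁ : Additive (Gamma0 p) →+ ℤ := heckeHomU p l h ℤ θ with hθ₁
    have e1 : periodHomPair p x₁ = (Int.castAddHom ℂ).comp θ₁ := by
      rw [hx₁, periodHomPair_heckeULin p (l : ℕ) h x.1 x.2, Prod.mk.eta, hx, heckeHomU_comp]
    have e2 : π.comp θ₁ = π.comp θ := by
      rw [hθ₁, ← heckeHomU_comp, hθ.2 (l : ℕ) h]
    obtain ⟨θ', h1, h2⟩ := hP x₁ θ₁ e1 (e2 ▸ hθ)
    refine ⟨θ', ?_, ?_⟩
    · rw [opT_mul, opT_mul, opT_X_of_dvd p l h, opT_X_of_dvd p l h]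
      exact h1
    · rw [h2, e2]
      congr 1
      simp [ev, eisensteinSystem_of_dvd h]
  · -- the operator `T_l`
    set x₁ : CuspForm (Gamma0 p) 2 × CuspForm (Gamma0 p) 2 :=
      (CuspForm.heckeTLin 2 l.2 h x.1, CuspForm.heckeTLin 2 l.2 h x.2) with hx₁
    set θ₁ : Additive (Gamma0 p) →+ ℤ := heckeHom p l h ℤ θ with hθ₁
    have e1 : periodHomPair p x₁ = (Int.castAddHom ℂ).comp θ₁ := by
      rw [hx₁, periodHomPair_heckeTLin p (l : ℕ) h l.2 x.1 x.2, Prod.mk.eta, hx, heckeHom_comp]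
    have e2 : π.comp θ₁ = (((l : ℕ) : ℤ) + 1) • π.comp θ := by
      rw [hθ₁, ← heckeHom_comp, hθ.1 (l : ℕ) h]
    obtain ⟨θ', h1, h2⟩ := hP x₁ θ₁ e1 (e2 ▸ hθ.zsmul _)
    refine ⟨θ', ?_, ?_⟩
    · rw [opT_mul, opT_mul, opT_X_of_not_dvd p l h, opT_X_of_not_dvd p l h]
      exact h1
    · rw [h2, e2, smul_smul]
      congr 1
      have h3 : ev p (MvPolynomial.X l) = ((l : ℕ) : ℤ) + 1 := by
        simp [ev, eisensteinSystem_of_not_dvd h, add_comm]
      rw [map_mul, h3]

theorem good_all (P : HeckeAlg) : Good p π P :=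
  MvPolynomial.induction_on P (good_C p π) (fun _ _ => good_add p π)
    (fun _ l hP => good_mul_X p π l hP)

end Induction

/-! ### Lifting the Shimura class to a period character -/

section Lift

variable {A : Type*} [AddCommGroup A] (π : ℤ →+ A)

/-- A character with values in a quotient `A` of `ℤ`, killing parabolic and elliptic elements,
lifts to such a character with values in `ℤ`: the universal quotient is free. -/
theorem exists_lift (hπ : Function.Surjective π) (χ : Additive (Gamma0 p) →+ A)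
    (hχ : χ ∈ homPE ℤ (Gamma0 p) A) :
    ∃ θ : Additive (Gamma0 p) →+ ℤ, θ ∈ homPE ℤ (Gamma0 p) ℤ ∧ π.comp θ = χ := by
  obtain ⟨g, -, ⟨e⟩, -⟩ := a2_Gamma0 p
  have hfree : Module.Free ℤ (Additive (PEQuot (Gamma0 p))) :=
    Module.Free.of_equiv e.symm.toIntLinearEquiv
  obtain ⟨h, hh⟩ := Module.projective_lifting_property π.toIntLinearMap
    (peLift (Gamma0 p) ℤ A χ hχ).toIntLinearMap hπ
  refine ⟨peRes (Gamma0 p) ℤ ℤ h.toAddMonoidHom, ?_, ?_⟩
  · rw [← range_peRes]
    exact ⟨_, rfl⟩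
  · have h1 := peRes_peLift (Gamma0 p) ℤ A χ hχ
    refine AddMonoidHom.ext fun γ => ?_
    have h2 := LinearMap.congr_fun hh (Additive.ofMul (peProj (Gamma0 p) (Additive.toMul γ)))
    have h3 := DFunLike.congr_fun h1 γ
    rw [← h3]
    exact h2

/-- The lift is the period character of a pair of cusp forms (Eichler–Shimura). -/
theorem exists_period_lift (hπ : Function.Surjective π) (χ : Additive (Gamma0 p) →+ A)
    (hχ : χ ∈ homPE ℤ (Gamma0 p) A) :
    ∃ (x₀ : CuspForm (Gamma0 p) 2 × CuspForm (Gamma0 p) 2) (θ₀ : Additive (Gamma0 p) →+ ℤ),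
      periodHomPair p x₀ = (Int.castAddHom ℂ).comp θ₀ ∧ π.comp θ₀ = χ := by
  obtain ⟨θ, hθ, hπθ⟩ := exists_lift p π hπ χ hχ
  have hmem : (Int.castAddHom ℂ).comp θ ∈ homPE ℂ (Gamma0 p) ℂ := by
    intro γ hγ
    show ((θ (Additive.ofMul γ) : ℤ) : ℂ) = 0
    rw [hθ γ hγ, Int.cast_zero]
  rw [homPE_complex_eq, ← (Fermat.Agent.S21.result p).2] at hmem
  obtain ⟨x₀, hx₀⟩ := hmem
  exact ⟨x₀, θ, hx₀, hπθ⟩

end Lift

/-! ### The lower bound -/

/-- **Block L of P-S16.** A Hecke polynomial acting as zero on the integral Hecke algebra of level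
`p` has Eisenstein value divisible by `n = (p - 1) / gcd (p - 1) 12`. -/
theorem hlb : HLB p := by
  intro P hP
  obtain ⟨g, hg⟩ := IsCyclic.exists_generator (α := (ZMod p)ˣ)
  set π : ℤ →+ Additive (ZMod p)ˣ := zmultiplesHom (Additive (ZMod p)ˣ) (Additive.ofMul g) with hπdef
  have hπ : Function.Surjective π := by
    intro a
    obtain ⟨k, hk⟩ := Subgroup.mem_zpowers_iff.mp (hg (Additive.toMul a))
    refine ⟨k, ?_⟩
    rw [hπdef, zmultiplesHom_apply, ← ofMul_zpow, hk, ofMul_toMul]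
  obtain ⟨x₀, θ₀, hx₀, hθ₀⟩ :=
    exists_period_lift p π hπ (shimuraClass p) (shimuraClass_mem_homPE p)
  obtain ⟨θ', h1, h2⟩ := good_all p π P x₀ θ₀ hx₀ (hθ₀ ▸ eisEig_shimuraClass p)
  rw [opT_eq_zero_of_ph p hP] at h1
  have h3 : θ' = 0 := by
    refine AddMonoidHom.ext fun γ => ?_
    have h4 := DFunLike.congr_fun h1 γ
    have h5 : ((0 : Module.End ℂ (CuspForm (Gamma0 p) 2)) x₀.1,
        (0 : Module.End ℂ (CuspForm (Gamma0 p) 2)) x₀.2)
          = (0 : CuspForm (Gamma0 p) 2 × CuspForm (Gamma0 p) 2) := rfl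
    rw [h5, map_zero] at h4
    have h6 : ((θ' γ : ℤ) : ℂ) = 0 := h4.symm
    exact_mod_cast h6
  rw [h3, hθ₀, AddMonoidHom.comp_zero] at h2
  exact dvd_of_zsmul_shimuraClass_eq_zero p h2.symm

end Fermat.Agent.S16.LowerBound
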