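import Mathlib
import Fermat.Statements.S16
import Fermat.Prelude.Def_ModularCurve_GenusNumerics
import Fermat.Agent.S21.UpperBoundS2

/-!
# P-S16, WP-SMALL: the primes `p ∈ {2, 3, 5, 7, 13}` (helper40)

For these primes the genus formula of `X₀(p)` evaluates to `0`, so `S₂(Γ₀(p)) = 0` (upper bound
`dim S₂(Γ₀(N)) ≤ genusFormula N` of `S21/UpperBoundS2.lean`), the integral lattice is trivial, the
Hecke lattice algebra is the zero ring, every quotient of it has cardinality `1`, and
`eisensteinNumerator p = 1`.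

Main exports:
* `genusFormula_small`, `dedekindPsi_prime`, `cuspCount_prime`;
* `cuspForm_eq_zero_of_genusFormula_eq_zero`;
* `card_quotient_eq_one_of_cuspForm_eq_zero` : if `S₂(Γ₀(N)) = 0` then every quotient of
  `heckeLatticeAlgebra N S` has cardinality one;
* `result_small` : the frozen statement S16 for `p ∈ {2, 3, 5, 7, 13}`.
-/

set_option autoImplicit false

open ModularCurve CuspForm

namespace Fermat.Agent.S16.Small

/-! ### Numerics of the genus formula at a prime -/

theorem dedekindPsi_prime {p : ℕ} (hp : p.Prime) : dedekindPsi p = p + 1 := by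
  unfold dedekindPsi
  rw [hp.divisors]
  have h1 : (1 : ℕ) ≠ p := hp.one_lt.ne
  rw [Finset.filter_true_of_mem]
  · rw [Finset.sum_pair h1, Nat.div_one, Nat.div_self hp.pos]
  · intro d hd
    rcases Finset.mem_insert.1 hd with rfl | hd
    · exact squarefree_one
    · rw [Finset.mem_singleton.1 hd]
      exact hp.prime.squarefree

theorem cuspCount_prime {p : ℕ} (hp : p.Prime) : cuspCount p = 2 := by
  unfold cuspCount
  rw [hp.divisors]
  have h1 : (1 : ℕ) ≠ p := hp.one_lt.ne
  rw [Finset.sum_pair h1, Nat.div_one, Nat.div_self hp.pos]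
  simp

theorem nuTwo_vals : nuTwo 2 = 1 ∧ nuTwo 3 = 0 ∧ nuTwo 5 = 2 ∧ nuTwo 7 = 0 ∧ nuTwo 13 = 2 := by
  refine ⟨?_, ?_, ?_, ?_, ?_⟩ <;> (unfold nuTwo; rw [Nat.card_eq_fintype_card]; decide)

theorem nuThree_vals : nuThree 2 = 0 ∧ nuThree 3 = 1 ∧ nuThree 5 = 0 ∧ nuThree 7 = 2 ∧
    nuThree 13 = 2 := by
  refine ⟨?_, ?_, ?_, ?_, ?_⟩ <;> (unfold nuThree; rw [Nat.card_eq_fintype_card]; decide)

/-- The genus formula vanishes at `p ∈ {2, 3, 5, 7, 13}`. -/
theorem genusFormula_small {p : ℕ} (hp : p = 2 ∨ p = 3 ∨ p = 5 ∨ p = 7 ∨ p = 13) :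
    genusFormula p = 0 := by
  obtain ⟨a2, a3, a5, a7, a13⟩ := nuTwo_vals
  obtain ⟨b2, b3, b5, b7, b13⟩ := nuThree_vals
  rcases hp with rfl | rfl | rfl | rfl | rfl
  · rw [genusFormula, dedekindPsi_prime (by norm_num), cuspCount_prime (by norm_num), a2, b2]
    norm_num
  · rw [genusFormula, dedekindPsi_prime (by norm_num), cuspCount_prime (by norm_num), a3, b3]
    norm_num
  · rw [genusFormula, dedekindPsi_prime (by norm_num), cuspCount_prime (by norm_num), a5, b5]
    norm_num
  · rw [genusFormula, dedekindPsi_prime (by norm_num), cuspCount_prime (by norm_num), a7, b7]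
    norm_num
  · rw [genusFormula, dedekindPsi_prime (by norm_num), cuspCount_prime (by norm_num), a13, b13]
    norm_num

theorem eisensteinNumerator_small {p : ℕ} (hp : p = 2 ∨ p = 3 ∨ p = 5 ∨ p = 7 ∨ p = 13) :
    eisensteinNumerator p = 1 := by
  rcases hp with rfl | rfl | rfl | rfl | rfl <;> decide

/-! ### No cusp forms -/

/-- If the genus formula vanishes there are no nonzero cusp forms of weight `2`. -/
theorem cuspForm_eq_zero_of_genusFormula_eq_zero (N : ℕ) [NeZero N] (h : genusFormula N = 0)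
    (f : CuspForm (CongruenceSubgroup.Gamma0 N) 2) : f = 0 := by
  have hfin := Fermat.Agent.S21.finite_cuspForm_Gamma0_two N
  have hle := Fermat.Agent.S21.finrank_cuspForm_Gamma0_two_le N
  rw [h] at hle
  have h0 : Module.finrank ℂ (CuspForm (CongruenceSubgroup.Gamma0 N) 2) = 0 := by
    have : (Module.finrank ℂ (CuspForm (CongruenceSubgroup.Gamma0 N) 2) : ℚ) = 0 :=
      le_antisymm hle (by positivity)
    exact_mod_cast this
  have hsub := Module.finrank_zero_iff.1 h0
  exact Subsingleton.elim f 0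

/-! ### The Hecke lattice algebra is the zero ring -/

/-- If `S₂(Γ₀(N)) = 0`, every quotient of the Hecke lattice algebra has exactly one element. -/
theorem card_quotient_eq_one_of_cuspForm_eq_zero (N : ℕ) [NeZero N] (S : Set ℕ)
    (h : ∀ f : CuspForm (CongruenceSubgroup.Gamma0 N) 2, f = 0)
    (I : Ideal ↥(heckeLatticeAlgebra N S)) :
    Nat.card (↥(heckeLatticeAlgebra N S) ⧸ I) = 1 := by
  have h1 : Subsingleton (CuspForm (CongruenceSubgroup.Gamma0 N) 2) :=
    ⟨fun a b => by rw [h a, h b]⟩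
  have h2 : Subsingleton ↥(intLattice N 2) := inferInstance
  have h3 : Subsingleton (Module.End ℤ ↥(intLattice N 2)) :=
    ⟨fun a b => LinearMap.ext fun x => Subsingleton.elim _ _⟩
  have h4 : Subsingleton ↥(heckeLatticeAlgebra N S) := inferInstance
  have h5 : Subsingleton (↥(heckeLatticeAlgebra N S) ⧸ I) :=
    ⟨fun a b => by
      obtain ⟨a, rfl⟩ := Ideal.Quotient.mk_surjective a
      obtain ⟨b, rfl⟩ := Ideal.Quotient.mk_surjective b
      rw [Subsingleton.elim a b]⟩
  have : Nonempty (↥(heckeLatticeAlgebra N S) ⧸ I) := ⟨0⟩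
  exact Nat.card_unique

/-- **S16 for `p ∈ {2, 3, 5, 7, 13}`** (frozen shape). -/
theorem result_small (p : ℕ) [Fact p.Prime] (hp : p = 2 ∨ p = 3 ∨ p = 5 ∨ p = 7 ∨ p = 13) :
    Nat.card (↥(heckeLatticeAlgebra p ∅) ⧸
        Ideal.map ((latticeRestrictHom p ∅).toRingHom.comp (heckeEvalForms p 2))
          (eisensteinIdeal p)) =
      eisensteinNumerator p := by
  have : NeZero p := ⟨(Fact.out : p.Prime).ne_zero⟩
  rw [eisensteinNumerator_small hp]
  exact card_quotient_eq_one_of_cuspForm_eq_zero p ∅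
    (cuspForm_eq_zero_of_genusFormula_eq_zero p (genusFormula_small hp)) _

end Fermat.Agent.S16.Small
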