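/-
P-S16 (helper16): the frozen statement S16 for every prime `p`, modulo the two remaining blocks
U2 `NoUnitForm p 2 3` and U3 `NoUnitForm p 3 2` (needed for `p ≥ 5` only).  Everything else is
discharged: A3 `BlockB.eisForm_spec`, A2 `dualityCor`, B3 `BlockB.ub_tr`, SD/CH
`SDAdapter.noUnitForm_sd`, L `LowerBound.hlb`, small primes `Small.result_small`.
-/
import Fermat.Agent.S16.Assembly
import Fermat.Agent.S16.BlockB
import Fermat.Agent.S16.DualityCor
import Fermat.Agent.S16.LowerBound
import Fermat.Agent.S16.SDAdapter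
import Fermat.Agent.S16.Small

set_option autoImplicit false

namespace Fermat.Agent.S16

open ModularCurve CuspForm

/-- **S16 from U2 and U3.** -/
theorem s16_of_u2_u3 (p : ℕ) [Fact p.Prime]
    (h2 : 5 ≤ p → NoUnitForm p 2 3) (h3 : 5 ≤ p → NoUnitForm p 3 2) :
    Nat.card (↥(heckeLatticeAlgebra p ∅) ⧸
        Ideal.map ((latticeRestrictHom p ∅).toRingHom.comp (heckeEvalForms p 2))
          (eisensteinIdeal p)) =
      eisensteinNumerator p := by
  have hp : p.Prime := Fact.out
  by_cases hp5 : 5 ≤ p
  · exact s16_of_blocks hp5 (BlockB.eisForm_spec p) (dualityCor p) (BlockB.ub_tr p hp5)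
      (fun ℓ hℓ hℓ5 hd => SDAdapter.noUnitForm_sd p ℓ hℓ hℓ5 hd) (h2 hp5) (h3 hp5)
      (LowerBound.hlb p)
  · have h23 : p = 2 ∨ p = 3 := by
      have h2le := hp.two_le
      have hlt : p < 5 := not_le.mp hp5
      interval_cases p
      · exact Or.inl rfl
      · exact Or.inr rfl
      · exact absurd hp (by norm_num)
    apply Small.result_small p
    rcases h23 with h | h
    · exact Or.inl h
    · exact Or.inr (Or.inl h)

end Fermat.Agent.S16
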