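/-
P-S16 (helper16): the frozen statement S16 for every prime `p`, modulo the single remaining block
U2 `NoUnitForm p 2 3` (needed for `p ≥ 5` only).  U3 is `Three.noUnitForm_three` (helper90).
-/
import Fermat.Agent.S16.Final
import Fermat.Agent.S16.Three.Result

set_option autoImplicit false

namespace Fermat.Agent.S16

open ModularCurve CuspForm

/-- **S16 from U2.** -/
theorem s16_of_u2 (p : ℕ) [Fact p.Prime] (h2 : 5 ≤ p → NoUnitForm p 2 3) :
    Nat.card (↥(heckeLatticeAlgebra p ∅) ⧸
        Ideal.map ((latticeRestrictHom p ∅).toRingHom.comp (heckeEvalForms p 2))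
          (eisensteinIdeal p)) =
      eisensteinNumerator p :=
  s16_of_u2_u3 p h2 (fun h5 => Three.noUnitForm_three p (by omega))

end Fermat.Agent.S16
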