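/-
P-S16, block CH (helper16): `NoUnitForm p ℓ 1` for primes `ℓ ≥ 5` dividing `p + 1`, from
* (SD)  the Swinnerton-Dyer special case: a level-one form with `ℓ`-integral `q`-expansion
        congruent to a unit constant mod `ℓ` has weight divisible by `ℓ - 1` (block SD), and
* (TR)  the trace of powers: for `G ∈ M₂(Γ₀(p))` and odd `N` there is a level-one form of weight
        `2N` with `q`-expansion `g ^ N - p ^ (1 - N) U_p ((U_p g) ^ N)`, `g` the `q`-expansion of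
        `G` (block B1: trace formula + `G|W = -U_p G`).
Route: `p + 1 = ℓ ^ s u`, `N = ℓ ^ s`; `g ≡ 1 mod ℓ` gives `g ^ N ≡ (U_p g) ^ N ≡ 1 mod ℓ ^ (s+1)`,
so the trace is `≡ 1 - p ^ (1 - N) = ℓ ^ s · unit mod ℓ ^ (s+1)`; divide by `ℓ ^ s`; (SD) forces
`(ℓ - 1) ∣ 2 ℓ ^ s`, impossible for `ℓ ≥ 5`.
-/
import Fermat.Agent.S16.Defs

set_option autoImplicit false

namespace Fermat.Agent.S16

namespace SDConsumer

open PowerSeries

/-! ### The operator `U_p` on power series -/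

section UOp

variable {R : Type*} [CommRing R]

/-- `U_d` on power series: `∑ aₙ qⁿ ↦ ∑ a_{n d} qⁿ`. -/
noncomputable def uOp (d : ℕ) : PowerSeries R →+ PowerSeries R where
  toFun f := PowerSeries.mk fun n => PowerSeries.coeff (n * d) f
  map_zero' := by ext n; simp
  map_add' f g := by ext n; simp

@[simp] theorem coeff_uOp (d n : ℕ) (f : PowerSeries R) :
    PowerSeries.coeff n (uOp d f) = PowerSeries.coeff (n * d) f := by
  simp [uOp]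

theorem uOp_one {d : ℕ} (hd : d ≠ 0) : uOp d (1 : PowerSeries R) = 1 := by
  ext n
  rw [coeff_uOp, PowerSeries.coeff_one, PowerSeries.coeff_one]
  simp [hd]

theorem uOp_C_mul (d : ℕ) (a : R) (f : PowerSeries R) :
    uOp d (PowerSeries.C a * f) = PowerSeries.C a * uOp d f := by
  ext n
  simp

theorem uOp_map {S : Type*} [CommRing S] (φ : R →+* S) (d : ℕ) (f : PowerSeries R) :
    uOp d (PowerSeries.map φ f) = PowerSeries.map φ (uOp d f) := by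
  ext n
  simp

/-- `U_d` preserves divisibility by a constant. -/
theorem dvd_uOp {d : ℕ} (a : R) {f : PowerSeries R} (h : PowerSeries.C a ∣ f) :
    PowerSeries.C a ∣ uOp d f := by
  obtain ⟨g, rfl⟩ := h
  exact ⟨uOp d g, uOp_C_mul d a g⟩

end UOp

/-! ### The subring `ℤ_(ℓ)` of `ℚ` -/

/-- The rationals whose denominator is prime to `ℓ`. -/
def locInt (ℓ : ℕ) [hℓ : Fact ℓ.Prime] : Subring ℚ where
  carrier := {x | ¬ ℓ ∣ x.den}
  mul_mem' {a b} ha hb := by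
    intro h
    rcases (hℓ.out.dvd_mul).mp (h.trans (Rat.mul_den_dvd a b)) with h1 | h1
    · exact ha h1
    · exact hb h1
  one_mem' := by
    show ¬ ℓ ∣ (1 : ℚ).den
    rw [Rat.den_one]; exact fun h => hℓ.out.one_lt.ne' (Nat.dvd_one.mp h)
  add_mem' {a b} ha hb := by
    intro h
    rcases (hℓ.out.dvd_mul).mp (h.trans (Rat.add_den_dvd a b)) with h1 | h1
    · exact ha h1
    · exact hb h1
  zero_mem' := by
    show ¬ ℓ ∣ (0 : ℚ).den
    rw [Rat.den_zero]; exact fun h => hℓ.out.one_lt.ne' (Nat.dvd_one.mp h)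
  neg_mem' {a} ha := by
    show ¬ ℓ ∣ (-a).den
    rw [Rat.neg_den]; exact ha

theorem mem_locInt {ℓ : ℕ} [Fact ℓ.Prime] {x : ℚ} : x ∈ locInt ℓ ↔ ¬ ℓ ∣ x.den := Iff.rfl

/-- Division by `ℓ` inside `ℤ_(ℓ)` for a rational whose numerator is divisible by `ℓ`. -/
theorem div_mem_locInt {ℓ : ℕ} [hℓ : Fact ℓ.Prime] {x : ℚ} (hx : x ∈ locInt ℓ)
    (hnum : (ℓ : ℤ) ∣ x.num) : x / ℓ ∈ locInt ℓ := by
  obtain ⟨c, hc⟩ := hnum
  have hℓ0 : (ℓ : ℚ) ≠ 0 := Nat.cast_ne_zero.mpr hℓ.out.ne_zero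
  have h1 : x / ℓ = Rat.divInt c (x.den : ℤ) := by
    rw [Rat.divInt_eq_div]
    conv_lhs => rw [← Rat.num_div_den x, hc]
    push_cast
    field_simp
  rw [mem_locInt, h1]
  intro h
  have h2 : ((Rat.divInt c (x.den : ℤ)).den : ℤ) ∣ (x.den : ℤ) := Rat.den_dvd c x.den
  exact hx (Int.natCast_dvd_natCast.mp ((Int.natCast_dvd_natCast.mpr h).trans h2))

/-- Conversely: a multiple of `ℓ` in `ℤ_(ℓ)` has numerator divisible by `ℓ`. -/
theorem num_dvd_of_eq_mul {ℓ : ℕ} [hℓ : Fact ℓ.Prime] {x y : ℚ} (hy : y ∈ locInt ℓ)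
    (h : x = ℓ * y) : (ℓ : ℤ) ∣ x.num := by
  have h1 : (x.num : ℚ) * (y.den : ℚ) = (ℓ : ℚ) * (y.num : ℚ) * (x.den : ℚ) := by
    have hx := (Rat.mul_den_eq_num x).symm
    have hy' := (Rat.mul_den_eq_num y).symm
    rw [hx, hy', h]; ring
  have h2 : x.num * (y.den : ℤ) = (ℓ : ℤ) * y.num * (x.den : ℤ) := by exact_mod_cast h1
  have h3 : (ℓ : ℤ) ∣ x.num * (y.den : ℤ) := ⟨y.num * x.den, by rw [h2]; ring⟩
  have hp : Prime (ℓ : ℤ) := Nat.prime_iff_prime_int.mp hℓ.out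
  rcases hp.dvd_or_dvd h3 with h4 | h4
  · exact h4
  · exact absurd (Int.natCast_dvd_natCast.mp h4) hy

/-- `p ^ (ℓ ^ s - 1) - 1 = ℓ ^ s · w` with `ℓ ∤ w`, if `ℓ ^ s ∥ p + 1` (`ℓ` an odd prime, `s ≥ 1`). -/
theorem pow_sub_one_eq {ℓ p s : ℕ} (hℓ : ℓ.Prime) (hℓ3 : 3 ≤ ℓ) (hs : 1 ≤ s)
    (a : ℤ) (ha : (p : ℤ) + 1 = (ℓ : ℤ) ^ s * a) (haℓ : ¬ (ℓ : ℤ) ∣ a) :
    ∃ w : ℤ, (p : ℤ) ^ (ℓ ^ s - 1) - 1 = (ℓ : ℤ) ^ s * w ∧ ¬ (ℓ : ℤ) ∣ w := by
  have hpr : Prime (ℓ : ℤ) := Nat.prime_iff_prime_int.mp hℓ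
  -- `ℓ ^ s - 1 = 2 n'`
  have hodd : Odd (ℓ ^ s) := (hℓ.odd_of_ne_two (by omega)).pow
  obtain ⟨n', hn'⟩ := hodd
  have hN : ℓ ^ s - 1 = 2 * n' := by omega
  -- `ℓ ∤ n'`
  have hℓn' : ¬ (ℓ : ℤ) ∣ (n' : ℤ) := by
    intro h
    have h1 : (ℓ : ℤ) ∣ ((ℓ ^ s : ℕ) : ℤ) := by
      push_cast; exact dvd_pow_self _ (by omega)
    have h2 : ((ℓ ^ s : ℕ) : ℤ) = 2 * n' + 1 := by exact_mod_cast hn'
    have h3 : (ℓ : ℤ) ∣ 1 := by
      have : (1 : ℤ) = ((ℓ ^ s : ℕ) : ℤ) - 2 * n' := by rw [h2]; ring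
      rw [this]; exact dvd_sub h1 (Dvd.dvd.mul_left h 2)
    exact hpr.not_dvd_one h3
  -- `ℓ ∣ p + 1`, `ℓ ∤ p - 1`
  have hℓp1 : (ℓ : ℤ) ∣ (p : ℤ) + 1 := by
    rw [ha]; exact Dvd.dvd.mul_right (dvd_pow_self _ (by omega)) _
  have hℓpm1 : ¬ (ℓ : ℤ) ∣ (p : ℤ) - 1 := by
    intro h
    have h2 : (ℓ : ℤ) ∣ 2 := by
      have : (2 : ℤ) = ((p : ℤ) + 1) - ((p : ℤ) - 1) := by ring
      rw [this]; exact dvd_sub hℓp1 h
    have := Int.le_of_dvd (by norm_num) h2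
    omega
  -- `x = p ^ 2 ≡ 1 mod ℓ`
  set x : ℤ := (p : ℤ) ^ 2 with hx
  have hx1 : x - 1 = ((p : ℤ) - 1) * ((ℓ : ℤ) ^ s * a) := by rw [hx, ← ha]; ring
  have hxmod : (ℓ : ℤ) ∣ x - 1 := by
    rw [hx1]; exact Dvd.dvd.mul_left (Dvd.dvd.mul_right (dvd_pow_self _ (by omega)) _) _
  -- the geometric sum is `≡ n' mod ℓ`
  set S : ℤ := ∑ i ∈ Finset.range n', x ^ i with hS
  have hSmod : (ℓ : ℤ) ∣ S - n' := by
    have : S - n' = ∑ i ∈ Finset.range n', (x ^ i - 1) := by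
      rw [hS, Finset.sum_sub_distrib]; simp
    rw [this]
    refine Finset.dvd_sum fun i _ => ?_
    exact hxmod.trans (sub_one_dvd_pow_sub_one x i)
  have hℓS : ¬ (ℓ : ℤ) ∣ S := by
    intro h
    apply hℓn'
    have : (n' : ℤ) = S - (S - n') := by ring
    rw [this]; exact dvd_sub h hSmod
  refine ⟨S * ((p : ℤ) - 1) * a, ?_, ?_⟩
  · have hgeom := geom_sum_mul x n'
    rw [hN, pow_mul, ← hx, ← hgeom, ← hS, hx1]; ring
  · intro h
    rcases hpr.dvd_or_dvd h with h1 | h1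
    · rcases hpr.dvd_or_dvd h1 with h2 | h2
      · exact hℓS h2
      · exact hℓpm1 h2
    · exact haℓ h1


/-! ### The two inputs -/

open ModularFormClass UpperHalfPlane in
/-- (SD) Swinnerton-Dyer, special case, for level-one forms on the group `Γ1`. -/
def SDProp (Γ1 : Subgroup (GL (Fin 2) ℝ)) (ℓ : ℕ) : Prop :=
  ∀ (k : ℕ) (f : ModularForm Γ1 (k : ℤ)) (r : ℕ → ℚ),
    (∀ n, PowerSeries.coeff n (qExpansion 1 f) = (r n : ℂ)) → (∀ n, ¬ ℓ ∣ (r n).den) →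
    (∀ n, 1 ≤ n → (ℓ : ℤ) ∣ (r n).num) → ¬ (ℓ : ℤ) ∣ (r 0).num → (ℓ - 1) ∣ k

open ModularFormClass UpperHalfPlane in
/-- (TR) the trace of the `N`-th power (`N` odd) of a weight-2 form on `Γ₀(p)`. -/
def TracePowProp (Γ1 : Subgroup (GL (Fin 2) ℝ)) (p : ℕ) : Prop :=
  ∀ (G : ModularForm (CongruenceSubgroup.Gamma0 p) 2) (N : ℕ), Odd N →
    ∃ T : ModularForm Γ1 ((2 * N : ℕ) : ℤ),
      qExpansion 1 T = (qExpansion 1 G) ^ N -
        PowerSeries.C (((p : ℂ)⁻¹) ^ (N - 1)) * uOp p ((uOp p (qExpansion 1 G)) ^ N)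

open PowerSeries ModularFormClass UpperHalfPlane in

/-- **Block CH**: no weight-2 form on `Γ₀(p)` is `≡ 1 mod ℓ`, for a prime `ℓ ≥ 5` dividing `p + 1`. -/
theorem noUnitForm_of_sd_trace {Γ1 : Subgroup (GL (Fin 2) ℝ)} [Γ1.HasDetOne] (h1Γ : (1 : ℝ) ∈ Γ1.strictPeriods)
    {p ℓ : ℕ} [hℓ : Fact ℓ.Prime] (hp : p.Prime) (hℓ5 : 5 ≤ ℓ) (hdvd : ℓ ∣ p + 1)
    (hSD : SDProp Γ1 ℓ) (hTR : TracePowProp Γ1 p) : NoUnitForm p ℓ 1 := by
  classical
  rintro ⟨G, r, hr, hint, hr0, hpos⟩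
  have hℓpr : ℓ.Prime := hℓ.out
  have hpos' : ∀ k, 1 ≤ k → (ℓ : ℤ) ∣ (r k).num := fun k hk => by simpa using hpos k hk
  have hprime : Prime (ℓ : ℤ) := Nat.prime_iff_prime_int.mp hℓpr
  -- `p + 1 = ℓ ^ s * a`
  obtain ⟨s, a, haℓ, hsa⟩ := Nat.exists_eq_pow_mul_and_not_dvd (Nat.succ_ne_zero p) ℓ
    hℓpr.one_lt.ne'
  have hs : 1 ≤ s := by
    rcases Nat.eq_zero_or_pos s with h0 | h0
    · exfalso; rw [h0, pow_zero, one_mul] at hsa
      exact haℓ (hsa ▸ hdvd)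
    · exact h0
  have hℓp : ¬ ℓ ∣ p := by
    intro h
    have : ℓ ∣ 1 := (Nat.dvd_add_right h).mp hdvd
    exact hℓpr.one_lt.ne' (Nat.dvd_one.mp this)
  set N : ℕ := ℓ ^ s with hN
  have hNodd : Odd N := (hℓpr.odd_of_ne_two (by omega)).pow
  have hN1 : 1 ≤ N := Nat.one_le_pow _ _ hℓpr.pos
  obtain ⟨w, hw, hwℓ⟩ := pow_sub_one_eq (p := p) hℓpr (by omega) hs (a : ℤ)
    (by exact_mod_cast hsa) (by exact_mod_cast haℓ)
  -- the ring `A = ℤ_(ℓ)` and the power series over it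
  let A := locInt ℓ
  let ι : A →+* ℂ := (algebraMap ℚ ℂ).comp A.subtype
  let gA : PowerSeries A := PowerSeries.mk fun k => ⟨r k, hint k⟩
  have hgA : PowerSeries.map ι gA = qExpansion 1 G := by
    ext k
    rw [PowerSeries.coeff_map, PowerSeries.coeff_mk]
    exact (hr k).symm
  have hℓC : ((ℓ : ℕ) : PowerSeries A) = PowerSeries.C ((ℓ : ℕ) : A) := (map_natCast _ ℓ).symm
  -- `ℓ ∣ gA - 1`
  have hg1 : ((ℓ : ℕ) : PowerSeries A) ∣ gA - 1 := by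
    refine ⟨PowerSeries.mk fun k => if hk : k = 0 then 0 else
      ⟨r k / ℓ, div_mem_locInt (hint k) (hpos' k (Nat.one_le_iff_ne_zero.mpr hk))⟩, ?_⟩
    refine PowerSeries.ext fun k => Subtype.ext ?_
    rw [hℓC, PowerSeries.coeff_C_mul, PowerSeries.coeff_mk, map_sub, PowerSeries.coeff_mk,
      PowerSeries.coeff_one]
    have hℓ0 : (ℓ : ℚ) ≠ 0 := Nat.cast_ne_zero.mpr hℓpr.ne_zero
    by_cases hk : k = 0
    · subst hk
      simp [hr0]
    · simp only [hk, dite_false, if_false, sub_zero, Subring.coe_mul, Subring.coe_natCast]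
      field_simp
  -- powers
  have hgN : ((ℓ : ℕ) : PowerSeries A) ^ (s + 1) ∣ gA ^ N - 1 := by
    have := dvd_sub_pow_of_dvd_sub (R := PowerSeries A) (p := ℓ) (a := gA) (b := 1) hg1 s
    rwa [one_pow] at this
  have hp0 : p ≠ 0 := hp.ne_zero
  set u : PowerSeries A := uOp p gA with hu
  have hu1 : ((ℓ : ℕ) : PowerSeries A) ∣ u - 1 := by
    have : u - 1 = uOp p (gA - 1) := by rw [map_sub, uOp_one hp0]
    rw [this, hℓC]
    exact dvd_uOp _ (hℓC ▸ hg1)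
  have huN : ((ℓ : ℕ) : PowerSeries A) ^ (s + 1) ∣ u ^ N - 1 := by
    have := dvd_sub_pow_of_dvd_sub (R := PowerSeries A) (p := ℓ) (a := u) (b := 1) hu1 s
    rwa [one_pow] at this
  have hℓCpow : ((ℓ : ℕ) : PowerSeries A) ^ (s + 1) = PowerSeries.C (((ℓ : ℕ) : A) ^ (s + 1)) := by
    rw [hℓC, map_pow]
  set V : PowerSeries A := uOp p (u ^ N) with hV
  have hV1 : ((ℓ : ℕ) : PowerSeries A) ^ (s + 1) ∣ V - 1 := by
    have : V - 1 = uOp p (u ^ N - 1) := by rw [map_sub, uOp_one hp0]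
    rw [this, hℓCpow]
    exact dvd_uOp _ (hℓCpow ▸ huN)
  -- the constant `c = p ^ (1 - N)`
  have hpinv : ((p : ℚ)⁻¹) ∈ A := by
    rw [mem_locInt]
    have : ((p : ℚ)⁻¹).den = p := by
      rw [Rat.inv_natCast_den]; simp [hp0]
    rw [this]; exact hℓp
  let pinv : A := ⟨(p : ℚ)⁻¹, hpinv⟩
  set cA : A := pinv ^ (N - 1) with hcA
  obtain ⟨T, hT⟩ := hTR G N hNodd
  set tA : PowerSeries A := gA ^ N - PowerSeries.C cA * V with htA
  have htAT : PowerSeries.map ι tA = qExpansion 1 T := by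
    have hιc : ι cA = ((p : ℂ)⁻¹) ^ (N - 1) := by
      rw [hcA, map_pow]; congr 1; simp [pinv, ι]
    rw [hT, htA, map_sub, map_mul, PowerSeries.map_C, hιc, hV, ← uOp_map]
    simp only [map_pow]
    rw [← uOp_map, hgA]
  -- `1 - cA = ℓ ^ s * u'`
  set u' : A := (w : A) * cA with hu'
  have hpA : ((p : ℕ) : A) * pinv = 1 := by
    apply Subtype.ext
    have : (p : ℚ) ≠ 0 := Nat.cast_ne_zero.mpr hp0
    simp [pinv, this]
  have hcA1 : ((p : ℕ) : A) ^ (N - 1) * cA = 1 := by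
    rw [hcA, ← mul_pow, hpA, one_pow]
  have h1c : (1 : A) - cA = ((ℓ : ℕ) : A) ^ s * u' := by
    have hwA : (((p : ℕ) : A) ^ (N - 1) - 1) = ((ℓ : ℕ) : A) ^ s * (w : A) := by
      have := congrArg (Int.cast : ℤ → A) hw
      push_cast at this
      rw [hN]
      exact this
    calc (1 : A) - cA = (((p : ℕ) : A) ^ (N - 1) - 1) * cA := by rw [sub_mul, hcA1, one_mul]
      _ = ((ℓ : ℕ) : A) ^ s * u' := by rw [hwA, hu']; ring
  -- `u' ∉ ℓ A`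
  have hu'ℓ : ∀ y : A, u' ≠ ((ℓ : ℕ) : A) * y := by
    intro y hy
    apply hwℓ
    -- `w = ℓ * (y * p ^ (N-1))`
    have h2 : (w : A) = ((ℓ : ℕ) : A) * (y * ((p : ℕ) : A) ^ (N - 1)) := by
      calc (w : A) = (w : A) * (((p : ℕ) : A) ^ (N - 1) * cA) := by rw [hcA1, mul_one]
        _ = u' * ((p : ℕ) : A) ^ (N - 1) := by rw [hu']; ring
        _ = ((ℓ : ℕ) : A) * (y * ((p : ℕ) : A) ^ (N - 1)) := by rw [hy]; ring
    have h3 : ((w : ℤ) : ℚ) = (ℓ : ℚ) * ((y * ((p : ℕ) : A) ^ (N - 1) : A) : ℚ) := by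
      have := congrArg (Subtype.val : A → ℚ) h2
      simpa using this
    have := num_dvd_of_eq_mul (y * ((p : ℕ) : A) ^ (N - 1) : A).2 h3
    simpa using this
  -- `tA = ℓ ^ s * fA`, `fA = C u' + ℓ * h''`
  obtain ⟨h₁, hh₁⟩ := hgN
  obtain ⟨h₂, hh₂⟩ := hV1
  set h'' : PowerSeries A := h₁ - PowerSeries.C cA * h₂ with hh''
  set fA : PowerSeries A := PowerSeries.C u' + ((ℓ : ℕ) : PowerSeries A) * h'' with hfA
  have htf : tA = ((ℓ : ℕ) : PowerSeries A) ^ s * fA := by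
    have e1 : gA ^ N = 1 + ((ℓ : ℕ) : PowerSeries A) ^ (s + 1) * h₁ := by rw [← hh₁]; ring
    have e2 : V = 1 + ((ℓ : ℕ) : PowerSeries A) ^ (s + 1) * h₂ := by rw [← hh₂]; ring
    have e3 : (PowerSeries.C (1 - cA) : PowerSeries A)
        = ((ℓ : ℕ) : PowerSeries A) ^ s * PowerSeries.C u' := by
      rw [h1c, map_mul, map_pow, hℓC]
    have e4 : (PowerSeries.C (1 - cA) : PowerSeries A) = 1 - PowerSeries.C cA := by
      rw [map_sub, map_one]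
    have e5 : (1 : PowerSeries A) - PowerSeries.C cA
        = ((ℓ : ℕ) : PowerSeries A) ^ s * PowerSeries.C u' := by rw [← e4, e3]
    rw [htA, hfA, hh'']
    linear_combination e1 - PowerSeries.C cA * e2 + e5
  -- the level-one form `F = ℓ ^ (-s) T`
  have hℓsC : ((ℓ : ℂ) ^ s) ≠ 0 := pow_ne_zero _ (Nat.cast_ne_zero.mpr hℓpr.ne_zero)
  set F : ModularForm Γ1 ((2 * N : ℕ) : ℤ) := (((ℓ : ℂ) ^ s)⁻¹) • T with hF
  have hFq : qExpansion 1 F = PowerSeries.map ι fA := by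
    have h := ModularForm.qExpansion_smul (k := ((2 * N : ℕ) : ℤ)) one_pos h1Γ
      (((ℓ : ℂ) ^ s)⁻¹) T
    have hcoe : (⇑F : ℍ → ℂ) = (((ℓ : ℂ) ^ s)⁻¹) • ⇑T := rfl
    rw [hcoe, h, ← htAT, htf, map_mul, map_pow, map_natCast]
    ext n
    rw [PowerSeries.coeff_smul, ← map_natCast (PowerSeries.C (R := ℂ)), ← map_pow,
      PowerSeries.coeff_C_mul, smul_eq_mul, ← mul_assoc]
    rw [inv_mul_cancel₀ hℓsC, one_mul]
  let rF : ℕ → ℚ := fun n => ((PowerSeries.coeff n fA : A) : ℚ)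
  have hk := hSD (2 * N) F rF
    (fun n => by rw [hFq, PowerSeries.coeff_map]; rfl)
    (fun n => (PowerSeries.coeff n fA : A).2)
    (fun n hn => by
      have hn0 : n ≠ 0 := by omega
      have : (PowerSeries.coeff n fA : A) = ((ℓ : ℕ) : A) * PowerSeries.coeff n h'' := by
        rw [hfA, map_add, PowerSeries.coeff_C, if_neg hn0, zero_add, hℓC,
          PowerSeries.coeff_C_mul]
      exact num_dvd_of_eq_mul (PowerSeries.coeff n h'' : A).2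
        (by show ((PowerSeries.coeff n fA : A) : ℚ) = _; rw [this]; simp))
    (by
      intro hnum
      have h0 : (PowerSeries.coeff 0 fA : A) = u' + ((ℓ : ℕ) : A) * PowerSeries.coeff 0 h'' := by
        rw [hfA, map_add, PowerSeries.coeff_C, if_pos rfl, hℓC, PowerSeries.coeff_C_mul]
      have hmem := div_mem_locInt (PowerSeries.coeff 0 fA : A).2 hnum
      refine hu'ℓ (⟨_, hmem⟩ - PowerSeries.coeff 0 h'') ?_
      apply Subtype.ext
      have hℓ0 : (ℓ : ℚ) ≠ 0 := Nat.cast_ne_zero.mpr hℓpr.ne_zero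
      have h0' := congrArg (Subtype.val : A → ℚ) h0
      simp only [Subring.coe_add, Subring.coe_mul, Subring.coe_natCast] at h0'
      simp only [Subring.coe_mul, Subring.coe_natCast, AddSubgroupClass.coe_sub]
      show (u' : ℚ) = (ℓ : ℚ) * (rF 0 / ℓ - _)
      show (u' : ℚ) = (ℓ : ℚ) * (((PowerSeries.coeff 0 fA : A) : ℚ) / ℓ - _)
      rw [h0']
      field_simp
      ring)
  -- `(ℓ - 1) ∣ 2 ℓ ^ s` is impossible
  have h5 : ℓ - 1 ∣ ℓ ^ s - 1 := by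
    exact Nat.sub_one_dvd_pow_sub_one ℓ s
  have h6 : ℓ - 1 ∣ 2 := by
    have h7 : 2 * N = 2 * (ℓ ^ s - 1) + 2 := by
      have : 1 ≤ ℓ ^ s := hN1
      omega
    rw [h7] at hk
    exact (Nat.dvd_add_right (Dvd.dvd.mul_left h5 2)).mp hk
  have := Nat.le_of_dvd (by norm_num) h6
  omega

end SDConsumer

end Fermat.Agent.S16
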