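/-
P-S16, block CH adapters (helper16): the two inputs of `SDConsumer.noUnitForm_of_sd_trace` for the
level-one group `𝒮ℒ`:
* `sdProp`       : `SDConsumer.SDProp 𝒮ℒ ℓ` for primes `ℓ ≥ 5`, from the Swinnerton-Dyer package
                   (`SD.weight_dvd_of_congr_const_of_ramanujan`, `SD.ramanujanZ`);
* `tracePowProp` : `SDConsumer.TracePowProp 𝒮ℒ p`, from the trace formula
                   `Tr f = f + p^(2-k) U_p (f ∣ W)` and `G ∣ W = -U_p G` in weight 2 (block B1) and the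
                   power rule `(G^N) ∣[2N] W = p^(N-1) (G ∣[2] W)^N` (Mathlib `prod_slash`);
and the resulting `noUnitForm_sd : NoUnitForm p ℓ 1` for primes `ℓ ≥ 5` dividing `p + 1`.
-/
import Mathlib
import Fermat.Agent.S16.SDConsumer
import Fermat.Agent.S16.TraceProduct
import Fermat.Agent.S16.SD.MainCond
import Fermat.Agent.S16.SD.Ramanujan

set_option autoImplicit false

noncomputable section

open UpperHalfPlane ModularForm Complex MatrixGroups CongruenceSubgroup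
open scoped ModularForm

namespace Fermat.Agent.S16.SDAdapter

open Fermat.Agent.S16.AtkinLehner Fermat.Agent.S16.TraceProduct Fermat.Agent.S16.SDConsumer
open Matrix.SpecialLinearGroup (mapGL)
open ModularFormClass (qCoeff)

/-! ### (SD) -/

/-- Swinnerton-Dyer's special case in the shape used by `SDConsumer`. -/
theorem sdProp (ℓ : ℕ) [Fact ℓ.Prime] (hℓ : 5 ≤ ℓ) : SDProp 𝒮ℒ ℓ := by
  intro k f r hr hint hpos h0
  exact SD.weight_dvd_of_congr_const_of_ramanujan SD.ramanujanZ hℓ f r hr hint hpos h0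

/-! ### (TR) -/

variable (p : ℕ) [Fact p.Prime]

/-- The `N`-th power of a weight-2 form, as a form of weight `2 N`. -/
def powForm (G : ModularForm (Gamma0 p) 2) (N : ℕ) :
    ModularForm (Gamma0 p) ((2 * N : ℕ) : ℤ) :=
  ModularForm.mcast (by push_cast; ring) (G.pow N) rfl

theorem coe_powForm (G : ModularForm (Gamma0 p) 2) (N : ℕ) :
    (powForm p G N : ℍ → ℂ) = (G : ℍ → ℂ) ^ N := by
  rw [powForm, ModularForm.coe_mcast, ModularForm.coe_pow]

theorem qExpansion_powForm (G : ModularForm (Gamma0 p) 2) (N : ℕ) :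
    qExpansion 1 (powForm p G N) = (qExpansion 1 G) ^ N := by
  rw [powForm, ModularForm.qExpansion_mcast,
    ModularForm.qExpansion_pow one_pos (CongruenceSubgroup.one_mem_strictPeriods_Gamma0 p)]

theorem qExpansion_Up {k : ℤ} (H : ModularForm (Gamma0 p) k) :
    qExpansion 1 (Up p H) = uOp p (qExpansion 1 H) := by
  ext n
  rw [coeff_uOp]
  exact qCoeff_Up p H n

/-- The power rule for the Fricke involution. -/
theorem pow_slash_fricke (f : ℍ → ℂ) (N : ℕ) :
    (f ^ N) ∣[((2 * N : ℕ) : ℤ)] frickeMat p =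
      ((p : ℂ) ^ ((N : ℤ) - 1)) • (f ∣[(2 : ℤ)] frickeMat p) ^ N := by
  have hp : p.Prime := Fact.out
  have : NeZero p := ⟨hp.ne_zero⟩
  have h := ModularForm.prod_slash (k := 2) (g := frickeMat p) (f := fun _ : ℕ => f)
    (s := Finset.range N)
  simp only [Finset.prod_const, Finset.card_range] at h
  have e : ((2 * N : ℕ) : ℤ) = 2 * (N : ℤ) := by push_cast; ring
  rw [e, h, det_frickeMat, abs_of_pos (Nat.cast_pos.mpr hp.pos)]
  funext z
  simp only [Pi.smul_apply, Pi.pow_apply, real_smul, smul_eq_mul]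
  push_cast
  rfl

theorem trace_powForm (G : ModularForm (Gamma0 p) 2) (N : ℕ) (hN : Odd N) :
    (ModularForm.trace (mapGL ℝ : SL(2, ℤ) →* GL (Fin 2) ℝ).range (powForm p G N) : ℍ → ℂ) =
      (powForm p G N : ℍ → ℂ) +
        (-(((p : ℂ)⁻¹) ^ (N - 1))) • (Up p (powForm p (Up p G) N) : ℍ → ℂ) := by
  have hp : p.Prime := Fact.out
  have hp0 : (p : ℂ) ≠ 0 := Nat.cast_ne_zero.mpr hp.ne_zero
  have hN1 : 1 ≤ N := hN.pos
  rw [trace_eq p (powForm p G N), coe_powForm, pow_slash_fricke, fricke_eq_neg_heckeU,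
    hN.neg_pow, ← coe_Up, ← coe_powForm p (Up p G) N, smul_neg, heckeU_neg, heckeU_smul, coe_Up]
  have hc : (p : ℂ) ^ (2 - ((2 * N : ℕ) : ℤ)) * (p : ℂ) ^ ((N : ℤ) - 1) =
      ((p : ℂ)⁻¹) ^ (N - 1) := by
    rw [← zpow_add₀ hp0, ← zpow_natCast, ← zpow_neg_one, ← zpow_mul]
    congr 1
    push_cast [hN1]
    ring
  funext z
  simp only [Pi.add_apply, Pi.neg_apply, Pi.smul_apply, smul_eq_mul]
  rw [← hc]
  ring

/-- (TR) for the level-one group `𝒮ℒ`. -/
theorem tracePowProp : TracePowProp 𝒮ℒ p := by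
  intro G N hN
  refine ⟨ModularForm.trace (mapGL ℝ : SL(2, ℤ) →* GL (Fin 2) ℝ).range (powForm p G N), ?_⟩
  rw [trace_powForm p G N hN]
  have h2 : ((-(((p : ℂ)⁻¹) ^ (N - 1)) • Up p (powForm p (Up p G) N) :
      ModularForm (Gamma0 p) ((2 * N : ℕ) : ℤ)) : ℍ → ℂ) =
      (-(((p : ℂ)⁻¹) ^ (N - 1))) • (Up p (powForm p (Up p G) N) : ℍ → ℂ) := rfl
  rw [← h2, ModularForm.qExpansion_add one_pos (CongruenceSubgroup.one_mem_strictPeriods_Gamma0 p)
      (powForm p G N) (-(((p : ℂ)⁻¹) ^ (N - 1)) • Up p (powForm p (Up p G) N)), h2,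
    ModularForm.qExpansion_smul one_pos (CongruenceSubgroup.one_mem_strictPeriods_Gamma0 p)
      (-(((p : ℂ)⁻¹) ^ (N - 1))) (Up p (powForm p (Up p G) N)),
    qExpansion_powForm, qExpansion_Up, qExpansion_powForm, qExpansion_Up]
  ext n
  simp only [map_add, map_sub, PowerSeries.coeff_smul, PowerSeries.coeff_C_mul, smul_eq_mul]
  ring

/-! ### The block -/

/-- **Block SD + CH**: for a prime `ℓ ≥ 5` dividing `p + 1` there is no weight-2 form on `Γ₀(p)`
with `ℓ`-integral `q`-expansion congruent to `1` modulo `ℓ`. -/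
theorem noUnitForm_sd (ℓ : ℕ) (hℓ : ℓ.Prime) (hℓ5 : 5 ≤ ℓ) (hdvd : ℓ ∣ p + 1) :
    NoUnitForm p ℓ 1 := by
  have : Fact ℓ.Prime := ⟨hℓ⟩
  exact noUnitForm_of_sd_trace one_mem_strictPeriods_SL (Fact.out : p.Prime) hℓ5 hdvd
    (sdProp ℓ hℓ5) (tracePowProp p)

end Fermat.Agent.S16.SDAdapter
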